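import Fermat.Agent.Corollaries.K4.Small.Desc15

/-!
# The curve `(p ^ 2 + p l + l ^ 2) (p ^ 2 + 5 p l + l ^ 2) = r ^ 2` of conductor `21`

Its only rational points have `p l = 0`: for coprime integers `m`, `n` with `m n ≠ 0` the numbers
`m ^ 2 + m n + n ^ 2` and `m ^ 2 + 5 m n + n ^ 2` are not both squares. Infinite descent on `m ^ 2 + n ^ 2`.
-/

set_option autoImplicit false

namespace Fermat.Agent.Cor.MT.D21

open Fermat.Agent.Cor.Small

theorem dvd_seven {a d k : ℤ} (had : IsCoprime a d) (h1 : k ∣ 7 * a ^ 2) (h2 : k ∣ 7 * d ^ 2) :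
    k = 1 ∨ k = -1 ∨ k = 7 ∨ k = -7 := by
  have h3 : IsCoprime (a ^ 2) (d ^ 2) := had.pow
  obtain ⟨x, y, hxy⟩ := h3
  have h4 : k ∣ 7 := by
    have := dvd_add (h1.mul_left x) (h2.mul_left y)
    rwa [show x * (7 * a ^ 2) + y * (7 * d ^ 2) = 7 by linear_combination 7 * hxy] at this
  have h5 : k.natAbs ∣ 7 := by exact_mod_cast Int.natAbs_dvd_natAbs.mpr h4
  rcases (Nat.dvd_prime (by norm_num : Nat.Prime 7)).mp h5 with h6 | h6 <;> omega

/-- The case `A`, `D` odd. -/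
theorem core_odd {A B C D : ℤ} (hA : Odd A) (hD : Odd D) (hAD : IsCoprime A D) (hB : B ≠ 0) (hC : C ≠ 0)
    (h1 : A ^ 2 - D ^ 2 = 3 * (B * C)) (h2 : B ^ 2 - C ^ 2 = A * D) :
    ∃ m n α β : ℤ, IsCoprime m n ∧ m ^ 2 + m * n + n ^ 2 = α ^ 2 ∧
      m ^ 2 + 5 * m * n + n ^ 2 = β ^ 2 ∧ m ^ 2 + n ^ 2 < A ^ 2 * C ^ 2 + B ^ 2 * D ^ 2 ∧
      m * n ≠ 0 := by
  have hA0 : A ≠ 0 := by rintro rfl; simp at hA
  obtain ⟨a, b, c, d, hAac, hDbd, hv, hu⟩ := four_numbers (m := A) (n := D) (u := B + C) (v := B - C) hA0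
    (by rw [← h2]; ring)
  rw [hAac] at hA hAD hA0
  rw [hDbd] at hD hAD
  obtain ⟨oa, oc⟩ := Int.odd_mul.mp hA
  obtain ⟨ob, od⟩ := Int.odd_mul.mp hD
  have ha0 : a ≠ 0 := left_ne_zero_of_mul hA0
  have hb0 : b ≠ 0 := by rintro rfl; simp at ob
  have hc0 : c ≠ 0 := by rintro rfl; simp at oc
  have hd0 : d ≠ 0 := by rintro rfl; simp at od
  have cad : IsCoprime a d := hAD.of_mul_left_left.of_mul_right_right
  have ccb : IsCoprime c b := hAD.of_mul_left_right.of_mul_right_left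
  have e1 : 4 * (B * C) = (c * d) ^ 2 - (a * b) ^ 2 := by rw [← hu, ← hv]; ring
  have e2 : c ^ 2 * (3 * d ^ 2 - 4 * a ^ 2) = b ^ 2 * (3 * a ^ 2 - 4 * d ^ 2) := by
    rw [hAac, hDbd] at h1
    linear_combination -3 * e1 - 4 * h1
  obtain ⟨k, hk1, hk2⟩ := exists_quot hb0 ccb e2
  obtain ⟨a1, ha1⟩ := sq_odd oa
  obtain ⟨b1, hb1⟩ := sq_odd ob
  obtain ⟨c1, hc1⟩ := sq_odd oc
  obtain ⟨d1, hd1⟩ := sq_odd od
  have hk : k = -1 := by
    have h8 : k = 8 * (3 * d1 - 4 * a1 - b1 * k) - 1 := by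
      rw [ha1, hb1, hd1] at hk1
      linarith
    have hneg : k < 0 := by
      by_contra hk0
      push Not at hk0
      have h9 : -(a ^ 2 + d ^ 2) = k * (b ^ 2 + c ^ 2) := by linear_combination hk1 + hk2
      have h10 : 0 ≤ k * (b ^ 2 + c ^ 2) := by positivity
      have h11 : 0 < a ^ 2 := by positivity
      nlinarith [sq_nonneg d]
    have := dvd_seven (k := k) cad ⟨-(4 * b ^ 2 + 3 * c ^ 2), by linear_combination -4 * hk1 - 3 * hk2⟩
      ⟨-(3 * b ^ 2 + 4 * c ^ 2), by linear_combination -3 * hk1 - 4 * hk2⟩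
    omega
  rw [hk] at hk1 hk2
  obtain ⟨m, hm⟩ : ∃ m, d + b = 2 * m := by
    obtain ⟨x, hx⟩ := od
    obtain ⟨y, hy⟩ := ob
    exact ⟨x + y + 1, by rw [hx, hy]; ring⟩
  obtain ⟨n, hn⟩ : ∃ n, n = d - m := ⟨_, rfl⟩
  have hd : d = m + n := by rw [hn]; ring
  have hb : b = m - n := by rw [hn]; linarith
  have e3 : m ^ 2 + m * n + n ^ 2 = a ^ 2 := by
    have : 4 * (m ^ 2 + m * n + n ^ 2) = 4 * a ^ 2 := by
      rw [hd, hb] at hk1
      linear_combination hk1
    linarith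
  have e4 : m ^ 2 + 5 * m * n + n ^ 2 = c ^ 2 := by
    rw [hd] at hk2
    linear_combination -hk2 - 3 * e3
  have e5 : m * n = d ^ 2 - a ^ 2 := by rw [← e3, hd]; ring
  refine ⟨m, n, a, c, ?_, e3, e4, ?_, ?_⟩
  · have h3 : IsCoprime d (m * n) := by
      rw [e5]
      have := ((cad.symm.pow_right (n := 2)).neg_right).add_mul_left_right d
      rwa [show -a ^ 2 + d * d = d ^ 2 - a ^ 2 by ring] at this
    have h4 : IsCoprime (n + m * 1) m := by
      have := h3.of_mul_right_left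
      rwa [hd, show m + n = n + m * 1 by ring] at this
    exact h4.of_add_mul_left_left.symm
  · have h3 : m ^ 2 + n ^ 2 = 2 * a ^ 2 - d ^ 2 := by rw [← e3, hd]; ring
    rw [h3, hAac, hDbd]
    have hBC : Even B ∨ Even C := by
      by_contra hcon
      push Not at hcon
      have h4 : Odd (A * D) := by rw [hAac, hDbd]; exact hA.mul hD
      rw [← h2] at h4
      have h5 : Even (B ^ 2 - C ^ 2) :=
        ((Int.not_even_iff_odd.mp hcon.1).pow).sub_odd ((Int.not_even_iff_odd.mp hcon.2).pow)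
      exact (Int.not_even_iff_odd.mpr h4) h5
    have pa : 0 < a ^ 2 := by positivity
    have pd : 0 < d ^ 2 := by positivity
    have pb : 1 ≤ b ^ 2 := by have : 0 < b ^ 2 := by positivity
                              omega
    have pc : 1 ≤ c ^ 2 := by have : 0 < c ^ 2 := by positivity
                              omega
    have had : 3 * a ^ 2 ≤ 4 * d ^ 2 := by nlinarith [sq_nonneg c]
    rcases hBC with h6 | h6
    · have h7 : 4 ≤ B ^ 2 := by
        obtain ⟨x, hx⟩ := h6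
        have hx0 : x ≠ 0 := by rintro rfl; exact hB (by rw [hx]; ring)
        have : 0 < x ^ 2 := by positivity
        rw [hx]; nlinarith
      have h8 : 1 ≤ C ^ 2 := by have : 0 < C ^ 2 := by positivity
                                omega
      have h9 : a ^ 2 ≤ (a * c) ^ 2 * C ^ 2 := by
        calc a ^ 2 = a ^ 2 * (1 * 1) := by ring
          _ ≤ a ^ 2 * (c ^ 2 * C ^ 2) := by gcongr
          _ = (a * c) ^ 2 * C ^ 2 := by ring
      have h10 : 4 * d ^ 2 ≤ B ^ 2 * (b * d) ^ 2 := by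
        calc 4 * d ^ 2 = d ^ 2 * (4 * 1) := by ring
          _ ≤ d ^ 2 * (B ^ 2 * b ^ 2) := by gcongr
          _ = B ^ 2 * (b * d) ^ 2 := by ring
      linarith
    · have h7 : 4 ≤ C ^ 2 := by
        obtain ⟨x, hx⟩ := h6
        have hx0 : x ≠ 0 := by rintro rfl; exact hC (by rw [hx]; ring)
        have : 0 < x ^ 2 := by positivity
        rw [hx]; nlinarith
      have h9 : 4 * a ^ 2 ≤ (a * c) ^ 2 * C ^ 2 := by
        calc 4 * a ^ 2 = a ^ 2 * (1 * 4) := by ring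
          _ ≤ a ^ 2 * (c ^ 2 * C ^ 2) := by gcongr
          _ = (a * c) ^ 2 * C ^ 2 := by ring
      have h10 : 0 ≤ B ^ 2 * (b * d) ^ 2 := by positivity
      linarith
  · intro h0
    rw [e5] at h0
    have h3 : a ^ 2 = d ^ 2 := by linarith
    have h4 : b ^ 2 = c ^ 2 := by linarith
    have h5 : 4 * (B * C) = 0 := by
      rw [e1, mul_pow, mul_pow, h3, h4]; ring
    have h6 : B * C = 0 := by linarith
    exact mul_ne_zero hB hC h6

/-- The case `A` even is impossible. -/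
theorem core_even {A B C D : ℤ} (hA : Even A) (hAD : IsCoprime A D) (hA0 : A ≠ 0)
    (h1 : A ^ 2 - D ^ 2 = 3 * (B * C)) (h2 : B ^ 2 - C ^ 2 = A * D) : False := by
  have hD : Odd D := by
    rw [← Int.not_even_iff_odd]
    intro h4
    exact Int.prime_two.not_isUnit (hAD.isUnit_of_dvd' (even_iff_two_dvd.mp hA) (even_iff_two_dvd.mp h4))
  have hBC : Odd (B * C) := by
    have h3 : Odd (A ^ 2 - D ^ 2) := (hA.pow_of_ne_zero (by norm_num)).sub_odd hD.pow
    rw [h1] at h3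
    exact (Int.odd_mul.mp h3).2
  obtain ⟨hB, hC⟩ := Int.odd_mul.mp hBC
  obtain ⟨x, hx⟩ := hB
  obtain ⟨y, hy⟩ := hC
  obtain ⟨u, hu⟩ : ∃ u, B + C = 2 * u := ⟨x + y + 1, by rw [hx, hy]; ring⟩
  obtain ⟨v, hv⟩ : ∃ v, B - C = 2 * v := ⟨x - y, by rw [hx, hy]; ring⟩
  have huv : 4 * (u * v) = A * D := by
    rw [← h2]; linear_combination -(B - C) * hu - 2 * u * hv
  obtain ⟨A1, hA1⟩ : (4 : ℤ) ∣ A := by
    have h3 : IsCoprime (4 : ℤ) D := by
      have h4 : IsCoprime (2 : ℤ) D := by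
        obtain ⟨z, hz⟩ := hD
        exact ⟨-z, 1, by rw [hz]; ring⟩
      have := h4.pow_left (m := 2)
      norm_num at this
      exact this
    exact h3.dvd_of_dvd_mul_right ⟨u * v, huv.symm⟩
  have hA10 : A1 ≠ 0 := by rintro rfl; exact hA0 (by rw [hA1]; ring)
  have huv' : u * v = A1 * D := by
    rw [hA1] at huv
    linarith
  obtain ⟨a, b, c, d, hAac, hDbd, hv', hu'⟩ := four_numbers hA10 huv'
  have hAD' : IsCoprime (a * c) (b * d) := by
    rw [hA1, hAac, hDbd] at hAD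
    exact hAD.of_mul_left_right
  rw [hDbd] at hD
  obtain ⟨ob, od⟩ := Int.odd_mul.mp hD
  have hb0 : b ≠ 0 := by rintro rfl; simp at ob
  have cad : IsCoprime a d := hAD'.of_mul_left_left.of_mul_right_right
  have ccb : IsCoprime c b := hAD'.of_mul_left_right.of_mul_right_left
  have e1 : B * C = (c * d) ^ 2 - (a * b) ^ 2 := by
    rw [← hu', ← hv']
    have : 4 * (B * C) = 4 * (u ^ 2 - v ^ 2) := by
      linear_combination (B + C + 2 * u) * hu - (B - C + 2 * v) * hv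
    linarith
  have e2 : c ^ 2 * (3 * d ^ 2 - 16 * a ^ 2) = b ^ 2 * (3 * a ^ 2 - d ^ 2) := by
    rw [hA1, hAac, hDbd] at h1
    linear_combination -3 * e1 - h1
  obtain ⟨k, hk1, hk2⟩ := exists_quot hb0 ccb e2
  obtain ⟨b1, hb1⟩ := sq_odd ob
  obtain ⟨d1, hd1⟩ := sq_odd od
  have h8 : k = 8 * (3 * d1 - 2 * a ^ 2 - b1 * k) + 3 := by
    rw [hb1, hd1] at hk1
    linarith
  have := dvd_seven (k := k) cad ⟨-(b ^ 2 + 3 * c ^ 2), by linear_combination -hk1 - 3 * hk2⟩
    ⟨-(3 * b ^ 2 + 16 * c ^ 2), by linear_combination -3 * hk1 - 16 * hk2⟩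
  omega

/-- The step without parity. -/
theorem core21 {A B C D : ℤ} (hAD : IsCoprime A D) (hA : A ≠ 0) (hB : B ≠ 0) (hC : C ≠ 0) (hD : D ≠ 0)
    (h1 : A ^ 2 - D ^ 2 = 3 * (B * C)) (h2 : B ^ 2 - C ^ 2 = A * D) :
    ∃ m n α β : ℤ, IsCoprime m n ∧ m ^ 2 + m * n + n ^ 2 = α ^ 2 ∧
      m ^ 2 + 5 * m * n + n ^ 2 = β ^ 2 ∧ m ^ 2 + n ^ 2 < A ^ 2 * C ^ 2 + B ^ 2 * D ^ 2 ∧
      m * n ≠ 0 := by
  rcases Int.even_or_odd A with hA' | hA'
  · exact (core_even hA' hAD hA h1 h2).elim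
  · rcases Int.even_or_odd D with hD' | hD'
    · exact (core_even (A := D) (B := C) (C := -B) (D := -A) hD' hAD.symm.neg_right hD
        (by linear_combination -h1) (by linear_combination -h2)).elim
    · exact core_odd hA' hD' hAD hB hC h1 h2

/-- **Descent**. -/
theorem desc21 {m n α β : ℤ} (h : IsCoprime m n) (h1 : m ^ 2 + m * n + n ^ 2 = α ^ 2)
    (h2 : m ^ 2 + 5 * m * n + n ^ 2 = β ^ 2) : m * n = 0 := by
  induction hN : (m ^ 2 + n ^ 2).natAbs using Nat.strong_induction_on generalizing m n α β with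
  | _ N ih =>
  by_contra hmn
  have hm : m ≠ 0 := left_ne_zero_of_mul hmn
  have hn : n ≠ 0 := right_ne_zero_of_mul hmn
  obtain ⟨u, v, hu, hv⟩ := exists_half (a := β) (b := α) (c := 2 * (m * n))
    (by rw [← h1, ← h2]; ring)
  have huv : u * v = m * n := by
    have h3 : (β - α) * (β + α) = 4 * (m * n) := by linear_combination h1 - h2
    rw [hu, hv] at h3
    linarith
  have hα : α = v - u := by linarith
  have hcop : IsCoprime u v := isCoprime_of_prime fun q hq h3 h4 => by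
    have h5 : q ∣ α ^ 2 := by
      rw [hα]
      exact Dvd.dvd.pow (dvd_sub h4 h3) (by norm_num)
    rw [← h1] at h5
    have h6 : q ∣ m * n := huv ▸ h3.mul_right v
    rcases hq.dvd_mul.mp h6 with h7 | h7
    · have h8 : q ∣ n ^ 2 :=
        (dvd_add_right (dvd_add (Dvd.dvd.pow h7 (by norm_num)) (h7.mul_right n))).mp h5
      exact hq.not_isUnit (h.isUnit_of_dvd' h7 (hq.dvd_of_dvd_pow h8))
    · have h8 : q ∣ m ^ 2 := by
        have h9 : m ^ 2 + m * n + n ^ 2 = m ^ 2 + n * (n + m) := by ring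
        rw [h9] at h5
        exact (dvd_add_left (h7.mul_right _)).mp h5
      exact hq.not_isUnit (h.isUnit_of_dvd' (hq.dvd_of_dvd_pow h8) h7)
  obtain ⟨A, B, C, D, rfl, rfl, rfl, rfl⟩ := four_numbers hm huv
  have hA : A ≠ 0 := left_ne_zero_of_mul hm
  have hC : C ≠ 0 := right_ne_zero_of_mul hm
  have hB : B ≠ 0 := left_ne_zero_of_mul hn
  have hD : D ≠ 0 := right_ne_zero_of_mul hn
  have cAD : IsCoprime A D := h.of_mul_left_left.of_mul_right_right
  have cBC : IsCoprime B C := h.of_mul_left_right.of_mul_right_left.symm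
  have key : (A ^ 2 - D ^ 2) * (B ^ 2 - C ^ 2) = 3 * (A * B * C * D) := by
    rw [hα] at h1
    linear_combination -h1
  have hkey0 : (A * B * C * D) ≠ 0 := mul_ne_zero (mul_ne_zero (mul_ne_zero hA hB) hC) hD
  have d1 : B * C ∣ A ^ 2 - D ^ 2 := by
    have c1 : IsCoprime (B ^ 2 - C ^ 2) B := by
      have := (cBC.symm.pow_left (m := 2)).neg_left.add_mul_left_left B
      rwa [show -C ^ 2 + B * B = B ^ 2 - C ^ 2 by ring] at this
    have c2 : IsCoprime (B ^ 2 - C ^ 2) C := by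
      have := (cBC.pow_left (m := 2)).add_mul_left_left (-C)
      rwa [show B ^ 2 + C * -C = B ^ 2 - C ^ 2 by ring] at this
    refine (c1.mul_right c2).symm.dvd_of_dvd_mul_right ?_
    exact ⟨3 * (A * D), by rw [key]; ring⟩
  have d2 : A * D ∣ B ^ 2 - C ^ 2 := by
    have c1 : IsCoprime (A ^ 2 - D ^ 2) A := by
      have := (cAD.symm.pow_left (m := 2)).neg_left.add_mul_left_left A
      rwa [show -D ^ 2 + A * A = A ^ 2 - D ^ 2 by ring] at this
    have c2 : IsCoprime (A ^ 2 - D ^ 2) D := by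
      have := (cAD.pow_left (m := 2)).add_mul_left_left (-D)
      rwa [show A ^ 2 + D * -D = A ^ 2 - D ^ 2 by ring] at this
    refine (c1.mul_right c2).symm.dvd_of_dvd_mul_left ?_
    exact ⟨3 * (B * C), by rw [key]; ring⟩
  obtain ⟨k, hk⟩ := d1
  obtain ⟨l, hl⟩ := d2
  have hkl : k * l = 3 := by
    have h3 : (A * B * C * D) * (k * l) = (A * B * C * D) * 3 := by
      calc (A * B * C * D) * (k * l) = (B * C * k) * (A * D * l) := by ring
        _ = (A * B * C * D) * 3 := by rw [← hk, ← hl, key]; ring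
    exact mul_left_cancel₀ hkey0 h3
  have hcases : (k = 1 ∧ l = 3) ∨ (k = 3 ∧ l = 1) ∨ (k = -1 ∧ l = -3) ∨ (k = -3 ∧ l = -1) := by
    have h3 : k ∣ 3 := ⟨l, hkl.symm⟩
    have h5 : k.natAbs ∣ 3 := by exact_mod_cast Int.natAbs_dvd_natAbs.mpr h3
    rcases (Nat.dvd_prime Nat.prime_three).mp h5 with h6 | h6
    · rcases (by omega : k = 1 ∨ k = -1) with h7 | h7 <;> rw [h7] at hkl <;> omega
    · rcases (by omega : k = 3 ∨ k = -3) with h7 | h7 <;> rw [h7] at hkl <;> omega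
  have hnew : ∃ m n α β : ℤ, IsCoprime m n ∧ m ^ 2 + m * n + n ^ 2 = α ^ 2 ∧
      m ^ 2 + 5 * m * n + n ^ 2 = β ^ 2 ∧ m ^ 2 + n ^ 2 < (A * C) ^ 2 + (B * D) ^ 2 ∧
      m * n ≠ 0 := by
    rcases hcases with ⟨rfl, rfl⟩ | ⟨rfl, rfl⟩ | ⟨rfl, rfl⟩ | ⟨rfl, rfl⟩
    · -- `A² - D² = B C`, `B² - C² = 3 A D`
      obtain ⟨m', n', α', β', h3, h4, h5, h6, h7⟩ := core21 (A := B) (B := A) (C := D) (D := C) cBC hB hA hD hC
        (by linear_combination hl) (by linear_combination hk)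
      exact ⟨m', n', α', β', h3, h4, h5, by linarith, h7⟩
    · obtain ⟨m', n', α', β', h3, h4, h5, h6, h7⟩ := core21 (A := A) (B := B) (C := C) (D := D) cAD hA hB hC hD
        (by linear_combination hk) (by linear_combination hl)
      exact ⟨m', n', α', β', h3, h4, h5, by linarith, h7⟩
    · obtain ⟨m', n', α', β', h3, h4, h5, h6, h7⟩ := core21 (A := -B) (B := -A) (C := D) (D := C)
        cBC.neg_left (neg_ne_zero.mpr hB) (neg_ne_zero.mpr hA) hD hC
        (by linear_combination hl) (by linear_combination hk)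
      exact ⟨m', n', α', β', h3, h4, h5, by linarith, h7⟩
    · obtain ⟨m', n', α', β', h3, h4, h5, h6, h7⟩ := core21 (A := -A) (B := -B) (C := C) (D := D)
        cAD.neg_left (neg_ne_zero.mpr hA) (neg_ne_zero.mpr hB) hC hD
        (by linear_combination hk) (by linear_combination hl)
      exact ⟨m', n', α', β', h3, h4, h5, by linarith, h7⟩
  obtain ⟨m', n', α', β', h3, h4, h5, h6, h7⟩ := hnew
  refine h7 (ih (m' ^ 2 + n' ^ 2).natAbs ?_ h3 h4 h5 rfl)
  rw [← hN]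
  have h8 : 0 ≤ m' ^ 2 + n' ^ 2 := by positivity
  omega

/-- **Integers.** -/
theorem int21 {m n z : ℤ} (hmn : IsCoprime m n)
    (h : (m ^ 2 + m * n + n ^ 2) * (m ^ 2 + 5 * m * n + n ^ 2) = z ^ 2) : m * n = 0 := by
  have hodd : ¬ (2 : ℤ) ∣ m ^ 2 + m * n + n ^ 2 := by
    intro h2
    have h3 : ∀ a b : ZMod 2, a ^ 2 + a * b + b ^ 2 = 0 → a = 0 ∧ b = 0 := by decide
    have h4 := h3 (m : ZMod 2) (n : ZMod 2) (by
      have := (ZMod.intCast_zmod_eq_zero_iff_dvd _ 2).mpr h2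
      push_cast at this
      exact this)
    exact Int.prime_two.not_isUnit (hmn.isUnit_of_dvd'
      ((ZMod.intCast_zmod_eq_zero_iff_dvd _ 2).mp h4.1)
      ((ZMod.intCast_zmod_eq_zero_iff_dvd _ 2).mp h4.2))
  have hcop : IsCoprime (m ^ 2 + m * n + n ^ 2) (m ^ 2 + 5 * m * n + n ^ 2) := by
    refine isCoprime_of_prime fun q hq h2 h3 => ?_
    have h4 : q ∣ 2 ^ 2 * (m * n) := by
      have := dvd_sub h3 h2
      rwa [show m ^ 2 + 5 * m * n + n ^ 2 - (m ^ 2 + m * n + n ^ 2) = 2 ^ 2 * (m * n) by ring]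
        at this
    rcases hq.dvd_mul.mp h4 with h5 | h5
    · have h6 : q ∣ 2 := hq.dvd_of_dvd_pow h5
      exact hodd (((hq.dvd_prime_iff_associated Int.prime_two).mp h6).symm.dvd.trans h2)
    · rcases hq.dvd_mul.mp h5 with h7 | h7
      · have h8 : q ∣ n ^ 2 :=
          (dvd_add_right (dvd_add (Dvd.dvd.pow h7 (by norm_num)) (h7.mul_right n))).mp h2
        exact hq.not_isUnit (hmn.isUnit_of_dvd' h7 (hq.dvd_of_dvd_pow h8))
      · have h8 : q ∣ m ^ 2 := by
          have h9 : m ^ 2 + m * n + n ^ 2 = m ^ 2 + n * (n + m) := by ring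
          rw [h9] at h2
          exact (dvd_add_left (h7.mul_right _)).mp h2
        exact hq.not_isUnit (hmn.isUnit_of_dvd' (hq.dvd_of_dvd_pow h8) h7)
  have hpos : 0 < m ^ 2 + m * n + n ^ 2 := by
    have h0 : m ≠ 0 ∨ n ≠ 0 := by
      by_contra hc
      push Not at hc
      rw [hc.1, hc.2] at hmn
      exact not_isCoprime_zero_zero hmn
    rcases h0 with h0 | h0
    · have : 0 < m ^ 2 := by positivity
      nlinarith [sq_nonneg (2 * n + m)]
    · have : 0 < n ^ 2 := by positivity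
      nlinarith [sq_nonneg (2 * m + n)]
  obtain ⟨α, hα⟩ := Int.sq_of_isCoprime hcop h
  obtain ⟨β, hβ⟩ := Int.sq_of_isCoprime hcop.symm
    (show (m ^ 2 + 5 * m * n + n ^ 2) * (m ^ 2 + m * n + n ^ 2) = z ^ 2 by rw [← h]; ring)
  have hα' : m ^ 2 + m * n + n ^ 2 = α ^ 2 := by
    rcases hα with h1 | h1
    · exact h1
    · have := sq_nonneg α
      omega
  have hβ' : m ^ 2 + 5 * m * n + n ^ 2 = β ^ 2 := by
    rcases hβ with h1 | h1
    · exact h1
    · have h2 := sq_nonneg β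
      have h3 := sq_nonneg z
      rw [← h, h1] at h3
      have h4 : β ^ 2 = 0 := by nlinarith
      rw [h1, h4]; simp
  exact desc21 hmn hα' hβ'

end Fermat.Agent.Cor.MT.D21

namespace Fermat.Agent.Cor.MT

open Fermat.Agent.Cor.Small

/-- **The curve of conductor `21`.** -/
theorem mul_eq_zero_of_sq {p l r : ℚ} (h : (p ^ 2 + p * l + l ^ 2) * (p ^ 2 + 5 * p * l + l ^ 2) = r ^ 2) :
    p * l = 0 := by
  by_contra hpl
  have hl : l ≠ 0 := right_ne_zero_of_mul hpl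
  obtain ⟨v, hv⟩ : ∃ v, v = p / l := ⟨_, rfl⟩
  have hp : p = v * l := by rw [hv]; field_simp
  have hv0 : v ≠ 0 := by
    rintro rfl
    rw [hp] at hpl
    simp at hpl
  set m : ℤ := v.num with hm
  set n : ℤ := (v.den : ℤ) with hn
  have hn0 : 0 < n := by rw [hn]; exact_mod_cast v.den_pos
  have hnq : (n : ℚ) ≠ 0 := by exact_mod_cast hn0.ne'
  have hv' : v = m / n := by rw [hm, hn]; exact (Rat.num_div_den v).symm
  have hmn : IsCoprime m n := by
    rw [hm, hn, Int.isCoprime_iff_gcd_eq_one]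
    exact v.reduced
  have h1 : (r / l ^ 2 * n ^ 2) ^ 2 =
      (((m ^ 2 + m * n + n ^ 2) * (m ^ 2 + 5 * m * n + n ^ 2) : ℤ) : ℚ) := by
    rw [mul_pow, div_pow, ← h, hp, hv']
    push_cast
    field_simp
  obtain ⟨z, hz⟩ := exists_sq_of_rat h1
  have h2 := D21.int21 hmn hz
  rcases mul_eq_zero.mp h2 with h3 | h3
  · exact hv0 (by rw [hv', h3]; simp)
  · exact hn0.ne' h3

end Fermat.Agent.Cor.MT
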