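import Fermat.Agent.Corollaries.MT.Order27

/-!
# Rational points of order 21

`V : y² + α x y + β y = x³`, `Q = (0, 0)` of order three, `S` a point of order seven,
`S_i = 2^i S`.  Then `y(S_i) = v_i³`, `x(S_i) = v_i w_i` (`MT/Order27`, `exists_cube`).
* `S_0, S_1, S_2` are collinear: `v_i² - v_j v_k = λ w_i`;
* the tangent at `S_i` goes through `- S_(i+1)`: `v_i w_i = v_i v_(i+1) + w_i w_(i+1)`.

The sum of the last three equations is a quadratic equation for `s = Σ v_i² - Σ v_i v_j` over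
`ℚ(p, λ)`, `p = Σ v_i`, with discriminant `(p² + p λ + λ²) (p² + 5 p λ + λ²)`.
-/

set_option autoImplicit false

open WeierstrassCurve WeierstrassCurve.Affine

namespace Fermat.Agent.Cor.MT

/-- the line through two points of `y² + α x y + β y = x³` -/
theorem exists_line_C3 {F : Type*} [Field F] [DecidableEq F] {α β : F} (h2 : (2 : F) ≠ 0)
    {P Q : (C3 α β).toAffine.Point} {x₁ y₁ x₂ y₂ : F}
    {h₁ : (C3 α β).toAffine.Nonsingular x₁ y₁} {h₂ : (C3 α β).toAffine.Nonsingular x₂ y₂}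
    (hP : P = .some x₁ y₁ h₁) (hQ : Q = .some x₂ y₂ h₂) {x₃ y₃ : F}
    {h₃ : (C3 α β).toAffine.Nonsingular x₃ y₃} (hS : P + Q = .some x₃ y₃ h₃) :
    ∃ l ν : F, y₁ = l * x₁ + ν ∧ y₂ = l * x₂ + ν ∧
      (C3 α β).toAffine.negY x₃ y₃ = l * x₃ + ν ∧
      y₁ * y₂ * (C3 α β).toAffine.negY x₃ y₃ = ν ^ 3 ∧ x₁ + x₂ + x₃ = l ^ 2 + α * l := by
  subst hP hQ
  have hxy : ¬(x₁ = x₂ ∧ y₁ = (C3 α β).toAffine.negY x₂ y₂) := fun hh => by
    rw [Point.add_of_Y_eq hh.1 hh.2] at hS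
    exact Point.some_ne_zero h₃ hS.symm
  have hpoly := fun t => congrArg (Polynomial.eval t) (addPolynomial_slope h₁.1 h₂.1 hxy)
  have hy₂ : y₂ = (C3 α β).toAffine.slope x₁ x₂ y₁ y₂ * (x₂ - x₁) + y₁ := by
    by_cases hx : x₁ = x₂
    · subst hx
      have : y₁ = y₂ := Y_eq_of_Y_ne h₁.1 h₂.1 rfl fun h0 => hxy ⟨rfl, h0⟩
      rw [this]
      ring
    · rw [slope_of_X_ne hx]
      have : x₁ - x₂ ≠ 0 := sub_ne_zero.2 hx
      field_simp
      ring
  rw [Point.add_some hxy] at hS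
  simp only [Point.some.injEq] at hS
  obtain ⟨hx₃, hy₃⟩ := hS
  set l := (C3 α β).toAffine.slope x₁ x₂ y₁ y₂ with hl
  have hn : (C3 α β).toAffine.negY x₃ y₃ = l * (x₃ - x₁) + y₁ := by
    rw [← hy₃]
    unfold addY negAddY
    rw [hx₃, negY_C3, negY_C3]
    ring
  rw [hx₃] at hpoly
  have key : ∀ t : F, (l * (t - x₁) + y₁) ^ 2 + α * t * (l * (t - x₁) + y₁) +
      β * (l * (t - x₁) + y₁) - t ^ 3 = -((t - x₁) * (t - x₂) * (t - x₃)) := fun t => by
    have hp := hpoly t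
    rw [addPolynomial_eq] at hp
    simp only [Cubic.toPoly, Polynomial.eval_neg, Polynomial.eval_add, Polynomial.eval_mul,
      Polynomial.eval_sub, Polynomial.eval_C, Polynomial.eval_X, Polynomial.eval_pow] at hp
    linear_combination hp
  have a0 := key 0
  have a1 := key 1
  have a2 := key (-1)
  set ν := y₁ - l * x₁ with hν
  have hy₁ : y₁ = ν + l * x₁ := by rw [hν]; ring
  have c0 : ν ^ 2 + β * ν - x₁ * x₂ * x₃ = 0 := by
    rw [hy₁] at a0
    linear_combination a0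
  have c1 : 2 * l * ν + α * ν + β * l + (x₁ * x₂ + x₁ * x₃ + x₂ * x₃) = 0 := by
    rw [hy₁] at a1 a2
    refine mul_left_cancel₀ h2 ?_
    linear_combination a1 - a2
  have c2 : l ^ 2 + α * l - (x₁ + x₂ + x₃) = 0 := by
    rw [hy₁] at a1 a2
    refine mul_left_cancel₀ h2 ?_
    linear_combination a1 + a2 - 2 * c0
  refine ⟨l, ν, ?_, ?_, ?_, ?_, ?_⟩
  · rw [hy₁]; ring
  · rw [hy₂, hy₁]; ring
  · rw [hn, hy₁]; ring
  · rw [hn, hy₂, hy₁]
    linear_combination (-l ^ 3) * c0 + (l ^ 2 * ν) * c1 - (l * ν ^ 2) * c2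
  · linear_combination -c2

theorem cube_injective_rat {a b : ℚ} (h : a ^ 3 = b ^ 3) : a = b :=
  (Odd.strictMono_pow (by decide : Odd 3)).injective h

/-- the tangent at `S_i` -/
theorem tangent_algebra {v w v' w' l α : ℚ} (hv : v ≠ 0) (hw : w ≠ 0) (hw' : w' ≠ 0)
    (h1 : v ^ 3 = l * (v * w) + -(v ^ 2 * w')) (h2 : -w' ^ 3 = l * (v' * w') + -(v ^ 2 * w'))
    (h3 : v * w + v * w + v' * w' = l ^ 2 + α * l) : v * w = v * v' + w * w' := by
  have k1 : l * w = v * (v + w') := by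
    refine mul_left_cancel₀ hv ?_
    linear_combination -h1
  have k2 : l * v' = (v - w') * (v + w') := by
    refine mul_left_cancel₀ hw' ?_
    linear_combination -h2
  by_cases h0 : v + w' = 0
  · have hl : l = 0 := by
      rw [h0, mul_zero] at k1
      exact (mul_eq_zero.1 k1).resolve_right hw
    have hv' : w' = -v := by linear_combination h0
    rw [hl, hv'] at h3
    have : v' = 2 * w := by
      refine mul_left_cancel₀ hv ?_
      linear_combination -h3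
    rw [this, hv']
    ring
  · refine mul_left_cancel₀ h0 ?_
    linear_combination v' * k1 - w * k2

theorem no_cubic {a b c r : ℚ} (hr : r ≠ 0) (h1 : a * r = r ^ 2 + a * b)
    (h2 : b * r = r ^ 2 + b * c) (hs : a + b + c = 0) : False := by
  have h : a ^ 3 - 3 * a * r ^ 2 + r ^ 3 = 0 := by
    refine mul_left_cancel₀ hr ?_
    have e : b ^ 2 + b * r + a * r - 2 * r ^ 2 = 0 := by
      linear_combination b * hs + h2 + h1
    have e' : a ^ 2 * (b ^ 2 + b * r + a * r - 2 * r ^ 2) = 0 := by rw [e, mul_zero]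
    have hab : a * b = r * (a - r) := by linear_combination -h1
    have e2 : a ^ 2 * (b ^ 2 + b * r + a * r - 2 * r ^ 2) =
        (a * b) ^ 2 + (a * b) * (a * r) + a ^ 3 * r - 2 * a ^ 2 * r ^ 2 := by ring
    rw [e2, hab] at e'
    linear_combination e'
  set t := a / r with ht
  have ht3 : t ^ 3 - 3 * t + 1 = 0 := by
    rw [ht]
    field_simp
    linear_combination h
  clear_value t
  set m := t.num with hm
  set n := (t.den : ℤ) with hn
  have hn0 : n ≠ 0 := by rw [hn]; exact_mod_cast t.den_nz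
  have hn0' : (n : ℚ) ≠ 0 := by exact_mod_cast hn0
  have hTn : t * n = m := by
    rw [hn, hm]
    exact_mod_cast Rat.mul_den_eq_num t
  have hc : IsCoprime m n := by
    rw [Int.isCoprime_iff_gcd_eq_one]
    have := t.reduced
    rw [hm, hn, Int.gcd, Int.natAbs_natCast]
    exact this
  have hz : m ^ 3 - 3 * m * n ^ 2 + n ^ 3 = 0 := by
    have : (m : ℚ) ^ 3 - 3 * m * n ^ 2 + n ^ 3 = 0 := by
      rw [← hTn]
      linear_combination (n : ℚ) ^ 3 * ht3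
    exact_mod_cast this
  have hnu : IsUnit n := by
    have h1 : n ∣ m ^ 3 := ⟨3 * m * n - n ^ 2, by linear_combination hz⟩
    exact (IsCoprime.pow_left (m := 3) hc).isUnit_of_dvd' h1 dvd_rfl
  have hmu : IsUnit m := by
    have h1 : m ∣ n ^ 3 := ⟨3 * n ^ 2 - m ^ 2, by linear_combination hz⟩
    exact (IsCoprime.pow_right (n := 3) hc).isUnit_of_dvd' dvd_rfl h1
  rcases Int.isUnit_iff.1 hnu with e1 | e1 <;> rcases Int.isUnit_iff.1 hmu with e2 | e2 <;>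
    rw [e1, e2] at hz <;> norm_num at hz

/-- the algebra of a point of order 21 -/
theorem algebra_21 (hdesc : ∀ p l r : ℚ,
      (p ^ 2 + p * l + l ^ 2) * (p ^ 2 + 5 * p * l + l ^ 2) = r ^ 2 → p * l = 0)
    {v₁ v₂ v₃ w₁ w₂ w₃ l α : ℚ} (hv₁ : v₁ ≠ 0) (hw₁ : w₁ ≠ 0)
    (e₁ : v₁ ^ 2 = l * w₁ + v₂ * v₃) (e₂ : v₂ ^ 2 = l * w₂ + v₃ * v₁)
    (e₃ : v₃ ^ 2 = l * w₃ + v₁ * v₂) (i₁ : v₁ * w₁ = v₁ * v₂ + w₁ * w₂)
    (i₂ : v₂ * w₂ = v₂ * v₃ + w₂ * w₃) (i₃ : v₃ * w₃ = v₃ * v₁ + w₃ * w₁)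
    (hx : v₁ * w₁ + v₂ * w₂ + v₃ * w₃ = l ^ 2 + α * l) : False := by
  set p := v₁ + v₂ + v₃ with hp
  set s := v₁ ^ 2 + v₂ ^ 2 + v₃ ^ 2 - v₁ * v₂ - v₂ * v₃ - v₃ * v₁ with hs
  have f₁ : l * w₁ = v₁ ^ 2 - v₂ * v₃ := by linear_combination -e₁
  have f₂ : l * w₂ = v₂ ^ 2 - v₃ * v₁ := by linear_combination -e₂
  have f₃ : l * w₃ = v₃ ^ 2 - v₁ * v₂ := by linear_combination -e₃
  have hq : 3 * l * p * s = (p ^ 2 - s) * (l ^ 2 - s) := by
    rw [hp, hs]
    linear_combination (3 * l ^ 2) * (i₁ + i₂ + i₃) - 3 * l * (v₁ * f₁ + v₂ * f₂ + v₃ * f₃) +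
      3 * (l * w₂ * f₁ + (v₁ ^ 2 - v₂ * v₃) * f₂ + l * w₃ * f₂ + (v₂ ^ 2 - v₃ * v₁) * f₃ +
        l * w₁ * f₃ + (v₃ ^ 2 - v₁ * v₂) * f₁)
  have hd : (p ^ 2 + p * l + l ^ 2) * (p ^ 2 + 5 * p * l + l ^ 2) =
      (2 * s - (p ^ 2 + 3 * p * l + l ^ 2)) ^ 2 := by
    linear_combination 4 * hq
  rcases mul_eq_zero.1 (hdesc _ _ _ hd) with h0 | h0
  · -- `p = 0`
    by_cases hl : l = 0
    · subst hl
      have c1 : v₁ ^ 3 = v₂ ^ 3 := by linear_combination v₁ * e₁ - v₂ * e₂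
      have c2 : v₁ ^ 3 = v₃ ^ 3 := by linear_combination v₁ * e₁ - v₃ * e₃
      have d1 := cube_injective_rat c1
      have d2 := cube_injective_rat c2
      rw [hp, ← d1, ← d2] at h0
      exact hv₁ (by linear_combination h0 / 3)
    · have hv₃ : v₃ = -v₁ - v₂ := by rw [hp] at h0; linear_combination h0
      have g2 : w₂ = w₁ := by
        refine mul_left_cancel₀ hl ?_
        rw [f₁, f₂, hv₃]
        ring
      have g3 : w₃ = w₁ := by
        refine mul_left_cancel₀ hl ?_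
        rw [f₁, f₃, hv₃]
        ring
      rw [g2] at i₁ i₂
      rw [g3] at i₂
      exact no_cubic (a := v₁) (b := v₂) (c := v₃) (r := w₁) hw₁
        (by linear_combination i₁) (by linear_combination i₂) (by rw [← hp]; exact h0)
  · subst h0
    have c1 : v₁ ^ 3 = v₂ ^ 3 := by linear_combination v₁ * e₁ - v₂ * e₂
    have c2 : v₁ ^ 3 = v₃ ^ 3 := by linear_combination v₁ * e₁ - v₃ * e₃
    have d1 := cube_injective_rat c1
    have d2 := cube_injective_rat c2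
    rw [← d1, ← d2] at hx
    rw [← d1] at i₁ i₂
    rw [← d2] at i₂
    refine no_cubic (a := w₁) (b := w₂) (c := w₃) (r := v₁) hv₁
      (by linear_combination i₁) (by linear_combination i₂) ?_
    refine mul_left_cancel₀ hv₁ ?_
    linear_combination hx

/-- **No elliptic curve over `ℚ` has a rational point of order 21** (from the determination of the
rational points of the curve `r² = (p² + p l + l²) (p² + 5 p l + l²)`). -/
theorem addOrderOf_ne_twentyone_of (hdesc : ∀ p l r : ℚ,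
      (p ^ 2 + p * l + l ^ 2) * (p ^ 2 + 5 * p * l + l ^ 2) = r ^ 2 → p * l = 0)
    {W : WeierstrassCurve ℚ} (hΔ : W.Δ ≠ 0) (P : W.toAffine.Point) : addOrderOf P ≠ 21 := by
  intro hP
  have key0 : ∀ k : ℕ, k • P = 0 ↔ 21 ∣ k := fun k => by
    rw [← hP]
    exact addOrderOf_dvd_iff_nsmul_eq_zero.symm
  obtain ⟨α, β, hΔ', e, he⟩ := exists_C3 hΔ (Q := 7 • P) (by rw [Ne, key0]; norm_num)
    (by rw [← add_nsmul, ← add_nsmul, key0])
  have h00 : (C3 α β).toAffine.Nonsingular 0 0 :=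
    (equation_iff_nonsingular_of_Δ_ne_zero hΔ').1 (equation_C3.2 (by ring))
  obtain ⟨g, hg⟩ : ∃ g, g = e.symm P := ⟨_, rfl⟩
  have hQ : (7 : ℤ) • g = .some 0 0 h00 := by
    rw [hg, ← map_zsmul e.symm]
    have : (7 : ℤ) • P = 7 • P := by norm_cast
    rw [this, ← he h00, e.symm_apply_apply]
  have key : ∀ m n : ℤ, m • g = n • g ↔ (21 : ℤ) ∣ m - n := fun m n => by
    rw [← sub_eq_zero, sub_eq_add_neg, ← sub_zsmul, hg, ← map_zsmul e.symm,
      map_eq_zero_iff _ e.symm.injective, ← addOrderOf_dvd_iff_zsmul_eq_zero, hP]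
    rfl
  have hpt : ∀ m : ℤ, ¬ (21 : ℤ) ∣ m → ¬ (21 : ℤ) ∣ m - 7 → ¬ (21 : ℤ) ∣ m + 7 →
      ∃ x y h, m • g = .some x y h ∧ x ≠ 0 := fun m a1 a2 a3 => by
    refine exists_some_C3 (h00 := h00) ?_ ?_ ?_
    · intro h
      apply a1
      have := (key m 0).1 (by rw [h, zero_zsmul])
      simpa using this
    · rw [← hQ, Ne, key]
      exact a2
    · rw [← hQ, ← neg_zsmul, Ne, key]
      simpa using a3
  have hcube : ∀ {m : ℤ} {x y : ℚ} {h : (C3 α β).toAffine.Nonsingular x y},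
      (3 * m) • g = .some x y h → ¬ (21 : ℤ) ∣ m → ¬ (21 : ℤ) ∣ m - 7 → ¬ (21 : ℤ) ∣ m + 7 →
      ¬ (21 : ℤ) ∣ 2 * m → ¬ (21 : ℤ) ∣ 2 * m - 7 → ¬ (21 : ℤ) ∣ 2 * m + 7 →
      ∃ v : ℚ, y = v ^ 3 := by
    intro m x y h hm a1 a2 a3 b1 b2 b3
    obtain ⟨x₁, y₁, n₁, s₁, hx₁⟩ := hpt m a1 a2 a3
    obtain ⟨x₂, y₂, n₂, s₂, hx₂⟩ := hpt (2 * m) b1 b2 b3
    refine exists_cube two_ne_zero s₁ (x₂ := x₂) (y₂ := y₂) (h₂ := n₂) ?_
      (x₃ := x) (y₃ := y) (h₃ := h) ?_ hx₁ hx₂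
    · rw [← s₂, ← add_zsmul]
      congr 1
      ring
    · rw [← hm, ← add_zsmul, ← add_zsmul]
      congr 1
      ring
  obtain ⟨x₁, y₁, n₁, s₁, hx₁⟩ := hpt 3 (by decide) (by decide) (by decide)
  obtain ⟨x₂, y₂, n₂, s₂, hx₂⟩ := hpt 6 (by decide) (by decide) (by decide)
  obtain ⟨x₃, y₃, n₃, s₃, hx₃⟩ := hpt 12 (by decide) (by decide) (by decide)
  obtain ⟨v₁, rfl⟩ := hcube (m := 1) s₁ (by decide) (by decide) (by decide) (by decide)
    (by decide) (by decide)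
  obtain ⟨v₂, rfl⟩ := hcube (m := 2) s₂ (by decide) (by decide) (by decide) (by decide)
    (by decide) (by decide)
  obtain ⟨v₃, rfl⟩ := hcube (m := 4) s₃ (by decide) (by decide) (by decide) (by decide)
    (by decide) (by decide)
  -- `x = v w`, `- y(-S) = w³`
  have hvw : ∀ {x v : ℚ}, (C3 α β).toAffine.Nonsingular x (v ^ 3) → x ≠ 0 →
      v ≠ 0 ∧ ∃ w, w ≠ 0 ∧ x = v * w ∧ (C3 α β).toAffine.negY x (v ^ 3) = -w ^ 3 := by
    intro x v hn hx
    have hcurve := equation_C3.1 hn.1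
    have hv0 : v ≠ 0 := by
      rintro rfl
      exact hx (pow_eq_zero_iff three_ne_zero |>.1 (by linear_combination -hcurve))
    refine ⟨hv0, x / v, div_ne_zero hx hv0, by field_simp, ?_⟩
    have := y_mul_negY hn.1
    refine mul_left_cancel₀ (pow_ne_zero 3 hv0) ?_
    rw [this]
    field_simp
  obtain ⟨hv₁, w₁, hw₁, rfl, z₁⟩ := hvw n₁ hx₁
  obtain ⟨hv₂, w₂, hw₂, rfl, z₂⟩ := hvw n₂ hx₂
  obtain ⟨hv₃, w₃, hw₃, rfl, z₃⟩ := hvw n₃ hx₃
  -- the line through the three points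
  have s9 : (3 : ℤ) • g + (6 : ℤ) • g = .some (v₃ * w₃)
      ((C3 α β).toAffine.negY (v₃ * w₃) (v₃ ^ 3)) ((nonsingular_neg ..).2 n₃) := by
    rw [← Point.neg_some n₃, ← s₃, ← neg_zsmul, ← add_zsmul, key]
    decide
  obtain ⟨l, ν, l₁, l₂, l₃, l₄, l₅⟩ := exists_line_C3 two_ne_zero s₁ s₂ s9
  rw [negY_negY] at l₃ l₄
  have hν : v₁ * v₂ * v₃ = ν := cube_injective_rat (by rw [← l₄]; ring)
  -- the tangents
  have tang : ∀ {a b : ℤ} {x v w x' v' w' : ℚ} {h : (C3 α β).toAffine.Nonsingular (v * w) (v ^ 3)}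
      {h' : (C3 α β).toAffine.Nonsingular (v' * w') (v' ^ 3)},
      a • g = .some (v * w) (v ^ 3) h → b • g = .some (v' * w') (v' ^ 3) h' →
      (21 : ℤ) ∣ a + a - b → v ≠ 0 → w ≠ 0 → w' ≠ 0 →
      (C3 α β).toAffine.negY (v' * w') (v' ^ 3) = -w' ^ 3 →
      v * w = v * v' + w * w' := by
    intro a b x v w x' v' w' h h' ha hb hab hv hw hw' hz
    have hs : a • g + a • g = .some (v' * w') (v' ^ 3) h' := by
      rw [← hb, ← add_zsmul, key]
      exact hab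
    obtain ⟨l, ν, l₁, -, l₃, l₄, l₅⟩ := exists_line_C3 two_ne_zero ha ha hs
    rw [hz] at l₃ l₄
    have hν : -(v ^ 2 * w') = ν := cube_injective_rat (by rw [← l₄]; ring)
    rw [← hν] at l₁ l₃
    exact tangent_algebra hv hw hw' l₁ l₃ l₅
  have i₁ := tang (x := 0) (x' := 0) s₁ s₂ (by decide) hv₁ hw₁ hw₂ z₂
  have i₂ := tang (x := 0) (x' := 0) s₂ s₃ (by decide) hv₂ hw₂ hw₃ z₃
  have i₃ := tang (x := 0) (x' := 0) s₃ s₁ (by decide) hv₃ hw₃ hw₁ z₁
  refine algebra_21 hdesc hv₁ hw₁ (l := l) (α := α) ?_ ?_ ?_ i₁ i₂ i₃ l₅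
  · refine mul_left_cancel₀ hv₁ ?_
    rw [← hν] at l₁
    linear_combination l₁
  · refine mul_left_cancel₀ hv₂ ?_
    rw [← hν] at l₂
    linear_combination l₂
  · refine mul_left_cancel₀ hv₃ ?_
    rw [← hν] at l₃
    linear_combination l₃

end Fermat.Agent.Cor.MT
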