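import Fermat.Agent.Corollaries.MT.Orders
import Fermat.Agent.Corollaries.MT.Order21
import Fermat.Agent.Corollaries.MT.Desc21

/-!
# Rational torsion of elliptic curves over `ℚ`: Mazur's theorem up to four orders

* `addOrderOf_ne_twentyone` : no elliptic curve over `ℚ` has a rational point of order 21;
* `mazur_sharp` : `E(ℚ)_tors` is one of Mazur's fifteen groups, or `E(ℚ)` has a point of order
  `13`, `18`, `25` or `35`.
-/

set_option autoImplicit false

open WeierstrassCurve WeierstrassCurve.Affine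

namespace Fermat.Agent.Cor.MT

/-- **No elliptic curve over `ℚ` has a rational point of order 21.** -/
theorem addOrderOf_ne_twentyone {W : WeierstrassCurve ℚ} (hΔ : W.Δ ≠ 0)
    (P : W.toAffine.Point) : addOrderOf P ≠ 21 :=
  addOrderOf_ne_twentyone_of (fun _ _ _ h => mul_eq_zero_of_sq h) hΔ P

variable (E : WeierstrassCurve ℚ) [E.IsElliptic]

theorem not_twentyone_dvd_addOrderOf {P : E.toAffine.Point} (hP : addOrderOf P ≠ 0) :
    ¬ 21 ∣ addOrderOf P := fun h => by
  obtain ⟨Q, hQ⟩ := exists_order_of_dvd hP h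
  exact addOrderOf_ne_twentyone E.isUnit_Δ.ne_zero Q hQ

/-- **The possible orders of the rational torsion points**: `1, ..., 10, 12`, or divisible by
`13`, `18`, `25` or `35`. -/
theorem addOrderOf_mem_sharp {P : E.toAffine.Point} (hP : addOrderOf P ≠ 0) :
    addOrderOf P ∈ ({1, 2, 3, 4, 5, 6, 7, 8, 9, 10, 12} : Set ℕ) ∨
      ∃ d ∈ ({13, 18, 25, 35} : Set ℕ), d ∣ addOrderOf P := by
  rcases addOrderOf_mem E hP with h | ⟨d, hd, hdvd⟩
  · exact Or.inl h
  · right
    rcases hd with rfl | rfl | rfl | rfl | rfl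
    · exact ⟨13, by simp, hdvd⟩
    · exact ⟨18, by simp, hdvd⟩
    · exact absurd hdvd (not_twentyone_dvd_addOrderOf E hP)
    · exact ⟨25, by simp, hdvd⟩
    · exact ⟨35, by simp, hdvd⟩

/-- **Mazur's theorem up to the orders 13, 18, 25, 35**: the torsion subgroup of `E(ℚ)` is one of
the fifteen groups `ℤ/n`, `n = 1, ..., 10, 12`, `ℤ/2 × ℤ/2m`, `m = 1, ..., 4`, unless `E(ℚ)` has a
point of order `13`, `18`, `25` or `35`. -/
theorem mazur_sharp :
    (∃ n ∈ ({1, 2, 3, 4, 5, 6, 7, 8, 9, 10, 12} : Set ℕ),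
      Nonempty (AddCommGroup.torsion E.toAffine.Point ≃+ ZMod n)) ∨
    (∃ m ∈ ({1, 2, 3, 4} : Set ℕ),
      Nonempty (AddCommGroup.torsion E.toAffine.Point ≃+ ZMod 2 × ZMod (2 * m))) ∨
    ∃ d ∈ ({13, 18, 25, 35} : Set ℕ), ∃ P : E.toAffine.Point, addOrderOf P = d := by
  rcases mazur_up_to E with h | h | ⟨d, hd, P, hP⟩
  · exact Or.inl h
  · exact Or.inr (Or.inl h)
  · right; right
    rcases hd with rfl | rfl | rfl | rfl | rfl
    · exact ⟨13, by simp, P, hP⟩
    · exact ⟨18, by simp, P, hP⟩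
    · exact absurd hP (addOrderOf_ne_twentyone E.isUnit_Δ.ne_zero P)
    · exact ⟨25, by simp, P, hP⟩
    · exact ⟨35, by simp, P, hP⟩

end Fermat.Agent.Cor.MT
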