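import Fermat.Agent.Corollaries.MT.Final

/-!
# Corollaries, MT: each of the fifteen groups of Mazur's theorem occurs

The seven groups of order divisible by four are in `MT/Final.lean`. For `n = 1, 2, 3, 5, 6, 7, 9, 10` one curve with a
rational point of order `n` and with exactly `n` points modulo a prime of good reduction.
-/

set_option autoImplicit false

noncomputable section

open WeierstrassCurve WeierstrassCurve.Affine

namespace Fermat.Agent.Cor.MT

/-- The curve `y ^ 2 + a₁ x y + a₃ y = x ^ 3 + a₂ x ^ 2 + a₄ x + a₆`. -/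
def EW (a1 a2 a3 a4 a6 : ℤ) : WeierstrassCurve ℤ := ⟨a1, a2, a3, a4, a6⟩

/-- The curve over `ℚ`. -/
def EWQ (a1 a2 a3 a4 a6 : ℤ) : WeierstrassCurve ℚ := (EW a1 a2 a3 a4 a6).map (Int.castRingHom ℚ)

variable {a1 a2 a3 a4 a6 : ℤ}

theorem EWQ_Δ_ne (h : (EW a1 a2 a3 a4 a6).Δ ≠ 0) : (EWQ a1 a2 a3 a4 a6).Δ ≠ 0 := by
  rw [EWQ, WeierstrassCurve.map_Δ]
  simpa using h

theorem EWQ_isElliptic (h : (EW a1 a2 a3 a4 a6).Δ ≠ 0) : (EWQ a1 a2 a3 a4 a6).IsElliptic :=
  ⟨isUnit_iff_ne_zero.mpr (EWQ_Δ_ne h)⟩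

theorem EWQ_nonsingular (h : (EW a1 a2 a3 a4 a6).Δ ≠ 0) {x y : ℚ}
    (hxy : y ^ 2 + a1 * x * y + a3 * y = x ^ 3 + a2 * x ^ 2 + a4 * x + a6) :
    (EWQ a1 a2 a3 a4 a6).toAffine.Nonsingular x y := by
  refine (equation_iff_nonsingular_of_Δ_ne_zero (EWQ_Δ_ne h)).mp ?_
  rw [equation_iff]
  simp only [EWQ, EW, WeierstrassCurve.map, eq_intCast]
  linear_combination hxy

/-- Doubling. -/
theorem two_nsmul_EW {x y x' y' : ℚ} (h : (EWQ a1 a2 a3 a4 a6).toAffine.Nonsingular x y)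
    (h' : (EWQ a1 a2 a3 a4 a6).toAffine.Nonsingular x' y') (l : ℚ) (hy : 2 * y + a1 * x + a3 ≠ 0)
    (hl : l * (2 * y + a1 * x + a3) = 3 * x ^ 2 + 2 * a2 * x + a4 - a1 * y)
    (hx' : x' = l ^ 2 + a1 * l - a2 - 2 * x) (hy' : y' = -(l * (x' - x) + y) - a1 * x' - a3) :
    2 • (Point.some x y h : (EWQ a1 a2 a3 a4 a6).toAffine.Point) = Point.some x' y' h' := by
  have e1 : (EWQ a1 a2 a3 a4 a6).toAffine.a₁ = a1 := by simp [EWQ, EW, WeierstrassCurve.map]
  have e2 : (EWQ a1 a2 a3 a4 a6).toAffine.a₂ = a2 := by simp [EWQ, EW, WeierstrassCurve.map]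
  have e3 : (EWQ a1 a2 a3 a4 a6).toAffine.a₃ = a3 := by simp [EWQ, EW, WeierstrassCurve.map]
  have e4 : (EWQ a1 a2 a3 a4 a6).toAffine.a₄ = a4 := by simp [EWQ, EW, WeierstrassCurve.map]
  have hneg : (EWQ a1 a2 a3 a4 a6).toAffine.negY x y = -y - a1 * x - a3 := by
    rw [negY, e1, e3]
  have hne : y ≠ (EWQ a1 a2 a3 a4 a6).toAffine.negY x y := by
    rw [hneg]
    intro h0
    exact hy (by linear_combination h0)
  have hs : (EWQ a1 a2 a3 a4 a6).toAffine.slope x x y y = l := by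
    rw [slope_of_Y_ne rfl hne, hneg, e1, e2, e4, div_eq_iff (by
      intro h0
      exact hy (by linear_combination h0))]
    linear_combination -hl
  rw [two_nsmul, Point.add_self_of_Y_ne hne, Point.some.injEq, hs]
  constructor
  · rw [addX, e1, e2, hx']
    ring
  · rw [addY, negAddY, negY, addX, e1, e2, e3, hy', hx']
    ring

/-- A point is its own negative. -/
theorem two_nsmul_EW_zero {x y : ℚ} (h : (EWQ a1 a2 a3 a4 a6).toAffine.Nonsingular x y)
    (hy : 2 * y + a1 * x + a3 = 0) :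
    2 • (Point.some x y h : (EWQ a1 a2 a3 a4 a6).toAffine.Point) = 0 := by
  have e1 : (EWQ a1 a2 a3 a4 a6).toAffine.a₁ = a1 := by simp [EWQ, EW, WeierstrassCurve.map]
  have e3 : (EWQ a1 a2 a3 a4 a6).toAffine.a₃ = a3 := by simp [EWQ, EW, WeierstrassCurve.map]
  rw [two_nsmul, Point.add_of_Y_eq rfl]
  rw [negY, e1, e3]
  linear_combination hy

/-- The negative of a point. -/
theorem neg_EW {x y y' : ℚ} (h : (EWQ a1 a2 a3 a4 a6).toAffine.Nonsingular x y)
    (h' : (EWQ a1 a2 a3 a4 a6).toAffine.Nonsingular x y') (hy : y' = -y - a1 * x - a3) :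
    -(Point.some x y h : (EWQ a1 a2 a3 a4 a6).toAffine.Point) = Point.some x y' h' := by
  have e1 : (EWQ a1 a2 a3 a4 a6).toAffine.a₁ = a1 := by simp [EWQ, EW, WeierstrassCurve.map]
  have e3 : (EWQ a1 a2 a3 a4 a6).toAffine.a₃ = a3 := by simp [EWQ, EW, WeierstrassCurve.map]
  rw [Point.neg_some, Point.some.injEq]
  refine ⟨rfl, ?_⟩
  rw [negY, e1, e3, hy]

theorem some_ne_some {x y x' y' : ℚ} (h : (EWQ a1 a2 a3 a4 a6).toAffine.Nonsingular x y)
    (h' : (EWQ a1 a2 a3 a4 a6).toAffine.Nonsingular x' y') (hx : x ≠ x') :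
    (Point.some x y h : (EWQ a1 a2 a3 a4 a6).toAffine.Point) ≠ Point.some x' y' h' := by
  intro h0
  rw [Point.some.injEq] at h0
  exact hx h0.1

/-- The number of points modulo a prime bounds the torsion. -/
theorem card_dvd_EW {q : ℕ} [NeZero q] (hq : q.Prime) (hq2 : q ≠ 2)
    (hgood : ¬ (q : ℤ) ∣ (EW a1 a2 a3 a4 a6).Δ) {N : ℕ}
    (hN : ((q : ℤ) + 1 - (q - InvGal.cnt (EW a1 a2 a3 a4 a6) q)) = N) :
    Nat.card (Tor (EWQ a1 a2 a3 a4 a6)) ∣ N := by
  have hF : Fact q.Prime := ⟨hq⟩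
  have h1 := LN.card_torsion_dvd_apOfModel (W := EW a1 a2 a3 a4 a6) hq2 hgood
  rw [InvGal.apOfModel_eq _ hq hgood, hN] at h1
  exact_mod_cast h1

/-- A group of order dividing `n` with an element of order `n`. -/
theorem zmod_of (h : (EW a1 a2 a3 a4 a6).Δ ≠ 0) {n : ℕ} (hn : n ≠ 0)
    (hd : Nat.card (Tor (EWQ a1 a2 a3 a4 a6)) ∣ n)
    {P : (EWQ a1 a2 a3 a4 a6).toAffine.Point} (hP : addOrderOf P = n) :
    ∃ E : WeierstrassCurve ℚ, E.IsElliptic ∧ Nonempty (Tor E ≃+ ZMod n) := by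
  obtain ⟨T, hT⟩ := exists_torsion_order hn hP
  have hcard : Nat.card (Tor (EWQ a1 a2 a3 a4 a6)) = n :=
    Nat.dvd_antisymm hd (hT ▸ addOrderOf_dvd_natCard T)
  have hfin : Finite (Tor (EWQ a1 a2 a3 a4 a6)) := Nat.finite_of_card_ne_zero (by rwa [hcard])
  have hcyc : IsAddCyclic (Tor (EWQ a1 a2 a3 a4 a6)) :=
    isAddCyclic_of_addOrderOf_eq_card T (by rw [hT, hcard])
  have e := (zmodAddCyclicAddEquiv hcyc).symm
  rw [hcard] at e
  exact ⟨_, EWQ_isElliptic h, ⟨e⟩⟩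

/-- `y ^ 2 = x ^ 3 - x + 2` -/
theorem exists_zmod_one :
    ∃ E : WeierstrassCurve ℚ, E.IsElliptic ∧ Nonempty (Tor E ≃+ ZMod 1) := by
  have h : (EW 0 0 0 (-1) 2).Δ ≠ 0 := by decide
  exact zmod_of h one_ne_zero
    (card_dvd_EW (q := 3) Nat.prime_three (by norm_num) (by decide) (by decide +kernel))
    (P := 0) (by simp)

/-- `y ^ 2 = x ^ 3 + 2 x ^ 2 + 2 x` -/
theorem exists_zmod_two :
    ∃ E : WeierstrassCurve ℚ, E.IsElliptic ∧ Nonempty (Tor E ≃+ ZMod 2) := by
  have h : (EW 0 2 0 2 0).Δ ≠ 0 := by decide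
  have n1 := EWQ_nonsingular h (x := 0) (y := 0) (by norm_num)
  refine zmod_of h two_ne_zero
    (card_dvd_EW (q := 3) Nat.prime_three (by norm_num) (by decide) (by decide +kernel))
    (P := Point.some _ _ n1) ?_
  exact addOrderOf_eq_prime (p := 2) (two_nsmul_EW_zero n1 (by norm_num)) (Point.some_ne_zero n1)

/-- `y ^ 2 + x y + y = x ^ 3` -/
theorem exists_zmod_three :
    ∃ E : WeierstrassCurve ℚ, E.IsElliptic ∧ Nonempty (Tor E ≃+ ZMod 3) := by
  have h : (EW 1 0 1 0 0).Δ ≠ 0 := by decide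
  have n1 := EWQ_nonsingular h (x := 0) (y := 0) (by norm_num)
  have n2 := EWQ_nonsingular h (x := 0) (y := -1) (by norm_num)
  have d1 := two_nsmul_EW n1 n2 0 (by norm_num) (by norm_num) (by norm_num) (by norm_num)
  have m1 := neg_EW n1 n2 (by norm_num)
  refine zmod_of h three_ne_zero
    (card_dvd_EW (q := 3) Nat.prime_three (by norm_num) (by decide) (by decide +kernel))
    (P := Point.some _ _ n1) ?_
  exact addOrderOf_eq_prime (p := 3) (by
    rw [show 3 = 2 + 1 from rfl, add_nsmul, one_nsmul, d1, ← m1, neg_add_cancel]) (Point.some_ne_zero n1)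

/-- `y ^ 2 - y = x ^ 3 - x ^ 2` -/
theorem exists_zmod_five :
    ∃ E : WeierstrassCurve ℚ, E.IsElliptic ∧ Nonempty (Tor E ≃+ ZMod 5) := by
  have h : (EW 0 (-1) (-1) 0 0).Δ ≠ 0 := by decide
  have n1 := EWQ_nonsingular h (x := 0) (y := 0) (by norm_num)
  have n2 := EWQ_nonsingular h (x := 1) (y := 1) (by norm_num)
  have n3 := EWQ_nonsingular h (x := 0) (y := 1) (by norm_num)
  have d1 := two_nsmul_EW n1 n2 0 (by norm_num) (by norm_num) (by norm_num) (by norm_num)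
  have d2 := two_nsmul_EW n2 n3 1 (by norm_num) (by norm_num) (by norm_num) (by norm_num)
  have m1 := neg_EW n1 n3 (by norm_num)
  refine zmod_of h (by norm_num)
    (card_dvd_EW (q := 3) Nat.prime_three (by norm_num) (by decide) (by decide +kernel))
    (P := Point.some _ _ n1) ?_
  have := Fact.mk Nat.prime_five
  exact addOrderOf_eq_prime (p := 5) (by
    rw [show 5 = 2 * 2 + 1 from rfl, add_nsmul, one_nsmul, mul_nsmul, d1, d2, ← m1, neg_add_cancel])
    (Point.some_ne_zero n1)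

/-- `y ^ 2 - 2 y = x ^ 3 - 2 x ^ 2` -/
theorem exists_zmod_six :
    ∃ E : WeierstrassCurve ℚ, E.IsElliptic ∧ Nonempty (Tor E ≃+ ZMod 6) := by
  have h : (EW 0 (-2) (-2) 0 0).Δ ≠ 0 := by decide
  have n1 := EWQ_nonsingular h (x := 0) (y := 0) (by norm_num)
  have n2 := EWQ_nonsingular h (x := 2) (y := 2) (by norm_num)
  have n3 := EWQ_nonsingular h (x := 2) (y := 0) (by norm_num)
  have n1' := EWQ_nonsingular h (x := 0) (y := 2) (by norm_num)
  have d1 := two_nsmul_EW n1 n2 0 (by norm_num) (by norm_num) (by norm_num) (by norm_num)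
  have d2 := two_nsmul_EW n2 n3 2 (by norm_num) (by norm_num) (by norm_num) (by norm_num)
  have m2 := neg_EW n2 n3 (by norm_num)
  have m1 := neg_EW n1 n1' (by norm_num)
  refine zmod_of h (by norm_num)
    (card_dvd_EW (q := 3) Nat.prime_three (by norm_num) (by decide) (by decide +kernel))
    (P := Point.some _ _ n1) ?_
  have h6 : 6 • (Point.some _ _ n1 : (EWQ 0 (-2) (-2) 0 0).toAffine.Point) = 0 := by
    rw [show 6 = 2 * 2 + 2 from rfl, add_nsmul, mul_nsmul, d1, d2, ← m2, neg_add_cancel]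
  have h2 : 2 • (Point.some _ _ n1 : (EWQ 0 (-2) (-2) 0 0).toAffine.Point) ≠ 0 := by
    rw [d1]; exact Point.some_ne_zero n2
  have h3 : 3 • (Point.some _ _ n1 : (EWQ 0 (-2) (-2) 0 0).toAffine.Point) ≠ 0 := by
    rw [show 3 = 2 + 1 from rfl, add_nsmul, one_nsmul, d1]
    intro h0
    exact some_ne_some n2 n1' (by norm_num) ((eq_neg_of_add_eq_zero_left h0).trans m1)
  have hd := addOrderOf_dvd_of_nsmul_eq_zero h6
  have hmem : addOrderOf (Point.some _ _ n1 : (EWQ 0 (-2) (-2) 0 0).toAffine.Point) ∈ Nat.divisors 6 :=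
    Nat.mem_divisors.2 ⟨hd, by norm_num⟩
  rw [show Nat.divisors 6 = {1, 2, 3, 6} by decide] at hmem
  simp only [Finset.mem_insert, Finset.mem_singleton] at hmem
  rcases hmem with h0 | h0 | h0 | h0
  · exact absurd (AddMonoid.addOrderOf_eq_one_iff.1 h0) (Point.some_ne_zero n1)
  · exact absurd (addOrderOf_dvd_iff_nsmul_eq_zero.1 (by rw [h0])) h2
  · exact absurd (addOrderOf_dvd_iff_nsmul_eq_zero.1 (by rw [h0])) h3
  · exact h0

/-- `y ^ 2 - x y - 4 y = x ^ 3 - 4 x ^ 2` -/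
theorem exists_zmod_seven :
    ∃ E : WeierstrassCurve ℚ, E.IsElliptic ∧ Nonempty (Tor E ≃+ ZMod 7) := by
  have h : (EW (-1) (-4) (-4) 0 0).Δ ≠ 0 := by decide
  have n1 := EWQ_nonsingular h (x := 0) (y := 0) (by norm_num)
  have n2 := EWQ_nonsingular h (x := 4) (y := 8) (by norm_num)
  have n3 := EWQ_nonsingular h (x := 2) (y := 4) (by norm_num)
  have d1 := two_nsmul_EW n1 n2 0 (by norm_num) (by norm_num) (by norm_num) (by norm_num)
  have d2 := two_nsmul_EW n2 n3 3 (by norm_num) (by norm_num) (by norm_num) (by norm_num)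
  have d3 := two_nsmul_EW n3 n1 0 (by norm_num) (by norm_num) (by norm_num) (by norm_num)
  refine zmod_of h (by norm_num)
    (card_dvd_EW (q := 3) Nat.prime_three (by norm_num) (by decide) (by decide +kernel))
    (P := Point.some _ _ n1) ?_
  have := Fact.mk Nat.prime_seven
  refine addOrderOf_eq_prime (p := 7) ?_ (Point.some_ne_zero n1)
  have h8 : 8 • (Point.some _ _ n1 : (EWQ (-1) (-4) (-4) 0 0).toAffine.Point) = Point.some _ _ n1 := by
    rw [show 8 = 2 * 2 * 2 from rfl, mul_nsmul, mul_nsmul, d1, d2, d3]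
  rw [show 8 = 7 + 1 from rfl, add_nsmul, one_nsmul] at h8
  exact left_eq_add.1 (by rw [add_comm]; exact h8.symm)

/-- `y ^ 2 - 3 x y - 12 y = x ^ 3 - 12 x ^ 2` -/
theorem exists_zmod_nine :
    ∃ E : WeierstrassCurve ℚ, E.IsElliptic ∧ Nonempty (Tor E ≃+ ZMod 9) := by
  have h : (EW (-3) (-12) (-12) 0 0).Δ ≠ 0 := by decide
  have n1 := EWQ_nonsingular h (x := 0) (y := 0) (by norm_num)
  have n2 := EWQ_nonsingular h (x := 12) (y := 48) (by norm_num)
  have n3 := EWQ_nonsingular h (x := 6) (y := 18) (by norm_num)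
  have n4 := EWQ_nonsingular h (x := 0) (y := 12) (by norm_num)
  have d1 := two_nsmul_EW n1 n2 0 (by norm_num) (by norm_num) (by norm_num) (by norm_num)
  have d2 := two_nsmul_EW n2 n3 6 (by norm_num) (by norm_num) (by norm_num) (by norm_num)
  have d3 := two_nsmul_EW n3 n4 3 (by norm_num) (by norm_num) (by norm_num) (by norm_num)
  have m1 := neg_EW n1 n4 (by norm_num)
  refine zmod_of h (by norm_num)
    (card_dvd_EW (q := 5) Nat.prime_five (by norm_num) (by decide) (by decide +kernel))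
    (P := Point.some _ _ n1) ?_
  have h3 : ¬ 3 ^ 1 • (Point.some _ _ n1 : (EWQ (-3) (-12) (-12) 0 0).toAffine.Point) = 0 := by
    rw [pow_one, show 3 = 2 + 1 from rfl, add_nsmul, one_nsmul, d1]
    intro h0
    exact some_ne_some n2 n4 (by norm_num) ((eq_neg_of_add_eq_zero_left h0).trans m1)
  exact addOrderOf_eq_prime_pow (p := 3) (n := 1) h3 (by
    rw [show 3 ^ (1 + 1) = 2 * 2 * 2 + 1 from rfl, add_nsmul, one_nsmul, mul_nsmul, mul_nsmul, d1, d2, d3, ← m1,
      neg_add_cancel])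

/-- `y ^ 2 - 5 x y - 24 y = x ^ 3 - 24 x ^ 2` -/
theorem exists_zmod_ten :
    ∃ E : WeierstrassCurve ℚ, E.IsElliptic ∧ Nonempty (Tor E ≃+ ZMod 10) := by
  have h : (EW (-5) (-24) (-24) 0 0).Δ ≠ 0 := by decide
  have n1 := EWQ_nonsingular h (x := 0) (y := 0) (by norm_num)
  have n2 := EWQ_nonsingular h (x := 24) (y := 144) (by norm_num)
  have n3 := EWQ_nonsingular h (x := 12) (y := 48) (by norm_num)
  have n4 := EWQ_nonsingular h (x := 24) (y := 0) (by norm_num)
  have n1' := EWQ_nonsingular h (x := 0) (y := 24) (by norm_num)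
  have d1 := two_nsmul_EW n1 n2 0 (by norm_num) (by norm_num) (by norm_num) (by norm_num)
  have d2 := two_nsmul_EW n2 n3 9 (by norm_num) (by norm_num) (by norm_num) (by norm_num)
  have d3 := two_nsmul_EW n3 n4 8 (by norm_num) (by norm_num) (by norm_num) (by norm_num)
  have m1 := neg_EW n1 n1' (by norm_num)
  have m2 := neg_EW n2 n4 (by norm_num)
  refine zmod_of h (by norm_num)
    (card_dvd_EW (q := 5) Nat.prime_five (by norm_num) (by decide) (by decide +kernel))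
    (P := Point.some _ _ n1) ?_
  have h10 : 10 • (Point.some _ _ n1 : (EWQ (-5) (-24) (-24) 0 0).toAffine.Point) = 0 := by
    rw [show 10 = 2 * 2 * 2 + 2 from rfl, add_nsmul, mul_nsmul, mul_nsmul, d1, d2, d3, ← m2, neg_add_cancel]
  have h2 : 2 • (Point.some _ _ n1 : (EWQ (-5) (-24) (-24) 0 0).toAffine.Point) ≠ 0 := by
    rw [d1]; exact Point.some_ne_zero n2
  have h5 : 5 • (Point.some _ _ n1 : (EWQ (-5) (-24) (-24) 0 0).toAffine.Point) ≠ 0 := by
    rw [show 5 = 2 * 2 + 1 from rfl, add_nsmul, one_nsmul, mul_nsmul, d1, d2]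
    intro h0
    exact some_ne_some n3 n1' (by norm_num) ((eq_neg_of_add_eq_zero_left h0).trans m1)
  have hd := addOrderOf_dvd_of_nsmul_eq_zero h10
  have hmem : addOrderOf (Point.some _ _ n1 : (EWQ (-5) (-24) (-24) 0 0).toAffine.Point) ∈ Nat.divisors 10 :=
    Nat.mem_divisors.2 ⟨hd, by norm_num⟩
  rw [show Nat.divisors 10 = {1, 2, 5, 10} by decide] at hmem
  simp only [Finset.mem_insert, Finset.mem_singleton] at hmem
  rcases hmem with h0 | h0 | h0 | h0
  · exact absurd (AddMonoid.addOrderOf_eq_one_iff.1 h0) (Point.some_ne_zero n1)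
  · exact absurd (addOrderOf_dvd_iff_nsmul_eq_zero.1 (by rw [h0])) h2
  · exact absurd (addOrderOf_dvd_iff_nsmul_eq_zero.1 (by rw [h0])) h5
  · exact h0

/-- **Each of the fifteen groups of Mazur's theorem is the torsion subgroup of an elliptic curve over `ℚ`.** -/
theorem realized_fifteen :
    (∀ n ∈ ({1, 2, 3, 4, 5, 6, 7, 8, 9, 10, 12} : Set ℕ), ∃ E : WeierstrassCurve ℚ, E.IsElliptic ∧
      Nonempty (AddCommGroup.torsion E.toAffine.Point ≃+ ZMod n)) ∧
    ∀ m ∈ ({1, 2, 3, 4} : Set ℕ), ∃ E : WeierstrassCurve ℚ, E.IsElliptic ∧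
      Nonempty (AddCommGroup.torsion E.toAffine.Point ≃+ ZMod 2 × ZMod (2 * m)) := by
  refine ⟨?_, realized.2⟩
  intro n hn
  simp only [Set.mem_insert_iff, Set.mem_singleton_iff] at hn
  rcases hn with rfl | rfl | rfl | rfl | rfl | rfl | rfl | rfl | rfl | rfl | rfl
  · exact exists_zmod_one
  · exact exists_zmod_two
  · exact exists_zmod_three
  · exact realized.1 4 (by simp)
  · exact exists_zmod_five
  · exact exists_zmod_six
  · exact exists_zmod_seven
  · exact realized.1 8 (by simp)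
  · exact exists_zmod_nine
  · exact exists_zmod_ten
  · exact realized.1 12 (by simp)

end Fermat.Agent.Cor.MT
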