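import Fermat.Agent.Corollaries.LN.Red
import Fermat.Agent.Corollaries.InvGal.Curve37

/-!
# Corollaries, MT: the seven torsion groups of order divisible by four

Explicit curves `y ^ 2 = x ^ 3 + a x ^ 2 + b x` with points of given orders, and, from the classification of the
torsion groups of order divisible by four (the hypothesis `H` of `realized_of`, proved in `MT/Main.lean`), each of the
seven groups as the torsion subgroup of an elliptic curve over `ℚ`.
-/

set_option autoImplicit false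

noncomputable section

open WeierstrassCurve WeierstrassCurve.Affine

namespace Fermat.Agent.Cor.MT

open Fermat.Agent.Cor.LN (EQQ EF)

/-! ### The groups -/

/-- The seven groups. -/
def IsOneOfSeven (T : Type*) [AddCommGroup T] : Prop :=
  (∃ n ∈ ({4, 8, 12} : Set ℕ), Nonempty (T ≃+ ZMod n)) ∨
    ∃ m ∈ ({1, 2, 3, 4} : Set ℕ), Nonempty (T ≃+ ZMod 2 × ZMod (2 * m))

section Groups

variable {T : Type*} [AddCommGroup T]

/-- The seven cases, in a form convenient for exclusions. -/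
theorem IsOneOfSeven.cases (h : IsOneOfSeven T) :
    Nonempty (T ≃+ ZMod 4) ∨ Nonempty (T ≃+ ZMod 8) ∨ Nonempty (T ≃+ ZMod 12) ∨
      Nonempty (T ≃+ ZMod 2 × ZMod 2) ∨ Nonempty (T ≃+ ZMod 2 × ZMod 4) ∨
        Nonempty (T ≃+ ZMod 2 × ZMod 6) ∨ Nonempty (T ≃+ ZMod 2 × ZMod 8) := by
  rcases h with ⟨n, hn, he⟩ | ⟨m, hm, he⟩
  · simp only [Set.mem_insert_iff, Set.mem_singleton_iff] at hn
    rcases hn with rfl | rfl | rfl
    · exact Or.inl he
    · exact Or.inr (Or.inl he)
    · exact Or.inr (Or.inr (Or.inl he))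
  · simp only [Set.mem_insert_iff, Set.mem_singleton_iff] at hm
    rcases hm with rfl | rfl | rfl | rfl
    · exact Or.inr (Or.inr (Or.inr (Or.inl he)))
    · exact Or.inr (Or.inr (Or.inr (Or.inr (Or.inl he))))
    · exact Or.inr (Or.inr (Or.inr (Or.inr (Or.inr (Or.inl he)))))
    · exact Or.inr (Or.inr (Or.inr (Or.inr (Or.inr (Or.inr he)))))

theorem not_equiv_of_card {G : Type*} [AddCommGroup G] {c : ℕ} (hG : Nat.card G = c)
    {d : ℕ} (hd : d ∣ Nat.card T) (h : ¬ d ∣ c) : ¬ Nonempty (T ≃+ G) := by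
  rintro ⟨e⟩
  rw [Nat.card_congr e.toEquiv, hG] at hd
  exact h hd

theorem not_equiv_of_dvd {G : Type*} [AddCommGroup G] {c : ℕ} (hG : Nat.card G = c)
    {d : ℕ} (hd : Nat.card T ∣ d) (h : ¬ c ∣ d) : ¬ Nonempty (T ≃+ G) := by
  rintro ⟨e⟩
  rw [Nat.card_congr e.toEquiv, hG] at hd
  exact h hd

theorem not_equiv_of_exponent {G : Type*} [AddCommGroup G] {n : ℕ} (hG : ∀ g : G, n • g = 0)
    {x : T} (hx : ¬ addOrderOf x ∣ n) : ¬ Nonempty (T ≃+ G) := by
  rintro ⟨e⟩
  refine hx (addOrderOf_dvd_of_nsmul_eq_zero (e.injective ?_))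
  rw [map_nsmul, hG, map_zero]

theorem not_equiv_of_two {G : Type*} [AddCommGroup G]
    (hG : ∀ s t : G, s ≠ 0 → t ≠ 0 → 2 • s = 0 → 2 • t = 0 → s = t) {s t : T} (hs : s ≠ 0)
    (ht : t ≠ 0) (hs2 : 2 • s = 0) (ht2 : 2 • t = 0) (hst : s ≠ t) : ¬ Nonempty (T ≃+ G) := by
  rintro ⟨e⟩
  refine hst (e.injective (hG _ _ ?_ ?_ ?_ ?_))
  · exact fun h => hs (e.injective (by rw [h, map_zero]))
  · exact fun h => ht (e.injective (by rw [h, map_zero]))
  · rw [← map_nsmul, hs2, map_zero]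
  · rw [← map_nsmul, ht2, map_zero]

theorem card_zmod_prod (m n : ℕ) : Nat.card (ZMod m × ZMod n) = m * n := by
  rw [Nat.card_prod, Nat.card_zmod, Nat.card_zmod]

theorem two_four : ∀ s t : ZMod 4, s ≠ 0 → t ≠ 0 → 2 • s = 0 → 2 • t = 0 → s = t := by decide

theorem two_eight : ∀ s t : ZMod 8, s ≠ 0 → t ≠ 0 → 2 • s = 0 → 2 • t = 0 → s = t := by decide

theorem two_twelve : ∀ s t : ZMod 12, s ≠ 0 → t ≠ 0 → 2 • s = 0 → 2 • t = 0 → s = t := by decide

/-- an element of order `4`, the order of the group divides `4` -/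
theorem IsOneOfSeven.four (h : IsOneOfSeven T) {x : T} (hx : addOrderOf x = 4)
    (hd : Nat.card T ∣ 4) : Nonempty (T ≃+ ZMod 4) := by
  rcases h.cases with h | h | h | h | h | h | h
  · exact h
  · exact absurd h (not_equiv_of_dvd (Nat.card_zmod 8) hd (by decide))
  · exact absurd h (not_equiv_of_dvd (Nat.card_zmod 12) hd (by decide))
  · exact absurd h (not_equiv_of_exponent (n := 2) (by decide) (x := x) (by rw [hx]; decide))
  · exact absurd h (not_equiv_of_dvd (card_zmod_prod 2 4) hd (by decide))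
  · exact absurd h (not_equiv_of_dvd (card_zmod_prod 2 6) hd (by decide))
  · exact absurd h (not_equiv_of_dvd (card_zmod_prod 2 8) hd (by decide))

/-- an element of order `8`, the order of the group divides `8` -/
theorem IsOneOfSeven.eight (h : IsOneOfSeven T) {x : T} (hx : addOrderOf x = 8)
    (hd : Nat.card T ∣ 8) : Nonempty (T ≃+ ZMod 8) := by
  have h8 : 8 ∣ Nat.card T := hx ▸ addOrderOf_dvd_natCard x
  rcases h.cases with h | h | h | h | h | h | h
  · exact absurd h (not_equiv_of_card (Nat.card_zmod 4) h8 (by decide))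
  · exact h
  · exact absurd h (not_equiv_of_dvd (Nat.card_zmod 12) hd (by decide))
  · exact absurd h (not_equiv_of_card (card_zmod_prod 2 2) h8 (by decide))
  · exact absurd h (not_equiv_of_exponent (n := 4) (by decide) (x := x) (by rw [hx]; decide))
  · exact absurd h (not_equiv_of_card (card_zmod_prod 2 6) h8 (by decide))
  · exact absurd h (not_equiv_of_dvd (card_zmod_prod 2 8) hd (by decide))

/-- an element of order `12` -/
theorem IsOneOfSeven.twelve (h : IsOneOfSeven T) {x : T} (hx : addOrderOf x = 12) :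
    Nonempty (T ≃+ ZMod 12) := by
  have h12 : 12 ∣ Nat.card T := hx ▸ addOrderOf_dvd_natCard x
  rcases h.cases with h | h | h | h | h | h | h
  · exact absurd h (not_equiv_of_card (Nat.card_zmod 4) h12 (by decide))
  · exact absurd h (not_equiv_of_card (Nat.card_zmod 8) h12 (by decide))
  · exact h
  · exact absurd h (not_equiv_of_card (card_zmod_prod 2 2) h12 (by decide))
  · exact absurd h (not_equiv_of_card (card_zmod_prod 2 4) h12 (by decide))
  · exact absurd h (not_equiv_of_exponent (n := 6) (by decide) (x := x) (by rw [hx]; decide))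
  · exact absurd h (not_equiv_of_card (card_zmod_prod 2 8) h12 (by decide))

variable {s t : T} (hs : s ≠ 0) (ht : t ≠ 0) (hs2 : 2 • s = 0) (ht2 : 2 • t = 0) (hst : s ≠ t)

include hs ht hs2 ht2 hst

/-- two elements of order two -/
theorem IsOneOfSeven.full (h : IsOneOfSeven T) : Nonempty (T ≃+ ZMod 2 × ZMod 2) ∨
    Nonempty (T ≃+ ZMod 2 × ZMod 4) ∨ Nonempty (T ≃+ ZMod 2 × ZMod 6) ∨
      Nonempty (T ≃+ ZMod 2 × ZMod 8) := by
  rcases h.cases with h | h | h | h
  · exact absurd h (not_equiv_of_two two_four hs ht hs2 ht2 hst)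
  · exact absurd h (not_equiv_of_two two_eight hs ht hs2 ht2 hst)
  · exact absurd h (not_equiv_of_two two_twelve hs ht hs2 ht2 hst)
  · exact h

/-- two elements of order two, the order divides `4` -/
theorem IsOneOfSeven.two_two (h : IsOneOfSeven T) (hd : Nat.card T ∣ 4) :
    Nonempty (T ≃+ ZMod 2 × ZMod 2) := by
  rcases h.full hs ht hs2 ht2 hst with h | h | h | h
  · exact h
  · exact absurd h (not_equiv_of_dvd (card_zmod_prod 2 4) hd (by decide))
  · exact absurd h (not_equiv_of_dvd (card_zmod_prod 2 6) hd (by decide))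
  · exact absurd h (not_equiv_of_dvd (card_zmod_prod 2 8) hd (by decide))

/-- two elements of order two, one of order four, the order divides `8` -/
theorem IsOneOfSeven.two_four (h : IsOneOfSeven T) {x : T} (hx : addOrderOf x = 4)
    (hd : Nat.card T ∣ 8) : Nonempty (T ≃+ ZMod 2 × ZMod 4) := by
  rcases h.full hs ht hs2 ht2 hst with h | h | h | h
  · exact absurd h (not_equiv_of_exponent (n := 2) (by decide) (x := x) (by rw [hx]; decide))
  · exact h
  · exact absurd h (not_equiv_of_dvd (card_zmod_prod 2 6) hd (by decide))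
  · exact absurd h (not_equiv_of_dvd (card_zmod_prod 2 8) hd (by decide))

/-- two elements of order two, one of order three -/
theorem IsOneOfSeven.two_six (h : IsOneOfSeven T) {x : T} (hx : addOrderOf x = 3) :
    Nonempty (T ≃+ ZMod 2 × ZMod 6) := by
  have h3 : 3 ∣ Nat.card T := hx ▸ addOrderOf_dvd_natCard x
  rcases h.full hs ht hs2 ht2 hst with h | h | h | h
  · exact absurd h (not_equiv_of_card (card_zmod_prod 2 2) h3 (by decide))
  · exact absurd h (not_equiv_of_card (card_zmod_prod 2 4) h3 (by decide))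
  · exact h
  · exact absurd h (not_equiv_of_card (card_zmod_prod 2 8) h3 (by decide))

/-- two elements of order two, one of order eight -/
theorem IsOneOfSeven.two_eight (h : IsOneOfSeven T) {x : T} (hx : addOrderOf x = 8) :
    Nonempty (T ≃+ ZMod 2 × ZMod 8) := by
  have h8 : 8 ∣ Nat.card T := hx ▸ addOrderOf_dvd_natCard x
  rcases h.full hs ht hs2 ht2 hst with h | h | h | h
  · exact absurd h (not_equiv_of_card (card_zmod_prod 2 2) h8 (by decide))
  · exact absurd h (not_equiv_of_exponent (n := 4) (by decide) (x := x) (by rw [hx]; decide))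
  · exact absurd h (not_equiv_of_card (card_zmod_prod 2 6) h8 (by decide))
  · exact h

/-- two elements of order two: four divides the order -/
theorem four_dvd_card [Finite T] : 4 ∣ Nat.card T := by
  have hF : Fact (Nat.Prime 2) := ⟨Nat.prime_two⟩
  have o1 : addOrderOf s = 2 := addOrderOf_eq_prime hs2 hs
  have h1 : t ∉ AddSubgroup.zmultiples s := by
    intro h
    obtain ⟨k, hk⟩ := AddSubgroup.mem_zmultiples_iff.mp h
    rcases Int.even_or_odd k with ⟨j, hj⟩ | ⟨j, hj⟩
    · apply ht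
      rw [← hk, hj, ← two_mul, mul_comm, mul_zsmul]
      have : (2 : ℤ) • s = 0 := by exact_mod_cast hs2
      rw [this, zsmul_zero]
    · apply hst
      rw [← hk, hj, add_zsmul, mul_comm, mul_zsmul]
      have : (2 : ℤ) • s = 0 := by exact_mod_cast hs2
      rw [this, zsmul_zero, zero_add, one_zsmul]
  have o2 : addOrderOf (t : T ⧸ AddSubgroup.zmultiples s) = 2 := by
    refine addOrderOf_eq_prime ?_ ?_
    · rw [← QuotientAddGroup.mk_nsmul, ht2, QuotientAddGroup.mk_zero]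
    · intro h
      exact h1 ((QuotientAddGroup.eq_zero_iff t).mp h)
  have h2 := AddSubgroup.card_eq_card_quotient_mul_card_addSubgroup (AddSubgroup.zmultiples s)
  rw [Nat.card_zmultiples, o1] at h2
  have h3 : 2 ∣ Nat.card (T ⧸ AddSubgroup.zmultiples s) := o2 ▸ addOrderOf_dvd_natCard _
  rw [h2]
  exact Nat.mul_dvd_mul h3 dvd_rfl

end Groups

/-! ### The curves -/

/-- The curve `y ^ 2 = x ^ 3 + a x ^ 2 + b x`. -/
def EX (a b : ℤ) : WeierstrassCurve ℤ := ⟨0, a, 0, b, 0⟩

/-- The curve over `ℚ`. -/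
def EXQ (a b : ℤ) : WeierstrassCurve ℚ := (EX a b).map (Int.castRingHom ℚ)

variable {a b : ℤ}

theorem EX_Δ : (EX a b).Δ = 16 * b ^ 2 * (a ^ 2 - 4 * b) := by
  simp only [EX, WeierstrassCurve.Δ, WeierstrassCurve.b₂, WeierstrassCurve.b₄,
    WeierstrassCurve.b₆, WeierstrassCurve.b₈]
  ring

theorem EXQ_Δ_ne (h : (EX a b).Δ ≠ 0) : (EXQ a b).Δ ≠ 0 := by
  rw [EXQ, WeierstrassCurve.map_Δ]
  simpa using h

theorem EXQ_isElliptic (h : (EX a b).Δ ≠ 0) : (EXQ a b).IsElliptic :=
  ⟨isUnit_iff_ne_zero.mpr (EXQ_Δ_ne h)⟩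

theorem EXQ_nonsingular (h : (EX a b).Δ ≠ 0) {x y : ℚ} (hxy : y ^ 2 = x ^ 3 + a * x ^ 2 + b * x) :
    (EXQ a b).toAffine.Nonsingular x y := by
  refine (equation_iff_nonsingular_of_Δ_ne_zero (EXQ_Δ_ne h)).mp ?_
  rw [equation_iff]
  simp only [EXQ, EX, WeierstrassCurve.map, map_zero, eq_intCast]
  linear_combination hxy

/-- Doubling. -/
theorem two_nsmul_some {x y x' y' : ℚ} (h : (EXQ a b).toAffine.Nonsingular x y)
    (h' : (EXQ a b).toAffine.Nonsingular x' y') (l : ℚ) (hy : y ≠ 0)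
    (hl : l * (2 * y) = 3 * x ^ 2 + 2 * a * x + b) (hx' : x' = l ^ 2 - a - 2 * x)
    (hy' : y' = -(l * (x' - x) + y)) :
    2 • (Point.some x y h : (EXQ a b).toAffine.Point) = Point.some x' y' h' := by
  have e1 : (EXQ a b).toAffine.a₁ = 0 := by simp [EXQ, EX, WeierstrassCurve.map]
  have e2 : (EXQ a b).toAffine.a₂ = a := by simp [EXQ, EX, WeierstrassCurve.map]
  have e3 : (EXQ a b).toAffine.a₃ = 0 := by simp [EXQ, EX, WeierstrassCurve.map]
  have e4 : (EXQ a b).toAffine.a₄ = b := by simp [EXQ, EX, WeierstrassCurve.map]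
  have hneg : (EXQ a b).toAffine.negY x y = -y := by
    rw [negY, e1, e3]
    ring
  have hne : y ≠ (EXQ a b).toAffine.negY x y := by
    rw [hneg]
    intro h0
    exact hy (by linarith)
  have hs : (EXQ a b).toAffine.slope x x y y = l := by
    rw [slope_of_Y_ne rfl hne, hneg, e1, e2, e4, div_eq_iff (by
      intro h0
      exact hy (by linarith))]
    linear_combination -hl
  rw [two_nsmul, Point.add_self_of_Y_ne hne, Point.some.injEq, hs]
  constructor
  · rw [addX, e1, e2, hx']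
    ring
  · rw [addY, negAddY, negY, addX, e1, e2, e3, hy', hx']
    ring

/-- The points with `y = 0`. -/
theorem two_nsmul_zero {x : ℚ} (h : (EXQ a b).toAffine.Nonsingular x 0) :
    2 • (Point.some x 0 h : (EXQ a b).toAffine.Point) = 0 := by
  have e1 : (EXQ a b).toAffine.a₁ = 0 := by simp [EXQ, EX, WeierstrassCurve.map]
  have e3 : (EXQ a b).toAffine.a₃ = 0 := by simp [EXQ, EX, WeierstrassCurve.map]
  rw [two_nsmul, Point.add_of_Y_eq rfl]
  rw [negY, e1, e3]
  ring

/-- The negative of a point. -/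
theorem neg_some' {x y : ℚ} (h : (EXQ a b).toAffine.Nonsingular x y)
    (h' : (EXQ a b).toAffine.Nonsingular x (-y)) :
    -(Point.some x y h : (EXQ a b).toAffine.Point) = Point.some x (-y) h' := by
  have e1 : (EXQ a b).toAffine.a₁ = 0 := by simp [EXQ, EX, WeierstrassCurve.map]
  have e3 : (EXQ a b).toAffine.a₃ = 0 := by simp [EXQ, EX, WeierstrassCurve.map]
  rw [Point.neg_some, Point.some.injEq]
  refine ⟨rfl, ?_⟩
  rw [negY, e1, e3]
  ring

/-- The torsion subgroup. -/
abbrev Tor (E : WeierstrassCurve ℚ) : Type := AddCommGroup.torsion E.toAffine.Point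

theorem exists_torsion {E : WeierstrassCurve ℚ} {n : ℕ} (hn : n ≠ 0) {P : E.toAffine.Point}
    (h : n • P = 0) : ∃ T : Tor E, (T : E.toAffine.Point) = P :=
  ⟨⟨P, isOfFinAddOrder_iff_nsmul_eq_zero.mpr ⟨n, Nat.pos_of_ne_zero hn, h⟩⟩, rfl⟩

theorem addOrderOf_coe_tor {E : WeierstrassCurve ℚ} (T : Tor E) :
    addOrderOf T = addOrderOf (T : E.toAffine.Point) :=
  (addOrderOf_injective (AddCommGroup.torsion E.toAffine.Point).subtype
    (AddCommGroup.torsion E.toAffine.Point).subtype_injective T).symm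

theorem exists_torsion_order {E : WeierstrassCurve ℚ} {n : ℕ} (hn : n ≠ 0)
    {P : E.toAffine.Point} (h : addOrderOf P = n) : ∃ T : Tor E, addOrderOf T = n := by
  obtain ⟨T, hT⟩ := exists_torsion hn (P := P) (by rw [← h]; exact addOrderOf_nsmul_eq_zero P)
  exact ⟨T, by rw [addOrderOf_coe_tor, hT, h]⟩

/-- a point of order two -/
theorem exists_two (h : (EX a b).Δ ≠ 0) {x : ℚ} (hx : x ^ 3 + a * x ^ 2 + b * x = 0) :
    ∃ T : Tor (EXQ a b), T ≠ 0 ∧ 2 • T = 0 ∧
      ∃ h', (T : (EXQ a b).toAffine.Point) = Point.some x 0 h' := by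
  have hns : (EXQ a b).toAffine.Nonsingular x 0 := EXQ_nonsingular h (by linear_combination -hx)
  obtain ⟨T, hT⟩ := exists_torsion two_ne_zero (two_nsmul_zero hns)
  refine ⟨T, fun h0 => ?_, Subtype.ext ?_, hns, hT⟩
  · rw [h0] at hT
    exact Point.some_ne_zero hns hT.symm
  · change 2 • (T : (EXQ a b).toAffine.Point) = 0
    rw [hT, two_nsmul_zero]

/-- two points of order two -/
theorem exists_two_two (h : (EX a b).Δ ≠ 0) {x x' : ℚ} (hx : x ^ 3 + a * x ^ 2 + b * x = 0)
    (hx' : x' ^ 3 + a * x' ^ 2 + b * x' = 0) (hne : x ≠ x') :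
    ∃ s t : Tor (EXQ a b), s ≠ 0 ∧ t ≠ 0 ∧ 2 • s = 0 ∧ 2 • t = 0 ∧ s ≠ t := by
  obtain ⟨s, hs, hs2, h1, hs1⟩ := exists_two h hx
  obtain ⟨t, ht, ht2, h2, ht1⟩ := exists_two h hx'
  refine ⟨s, t, hs, ht, hs2, ht2, fun h0 => hne ?_⟩
  rw [h0, ht1, Point.some.injEq] at hs1
  exact hs1.1.symm

/-- a point of order four: `2 (x, y) = (x', 0)` -/
theorem exists_order_four (h : (EX a b).Δ ≠ 0) {x y x' l : ℚ}
    (hxy : y ^ 2 = x ^ 3 + a * x ^ 2 + b * x) (hy : y ≠ 0)
    (hl : l * (2 * y) = 3 * x ^ 2 + 2 * a * x + b) (hx' : x' = l ^ 2 - a - 2 * x)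
    (hy' : 0 = -(l * (x' - x) + y)) (h0 : x' ^ 3 + a * x' ^ 2 + b * x' = 0) :
    ∃ T : Tor (EXQ a b), addOrderOf T = 4 := by
  have h1 : (EXQ a b).toAffine.Nonsingular x y := EXQ_nonsingular h hxy
  have h2 : (EXQ a b).toAffine.Nonsingular x' 0 := EXQ_nonsingular h (by linear_combination -h0)
  have h3 := two_nsmul_some h1 h2 l hy hl hx' hy'
  have hF : Fact (Nat.Prime 2) := ⟨Nat.prime_two⟩
  refine exists_torsion_order (by norm_num) (P := Point.some x y h1) ?_
  have h4 := addOrderOf_eq_prime_pow (x := (Point.some x y h1 : (EXQ a b).toAffine.Point))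
    (p := 2) (n := 1) (by
      rw [pow_one, h3]
      exact Point.some_ne_zero h2) (by
      rw [show 2 ^ (1 + 1) = 2 * 2 from rfl, mul_nsmul, h3, two_nsmul_zero])
  exact h4

/-- a point of order three: `2 (x, y) = (x, -y)` -/
theorem exists_order_three (h : (EX a b).Δ ≠ 0) {x y l : ℚ}
    (hxy : y ^ 2 = x ^ 3 + a * x ^ 2 + b * x) (hy : y ≠ 0)
    (hl : l * (2 * y) = 3 * x ^ 2 + 2 * a * x + b) (hx' : x = l ^ 2 - a - 2 * x) :
    ∃ T : Tor (EXQ a b), addOrderOf T = 3 := by
  have h1 : (EXQ a b).toAffine.Nonsingular x y := EXQ_nonsingular h hxy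
  have h2 : (EXQ a b).toAffine.Nonsingular x (-y) :=
    EXQ_nonsingular h (by rw [neg_sq]; exact hxy)
  have h3 := two_nsmul_some h1 h2 l hy hl hx' (by ring)
  rw [← neg_some' h1 h2] at h3
  have hF : Fact (Nat.Prime 3) := ⟨Nat.prime_three⟩
  refine exists_torsion_order (by norm_num) (P := Point.some x y h1)
    (addOrderOf_eq_prime ?_ (Point.some_ne_zero h1))
  rw [show 3 = 2 + 1 from rfl, add_nsmul, h3, one_nsmul, neg_add_cancel]

/-- a point of order eight: `4 (x, y) = (x'', 0)` -/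
theorem exists_order_eight (h : (EX a b).Δ ≠ 0) {x y x' y' x'' l l' : ℚ}
    (hxy : y ^ 2 = x ^ 3 + a * x ^ 2 + b * x) (hy : y ≠ 0)
    (hl : l * (2 * y) = 3 * x ^ 2 + 2 * a * x + b) (hx' : x' = l ^ 2 - a - 2 * x)
    (hy' : y' = -(l * (x' - x) + y)) (hxy' : y' ^ 2 = x' ^ 3 + a * x' ^ 2 + b * x')
    (hy0 : y' ≠ 0) (hl' : l' * (2 * y') = 3 * x' ^ 2 + 2 * a * x' + b)
    (hx'' : x'' = l' ^ 2 - a - 2 * x') (hy'' : 0 = -(l' * (x'' - x') + y'))
    (h0 : x'' ^ 3 + a * x'' ^ 2 + b * x'' = 0) :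
    ∃ T : Tor (EXQ a b), addOrderOf T = 8 := by
  have h1 : (EXQ a b).toAffine.Nonsingular x y := EXQ_nonsingular h hxy
  have h2 : (EXQ a b).toAffine.Nonsingular x' y' := EXQ_nonsingular h hxy'
  have h2' : (EXQ a b).toAffine.Nonsingular x'' 0 := EXQ_nonsingular h (by linear_combination -h0)
  have h3 := two_nsmul_some h1 h2 l hy hl hx' hy'
  have h3' := two_nsmul_some h2 h2' l' hy0 hl' hx'' hy''
  have hF : Fact (Nat.Prime 2) := ⟨Nat.prime_two⟩
  refine exists_torsion_order (by norm_num) (P := Point.some x y h1) ?_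
  have h4 : (2 ^ 2) • (Point.some x y h1 : (EXQ a b).toAffine.Point) = Point.some x'' 0 h2' := by
    rw [show 2 ^ 2 = 2 * 2 from rfl, mul_nsmul, h3, h3']
  have h5 := addOrderOf_eq_prime_pow (x := (Point.some x y h1 : (EXQ a b).toAffine.Point))
    (p := 2) (n := 2) (by
      rw [h4]
      exact Point.some_ne_zero h2') (by
      rw [pow_succ, mul_nsmul, h4, two_nsmul_zero])
  exact h5

/-- The number of points modulo a prime bounds the torsion. -/
theorem card_dvd {q : ℕ} [NeZero q] (hq : q.Prime) (hq2 : q ≠ 2)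
    (hgood : ¬ (q : ℤ) ∣ 16 * b ^ 2 * (a ^ 2 - 4 * b)) {N : ℕ}
    (hN : ((q : ℤ) + 1 - (q - InvGal.cnt (EX a b) q)) = N) : Nat.card (Tor (EXQ a b)) ∣ N := by
  have hF : Fact q.Prime := ⟨hq⟩
  have hgood' : ¬ (q : ℤ) ∣ (EX a b).Δ := by rwa [EX_Δ]
  have h1 := LN.card_torsion_dvd_apOfModel (W := EX a b) hq2 hgood'
  rw [InvGal.apOfModel_eq _ hq hgood', hN] at h1
  exact_mod_cast h1

/-! ### The seven examples -/

theorem four_dvd_card_Tor (h : (EX a b).Δ ≠ 0) {s t : Tor (EXQ a b)} (hs : s ≠ 0) (ht : t ≠ 0)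
    (hs2 : 2 • s = 0) (ht2 : 2 • t = 0) (hst : s ≠ t) : 4 ∣ Nat.card (Tor (EXQ a b)) := by
  have : Finite (Tor (EXQ a b)) := LN.finite_torsion h
  exact four_dvd_card hs ht hs2 ht2 hst

section Examples

variable (H : ∀ (E : WeierstrassCurve ℚ) [E.IsElliptic],
  4 ∣ Nat.card (Tor E) → IsOneOfSeven (Tor E))

include H

/-- `y ^ 2 = x ^ 3 + 4 x` -/
theorem exists_zmod_four :
    ∃ E : WeierstrassCurve ℚ, E.IsElliptic ∧ Nonempty (Tor E ≃+ ZMod 4) := by
  have h : (EX 0 4).Δ ≠ 0 := by decide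
  have hE := EXQ_isElliptic h
  obtain ⟨T, hT⟩ := exists_order_four h (x := 2) (y := 4) (x' := 0) (l := 2) (by norm_num)
    (by norm_num) (by norm_num) (by norm_num) (by norm_num) (by norm_num)
  have hd : Nat.card (Tor (EXQ 0 4)) ∣ 4 := by
    exact card_dvd (q := 3) Nat.prime_three (by norm_num) (by decide) (by decide +kernel)
  exact ⟨_, hE, (H _ (hT ▸ addOrderOf_dvd_natCard T)).four hT hd⟩

/-- `y ^ 2 = x ^ 3 - 14 x ^ 2 + 81 x` -/
theorem exists_zmod_eight :
    ∃ E : WeierstrassCurve ℚ, E.IsElliptic ∧ Nonempty (Tor E ≃+ ZMod 8) := by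
  have h : (EX (-14) 81).Δ ≠ 0 := by decide
  have hE := EXQ_isElliptic h
  obtain ⟨T, hT⟩ := exists_order_eight h (x := 3) (y := 12) (x' := 9) (y' := -18) (x'' := 0)
    (l := 1) (l' := -2) (by norm_num) (by norm_num) (by norm_num) (by norm_num) (by norm_num)
    (by norm_num) (by norm_num) (by norm_num) (by norm_num) (by norm_num) (by norm_num)
  have hd : Nat.card (Tor (EXQ (-14) 81)) ∣ 8 := by
    exact card_dvd (q := 5) Nat.prime_five (by norm_num) (by decide) (by decide +kernel)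
  have h8 : 8 ∣ Nat.card (Tor (EXQ (-14) 81)) := hT ▸ addOrderOf_dvd_natCard T
  exact ⟨_, hE, (H _ (dvd_trans (by norm_num) h8)).eight hT hd⟩

/-- `y ^ 2 = x ^ 3 - 183 x ^ 2 + 9216 x` -/
theorem exists_zmod_twelve :
    ∃ E : WeierstrassCurve ℚ, E.IsElliptic ∧ Nonempty (Tor E ≃+ ZMod 12) := by
  have h : (EX (-183) 9216).Δ ≠ 0 := by decide
  have hE := EXQ_isElliptic h
  obtain ⟨T, hT⟩ := exists_order_four h (x := 96) (y := 288) (x' := 0) (l := 3) (by norm_num)
    (by norm_num) (by norm_num) (by norm_num) (by norm_num) (by norm_num)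
  obtain ⟨S, hS⟩ := exists_order_three h (x := 64) (y := 320) (l := -3) (by norm_num)
    (by norm_num) (by norm_num) (by norm_num)
  have hTS : addOrderOf (T + S) = 12 := by
    rw [(AddCommute.all T S).addOrderOf_add_eq_mul_addOrderOf_of_coprime (by
      rw [hT, hS]; norm_num), hT, hS]
  have h4 : 4 ∣ Nat.card (Tor (EXQ (-183) 9216)) := hT ▸ addOrderOf_dvd_natCard T
  exact ⟨_, hE, (H _ h4).twelve hTS⟩

/-- `y ^ 2 = x ^ 3 - x` -/
theorem exists_two_zmod_two :
    ∃ E : WeierstrassCurve ℚ, E.IsElliptic ∧ Nonempty (Tor E ≃+ ZMod 2 × ZMod 2) := by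
  have h : (EX 0 (-1)).Δ ≠ 0 := by decide
  have hE := EXQ_isElliptic h
  obtain ⟨s, t, hs, ht, hs2, ht2, hst⟩ := exists_two_two h (x := 0) (x' := 1) (by norm_num)
    (by norm_num) (by norm_num)
  have hd : Nat.card (Tor (EXQ 0 (-1))) ∣ 4 := by
    exact card_dvd (q := 3) Nat.prime_three (by norm_num) (by decide) (by decide +kernel)
  exact ⟨_, hE, (H _ (four_dvd_card_Tor h hs ht hs2 ht2 hst)).two_two hs ht hs2 ht2 hst hd⟩

/-- `y ^ 2 = x ^ 3 + 2 x ^ 2 - 3 x` -/
theorem exists_two_zmod_four :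
    ∃ E : WeierstrassCurve ℚ, E.IsElliptic ∧ Nonempty (Tor E ≃+ ZMod 2 × ZMod 4) := by
  have h : (EX 2 (-3)).Δ ≠ 0 := by decide
  have hE := EXQ_isElliptic h
  obtain ⟨s, t, hs, ht, hs2, ht2, hst⟩ := exists_two_two h (x := 0) (x' := 1) (by norm_num)
    (by norm_num) (by norm_num)
  obtain ⟨T, hT⟩ := exists_order_four h (x := 3) (y := 6) (x' := 1) (l := 3) (by norm_num)
    (by norm_num) (by norm_num) (by norm_num) (by norm_num) (by norm_num)
  have hd : Nat.card (Tor (EXQ 2 (-3))) ∣ 8 := by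
    exact card_dvd (q := 5) Nat.prime_five (by norm_num) (by decide) (by decide +kernel)
  exact ⟨_, hE, (H _ (hT ▸ addOrderOf_dvd_natCard T)).two_four hs ht hs2 ht2 hst hT hd⟩

/-- `y ^ 2 = x ^ 3 + 22 x ^ 2 - 135 x` -/
theorem exists_two_zmod_six :
    ∃ E : WeierstrassCurve ℚ, E.IsElliptic ∧ Nonempty (Tor E ≃+ ZMod 2 × ZMod 6) := by
  have h : (EX 22 (-135)).Δ ≠ 0 := by decide
  have hE := EXQ_isElliptic h
  obtain ⟨s, t, hs, ht, hs2, ht2, hst⟩ := exists_two_two h (x := 0) (x' := 5) (by norm_num)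
    (by norm_num) (by norm_num)
  obtain ⟨T, hT⟩ := exists_order_three h (x := 9) (y := 36) (l := 7) (by norm_num)
    (by norm_num) (by norm_num) (by norm_num)
  exact ⟨_, hE, (H _ (four_dvd_card_Tor h hs ht hs2 ht2 hst)).two_six hs ht hs2 ht2 hst hT⟩

/-- `y ^ 2 = x ^ 3 + 337 x ^ 2 + 20736 x` -/
theorem exists_two_zmod_eight :
    ∃ E : WeierstrassCurve ℚ, E.IsElliptic ∧ Nonempty (Tor E ≃+ ZMod 2 × ZMod 8) := by
  have h : (EX 337 20736).Δ ≠ 0 := by decide
  have hE := EXQ_isElliptic h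
  obtain ⟨s, t, hs, ht, hs2, ht2, hst⟩ := exists_two_two h (x := 0) (x' := -81) (by norm_num)
    (by norm_num) (by norm_num)
  obtain ⟨T, hT⟩ := exists_order_eight h (x := 864) (y := 30240) (x' := 144) (y' := 3600) (x'' := 0)
    (l := 47) (l' := 25) (by norm_num) (by norm_num) (by norm_num) (by norm_num) (by norm_num)
    (by norm_num) (by norm_num) (by norm_num) (by norm_num) (by norm_num) (by norm_num)
  exact ⟨_, hE, (H _ (four_dvd_card_Tor h hs ht hs2 ht2 hst)).two_eight hs ht hs2 ht2 hst hT⟩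

/-- **Each of the seven groups occurs.** -/
theorem realized_of :
    (∀ n ∈ ({4, 8, 12} : Set ℕ), ∃ E : WeierstrassCurve ℚ, E.IsElliptic ∧
      Nonempty (AddCommGroup.torsion E.toAffine.Point ≃+ ZMod n)) ∧
    ∀ m ∈ ({1, 2, 3, 4} : Set ℕ), ∃ E : WeierstrassCurve ℚ, E.IsElliptic ∧
      Nonempty (AddCommGroup.torsion E.toAffine.Point ≃+ ZMod 2 × ZMod (2 * m)) := by
  constructor
  · intro n hn
    simp only [Set.mem_insert_iff, Set.mem_singleton_iff] at hn
    rcases hn with rfl | rfl | rfl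
    · exact exists_zmod_four H
    · exact exists_zmod_eight H
    · exact exists_zmod_twelve H
  · intro m hm
    simp only [Set.mem_insert_iff, Set.mem_singleton_iff] at hm
    rcases hm with rfl | rfl | rfl | rfl
    · exact exists_two_zmod_two H
    · exact exists_two_zmod_four H
    · exact exists_two_zmod_six H
    · exact exists_two_zmod_eight H

end Examples

end Fermat.Agent.Cor.MT
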