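import Fermat.Agent.Corollaries.K4.Small.Surj
import Fermat.Agent.Corollaries.K4.Small.Seven
import Fermat.Agent.Corollaries.MT.Examples

/-!
# Corollaries, MT: irreducibility and surjectivity for semistable curves with `4 ∣ #E(ℚ)_tors`

If the torsion subgroup of a semistable elliptic curve over `ℚ` has order divisible by four, its mod `p`
representations are irreducible and surjective for every prime `p ≥ 5`. The hypothesis `H` of the theorems of this file
is Mazur's theorem for torsion subgroups of order divisible by four (`MT/Main.lean`).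
-/

set_option autoImplicit false

noncomputable section

open WeierstrassCurve WeierstrassCurve.Affine

namespace Fermat.Agent.Cor.MT

open Fermat.Agent.Cor.K1
open Fermat.Agent.Cor.Small (TwoFixed)

local notation "ℚbar" => AlgebraicClosure ℚ

/-- Points over `ℚ̄` fixed by Galois are rational. -/
theorem exists_rat_point (E : WeierstrassCurve ℚ) [E.IsElliptic] {P : Pts E}
    (hfix : ∀ σ : Gam, σ • P = P) :
    ∃ Q : (E⁄ℚ).Point, (Point.baseChange ℚ (AlgebraicClosure ℚ) Q : Pts E) = P := by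
  rcases P with _ | ⟨x, y, hxy⟩
  · exact ⟨0, map_zero _⟩
  have hσ : ∀ σ : Gam, σ x = x ∧ σ y = y := by
    intro σ
    have h1 := hfix σ
    rw [Point.algEquiv_smul_def, Point.map_some, Point.some.injEq] at h1
    exact h1
  obtain ⟨r, hr⟩ := S13five.exists_rat_of_fixed fun σ => (hσ σ).1
  obtain ⟨t, ht⟩ := S13five.exists_rat_of_fixed fun σ => (hσ σ).2
  have heq : (E⁄ℚ).Equation r t := by
    have h1 := hxy.1
    rw [← hr, ← ht] at h1
    have h2 := (Affine.map_equation (W := E.toAffine) (f := algebraMap ℚ ℚbar)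
      (algebraMap ℚ ℚbar).injective r t).mp h1
    rw [show (E⁄ℚ) = E from E.map_id]
    exact h2
  have hΔ : (E⁄ℚ).Δ ≠ 0 := by
    rw [show (E⁄ℚ) = E from E.map_id]
    exact E.isUnit_Δ.ne_zero
  have hns : (E⁄ℚ).Nonsingular r t := (equation_iff_nonsingular_of_Δ_ne_zero hΔ).mp heq
  refine ⟨Point.some r t hns, ?_⟩
  change Point.map (W' := E) (Algebra.ofId ℚ ℚbar) (Point.some r t hns) = Point.some x y hxy
  rw [Point.map_some, Point.some.injEq]
  exact ⟨hr, ht⟩

/-- A rational point of order four. -/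
def HasFour (E : WeierstrassCurve ℚ) : Prop :=
  ∃ T : Pts E, addOrderOf T = 4 ∧ ∀ σ : Gam, σ • T = T

theorem HasFour.of_hom {p : ℕ} (hp : ¬ 2 ∣ p) {E E' : WeierstrassCurve ℚ} (h : HasFour E)
    (φ : Pts E →+ Pts E') (hφ : ∀ (σ : Gam) (x : Pts E), φ (σ • x) = σ • φ x)
    (hker : ∀ x ∈ φ.ker, p • x = 0) : HasFour E' := by
  obtain ⟨T, hT, hfix⟩ := h
  refine ⟨φ T, ?_, fun σ => by rw [← hφ, hfix]⟩
  have h4 : 4 • T = 0 := by rw [← hT]; exact addOrderOf_nsmul_eq_zero T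
  have hF : Fact (Nat.Prime 2) := ⟨Nat.prime_two⟩
  refine addOrderOf_eq_prime_pow (p := 2) (n := 1) (fun h0 => hp ?_) (by
    rw [← map_nsmul]
    change φ (4 • T) = 0
    rw [h4, map_zero])
  rw [pow_one, ← map_nsmul] at h0
  have h1 : p • (2 • T) = 0 := hker _ h0
  rw [← mul_nsmul'] at h1
  have h2 := addOrderOf_dvd_of_nsmul_eq_zero h1
  rw [hT] at h2
  obtain ⟨k, hk⟩ := h2
  exact ⟨k, by omega⟩

theorem IsOneOfSeven.card_dvd {T : Type*} [AddCommGroup T] (h : IsOneOfSeven T) :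
    Nat.card T ∣ 48 := by
  rcases h.cases with ⟨⟨e⟩⟩ | ⟨⟨e⟩⟩ | ⟨⟨e⟩⟩ | ⟨⟨e⟩⟩ | ⟨⟨e⟩⟩ | ⟨⟨e⟩⟩ | ⟨⟨e⟩⟩ <;>
  · rw [Nat.card_congr e.toEquiv]
    simp only [Nat.card_prod, Nat.card_zmod]
    decide

theorem ex_four : ∃ x : ZMod 4, ¬ 2 • x = 0 ∧ 4 • x = 0 := ⟨1, by decide, by decide⟩

theorem ex_eight : ∃ x : ZMod 8, ¬ 2 • x = 0 ∧ 4 • x = 0 := ⟨2, by decide, by decide⟩

theorem ex_twelve : ∃ x : ZMod 12, ¬ 2 • x = 0 ∧ 4 • x = 0 := ⟨3, by decide, by decide⟩

theorem ex_two_two : ∃ s t : ZMod 2 × ZMod 2, s ≠ 0 ∧ t ≠ 0 ∧ 2 • s = 0 ∧ 2 • t = 0 ∧ s ≠ t :=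
  ⟨(1, 0), (0, 1), by decide⟩

theorem ex_two_four : ∃ s t : ZMod 2 × ZMod 4, s ≠ 0 ∧ t ≠ 0 ∧ 2 • s = 0 ∧ 2 • t = 0 ∧ s ≠ t :=
  ⟨(1, 0), (0, 2), by decide⟩

theorem ex_two_six : ∃ s t : ZMod 2 × ZMod 6, s ≠ 0 ∧ t ≠ 0 ∧ 2 • s = 0 ∧ 2 • t = 0 ∧ s ≠ t :=
  ⟨(1, 0), (0, 3), by decide⟩

theorem ex_two_eight : ∃ s t : ZMod 2 × ZMod 8, s ≠ 0 ∧ t ≠ 0 ∧ 2 • s = 0 ∧ 2 • t = 0 ∧ s ≠ t :=
  ⟨(1, 0), (0, 4), by decide⟩

/-- In the seven groups there is an element of order four or there are two of order two. -/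
theorem IsOneOfSeven.four_or_two {T : Type*} [AddCommGroup T] (h : IsOneOfSeven T) :
    (∃ x : T, addOrderOf x = 4) ∨
      ∃ s t : T, s ≠ 0 ∧ t ≠ 0 ∧ 2 • s = 0 ∧ 2 • t = 0 ∧ s ≠ t := by
  have hF : Fact (Nat.Prime 2) := ⟨Nat.prime_two⟩
  have key4 : ∀ {G : Type} [AddCommGroup G], Nonempty (T ≃+ G) →
      (∃ x : G, ¬ 2 • x = 0 ∧ 4 • x = 0) → ∃ x : T, addOrderOf x = 4 := by
    rintro G _ ⟨e⟩ ⟨x, h2, h4⟩
    refine ⟨e.symm x, addOrderOf_eq_prime_pow (p := 2) (n := 1) (fun h0 => h2 ?_) ?_⟩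
    · apply e.symm.injective
      rw [map_nsmul, map_zero]
      exact h0
    · change 4 • e.symm x = 0
      rw [← map_nsmul, h4, map_zero]
  have key2 : ∀ {G : Type} [AddCommGroup G], Nonempty (T ≃+ G) →
      (∃ s t : G, s ≠ 0 ∧ t ≠ 0 ∧ 2 • s = 0 ∧ 2 • t = 0 ∧ s ≠ t) →
      ∃ s t : T, s ≠ 0 ∧ t ≠ 0 ∧ 2 • s = 0 ∧ 2 • t = 0 ∧ s ≠ t := by
    rintro G _ ⟨e⟩ ⟨s, t, hs, ht, hs2, ht2, hst⟩
    refine ⟨e.symm s, e.symm t, fun h => hs ?_, fun h => ht ?_, ?_, ?_, fun h => hst ?_⟩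
    · exact e.symm.injective (by rw [h, map_zero])
    · exact e.symm.injective (by rw [h, map_zero])
    · rw [← map_nsmul, hs2, map_zero]
    · rw [← map_nsmul, ht2, map_zero]
    · exact e.symm.injective h
  rcases h.cases with h | h | h | h | h | h | h
  · exact Or.inl (key4 h ex_four)
  · exact Or.inl (key4 h ex_eight)
  · exact Or.inl (key4 h ex_twelve)
  · exact Or.inr (key2 h ex_two_two)
  · exact Or.inr (key2 h ex_two_four)
  · exact Or.inr (key2 h ex_two_six)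
  · exact Or.inr (key2 h ex_two_eight)

/-- two rational points of order two: all points of order two are rational -/
theorem twoFixed_of_two {E : WeierstrassCurve ℚ} [E.IsElliptic] {s t : (E⁄ℚ).Point}
    (hs : s ≠ 0) (ht : t ≠ 0) (hs2 : 2 • s = 0) (ht2 : 2 • t = 0) (hst : s ≠ t) :
    TwoFixed E := by
  let A : AddSubgroup (E⁄ℚ).Point := (nsmulAddMonoidHom 2).ker
  have hmem : ∀ P : (E⁄ℚ).Point, P ∈ A ↔ 2 • P = 0 := fun P => by
    rw [AddMonoidHom.mem_ker]
    rfl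
  have hΔ' : (E⁄ℚbar : WeierstrassCurve ℚbar).Δ ≠ 0 := by
    rw [show (E⁄ℚbar : WeierstrassCurve ℚbar) = E.map (algebraMap ℚ ℚbar) from rfl,
      WeierstrassCurve.map_Δ]
    simpa using E.isUnit_Δ.ne_zero
  have hc : Nat.card {P : Pts E // 2 • P = 0} = 2 ^ 2 :=
    Torsion.card_torsion hΔ' (by norm_num)
  have hfin : Finite {P : Pts E // 2 • P = 0} := Nat.finite_of_card_ne_zero (by rw [hc]; norm_num)
  let f : A → {P : Pts E // 2 • P = 0} := fun P =>
    ⟨Point.baseChange ℚ (AlgebraicClosure ℚ) P.1, by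
      rw [← map_nsmul, (hmem P.1).mp P.2, map_zero]⟩
  have hinj : Function.Injective f := fun a b hab =>
    Subtype.ext (Point.map_injective (W' := E) _ (congrArg Subtype.val hab))
  have hA : Finite A := Finite.of_injective f hinj
  have hle : Nat.card A ≤ 4 := by
    have := Nat.card_le_card_of_injective f hinj
    rwa [hc] at this
  have h4 : 4 ∣ Nat.card A := by
    refine four_dvd_card (s := (⟨s, (hmem s).mpr hs2⟩ : A)) (t := ⟨t, (hmem t).mpr ht2⟩)
      (fun h => hs (congrArg Subtype.val h)) (fun h => ht (congrArg Subtype.val h))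
      (Subtype.ext hs2) (Subtype.ext ht2) (fun h => hst (congrArg Subtype.val h))
  have hpos : 0 < Nat.card A := Nat.card_pos
  have hcard : Nat.card A = 4 := by
    have := Nat.le_of_dvd hpos h4
    omega
  refine Small.twoFixed_of_card ?_
  rw [← hcard]
  exact Nat.card_congr (Equiv.subtypeEquivRight fun P => (hmem P).symm)

/-- A rational point of order four, or all points of order two rational. -/
theorem hasFour_or_twoFixed (E : WeierstrassCurve ℚ) [E.IsElliptic] (h : IsOneOfSeven (Tor E)) :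
    HasFour E ∨ TwoFixed E := by
  have key : ∀ C : WeierstrassCurve ℚ, C = (E⁄ℚ) → IsOneOfSeven (Tor C) →
      HasFour E ∨ TwoFixed E := by
    rintro C rfl h
    rcases h.four_or_two with ⟨x, hx⟩ | ⟨s, t, hs, ht, hs2, ht2, hst⟩
    · left
      rw [addOrderOf_coe_tor] at hx
      exact ⟨Point.baseChange ℚ (AlgebraicClosure ℚ) (x : (E⁄ℚ).Point), by
        rw [addOrderOf_baseChange]; exact hx, fun σ => smul_baseChange E σ _⟩
    · right
      exact twoFixed_of_two (s := (s : (E⁄ℚ).Point)) (t := (t : (E⁄ℚ).Point))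
        (fun h => hs (Subtype.ext h)) (fun h => ht (Subtype.ext h))
        (congrArg Subtype.val hs2) (congrArg Subtype.val ht2) (fun h => hst (Subtype.ext h))
  exact key E E.map_id.symm h

section

variable (H : ∀ (E : WeierstrassCurve ℚ) [E.IsElliptic],
  4 ∣ Nat.card (Tor E) → IsOneOfSeven (Tor E))

include H

theorem no_point_rat_of_four {E : WeierstrassCurve ℚ} [E.IsElliptic] {p : ℕ} (hp : p.Prime)
    (h5 : 5 ≤ p) (P : E.toAffine.Point) : addOrderOf P ≠ 4 * p := by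
  intro hP
  obtain ⟨T, hT⟩ := exists_torsion_order (by have := hp.pos; omega) hP
  have h1 : 4 * p ∣ Nat.card (Tor E) := hT ▸ addOrderOf_dvd_natCard T
  have h2 := (H E (dvd_trans (dvd_mul_right 4 p) h1)).card_dvd
  have h3 : p ∣ 48 := (dvd_mul_left p 4).trans (h1.trans h2)
  have h4 : p ∣ 2 ^ 4 * 3 := by norm_num; exact h3
  rcases (Nat.Prime.dvd_mul hp).mp h4 with h6 | h6
  · have := Nat.le_of_dvd (by norm_num) (hp.dvd_of_dvd_pow h6)
    omega
  · have := Nat.le_of_dvd (by norm_num) h6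
    omega

/-- **Rational points of order four and of prime order `p ≥ 5`** do not occur together. -/
theorem noPoint_of_hasFour {p : ℕ} (hp : p.Prime) (h5 : 5 ≤ p) (E : WeierstrassCurve ℚ)
    [E.IsElliptic] (h : HasFour E) (P : Pts E) (hfix : ∀ σ : Gam, σ • P = P) :
    addOrderOf P ≠ p := by
  intro hP
  obtain ⟨T, hT, hTfix⟩ := h
  obtain ⟨Q, hQ⟩ := exists_rat_point E (P := T + P) (fun σ => by
    rw [Point.algEquiv_smul_def, map_add, ← Point.algEquiv_smul_def, ← Point.algEquiv_smul_def,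
      hTfix, hfix])
  have hcop : Nat.Coprime (addOrderOf T) (addOrderOf P) := by
    rw [hT, hP]
    have : Nat.Coprime 2 p := (Nat.coprime_primes Nat.prime_two hp).mpr (by omega)
    exact Nat.Coprime.pow_left 2 this
  have h1 : addOrderOf (T + P) = 4 * p := by
    rw [(AddCommute.all T P).addOrderOf_add_eq_mul_addOrderOf_of_coprime hcop, hT, hP]
  have h2 : addOrderOf Q = 4 * p := by
    rw [← addOrderOf_baseChange, hQ, h1]
  have h3 : ∀ (C : WeierstrassCurve ℚ), C = E → ∀ Q : C.toAffine.Point,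
      addOrderOf Q ≠ 4 * p := by
    rintro C rfl Q
    exact no_point_rat_of_four H hp h5 Q
  exact h3 (E⁄ℚ) E.map_id Q h2

/-- **Irreducibility for every prime `p ≥ 5`** with a rational point of order four. -/
theorem irreducible_of_hasFour {p : ℕ} (hp : p.Prime) (h5 : 5 ≤ p) {W : WeierstrassCurve ℤ}
    (hΔ : W.Δ ≠ 0) (hW : W.IsSemistableModel) (h : HasFour (W.map (Int.castRingHom ℚ))) :
    W.ModRepIsIrreducible p :=
  Small.modRepIsIrreducible_of_property hp (by omega) HasFour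
    (fun _ _ φ _ hφ hker h => h.of_hom (fun h2 => by
      have := (Nat.prime_dvd_prime_iff_eq Nat.prime_two hp).mp h2
      omega) φ hφ hker)
    (fun E _ h P hfix => noPoint_of_hasFour H hp h5 E h P hfix)
    (K1.quotients hp (by omega)) hΔ hW h

/-- **Irreducibility**: if `4 ∣ #E(ℚ)_tors`, the mod `p` representation of a semistable elliptic curve `E` is
irreducible for every prime `p ≥ 5`. -/
theorem irreducible_of_four_dvd_of {p : ℕ} (hp : p.Prime) (h5 : 5 ≤ p) {W : WeierstrassCurve ℤ}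
    (hΔ : W.Δ ≠ 0) (hW : W.IsSemistableModel)
    (h4 : 4 ∣ Nat.card (AddCommGroup.torsion (W.map (Int.castRingHom ℚ)).toAffine.Point)) :
    W.ModRepIsIrreducible p := by
  have hE : (W.map (Int.castRingHom ℚ)).IsElliptic := ⟨isUnit_iff_ne_zero.mpr (by
    rw [WeierstrassCurve.map_Δ]
    simpa using hΔ)⟩
  rcases hasFour_or_twoFixed _ (H _ h4) with h | h
  · exact irreducible_of_hasFour H hp h5 hΔ hW h
  · exact Small.modRepIsIrreducible_of_two hp h5 hΔ hW h

variable {W : WeierstrassCurve ℤ} (hΔ : W.Δ ≠ 0) {p : ℕ} [hp : Fact p.Prime]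

/-- **Surjectivity** of the mod `p` representation, matrix form. -/
theorem repP_surjective_of_four_dvd_of (h5 : 5 ≤ p) (hW : W.IsSemistableModel)
    (h4 : 4 ∣ Nat.card (AddCommGroup.torsion (W.map (Int.castRingHom ℚ)).toAffine.Point)) :
    Function.Surjective (Classic.repP p hΔ) :=
  repP_surjective hΔ hW (by omega) (irreducible_of_four_dvd_of H hp.out h5 hΔ hW h4)

/-- **Surjectivity of the `p`-adic representation.** -/
theorem tate_surjective_of_four_dvd_of (h5 : 5 ≤ p) (hW : W.IsSemistableModel)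
    (h4 : 4 ∣ Nat.card (AddCommGroup.torsion (W.map (Int.castRingHom ℚ)).toAffine.Point))
    (e : Tate.TMod p ((W.map (Int.castRingHom ℚ))⁄(AlgebraicClosure ℚ)).Point
      ≃ₗ[ℤ_[p]] Tate.TMod p ((W.map (Int.castRingHom ℚ))⁄(AlgebraicClosure ℚ)).Point) :
    ∃ σ : AlgebraicClosure ℚ ≃ₐ[ℚ] AlgebraicClosure ℚ,
      (Tate.tateRep (W.map (Int.castRingHom ℚ)) (Tate.map_Δ_ne_zero hΔ) p).ρ σ = e.toLinearMap :=
  have h : SurjMod W p := fun g => exists_smul_eq_of_repP_surjective hΔ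
    (repP_surjective_of_four_dvd_of H hΔ h5 hW h4) g
  h.tate hΔ h5 e

end

end Fermat.Agent.Cor.MT
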