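import Fermat.Agent.Corollaries.Ferm.Quartic

/-!
# The algebra of a point of order 16 on a curve with one rational point of order 2

`S T (S² + T²) (S² + 2 S T - T²) = z²` with `S, T` coprime, `S T ≠ 0`, only for `S² = T²`
(`X⁴ + Y⁴ = Z²` and `X⁴ + Y⁴ = 2 Z²`).
-/

set_option autoImplicit false

namespace Fermat.Agent.Cor.MT

/-- `S T = ± x²` with `S, T` coprime -/
theorem exists_sq_of_mul {S T x : ℤ} (hc : IsCoprime S T) (h : S * T = x ^ 2 ∨ S * T = -x ^ 2) :
    ∃ X Y : ℤ, S ^ 2 = X ^ 4 ∧ T ^ 2 = Y ^ 4 := by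
  have key : ∀ {A B y : ℤ}, IsCoprime A B → A * B = y ^ 2 → ∃ X : ℤ, A ^ 2 = X ^ 4 := by
    intro A B y h1 h2
    obtain ⟨X, hX | hX⟩ := Int.sq_of_isCoprime h1 h2
    · exact ⟨X, by rw [hX]; ring⟩
    · exact ⟨X, by rw [hX]; ring⟩
  rcases h with h | h
  · obtain ⟨X, hX⟩ := key hc h
    obtain ⟨Y, hY⟩ := key hc.symm (by rw [mul_comm]; exact h)
    exact ⟨X, Y, hX, hY⟩
  · obtain ⟨X, hX⟩ := key (A := S) (B := -T) (y := x) hc.neg_right
      (by linear_combination -h)
    obtain ⟨Y, hY⟩ := key (A := -T) (B := S) (y := x) hc.symm.neg_left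
      (by linear_combination -h)
    exact ⟨X, Y, hX, by rw [← hY]; ring⟩

theorem sq_eq_of_int {S T z : ℤ} (hc : IsCoprime S T) (hS : S ≠ 0) (hT : T ≠ 0)
    (h : S * T * ((S ^ 2 + T ^ 2) * (S ^ 2 + 2 * S * T - T ^ 2)) = z ^ 2) : S ^ 2 = T ^ 2 := by
  have hST2 : IsCoprime S (T ^ 2) := hc.pow_right
  have hTS2 : IsCoprime T (S ^ 2) := hc.symm.pow_right
  have a1 : IsCoprime S (S ^ 2 + T ^ 2) := by
    have e : S ^ 2 + T ^ 2 = T ^ 2 + S * S := by ring
    rw [e]
    exact hST2.add_mul_left_right S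
  have a2 : IsCoprime T (S ^ 2 + T ^ 2) := by
    have e : S ^ 2 + T ^ 2 = S ^ 2 + T * T := by ring
    rw [e]
    exact hTS2.add_mul_left_right T
  have a3 : IsCoprime S (S ^ 2 + 2 * S * T - T ^ 2) := by
    have e : S ^ 2 + 2 * S * T - T ^ 2 = -T ^ 2 + S * (S + 2 * T) := by ring
    rw [e]
    exact hST2.neg_right.add_mul_left_right (S + 2 * T)
  have a4 : IsCoprime T (S ^ 2 + 2 * S * T - T ^ 2) := by
    have e : S ^ 2 + 2 * S * T - T ^ 2 = S ^ 2 + T * (2 * S - T) := by ring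
    rw [e]
    exact hTS2.add_mul_left_right (2 * S - T)
  have hcop : IsCoprime (S * T) ((S ^ 2 + T ^ 2) * (S ^ 2 + 2 * S * T - T ^ 2)) :=
    IsCoprime.mul_left (a1.mul_right a3) (a2.mul_right a4)
  obtain ⟨x, hx⟩ := Int.sq_of_isCoprime hcop h
  obtain ⟨X, Y, hX, hY⟩ := exists_sq_of_mul hc hx
  have hX0 : X ≠ 0 := by
    rintro rfl
    exact hS (pow_eq_zero_iff two_ne_zero |>.1 (by rw [hX]; ring))
  have hY0 : Y ≠ 0 := by
    rintro rfl
    exact hT (pow_eq_zero_iff two_ne_zero |>.1 (by rw [hY]; ring))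
  have hv : IsCoprime (S + T) (S * T) := by
    refine IsCoprime.mul_right ?_ ?_
    · have := hc.symm.add_mul_left_left 1
      rw [mul_one, add_comm] at this
      exact this
    · have := hc.add_mul_left_left 1
      rw [mul_one] at this
      exact this
  rcases Int.even_or_odd (S + T) with he | ho
  · -- both odd
    obtain ⟨v, hv'⟩ := he
    have hS2 : ¬ Even S := by
      intro hS2
      have hT2 : Even T := by
        have : T = v + v - S := by linear_combination hv'
        rw [this]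
        exact (Even.sub ⟨v, rfl⟩ hS2)
      obtain ⟨s, hs⟩ := hS2.two_dvd
      obtain ⟨t, ht⟩ := hT2.two_dvd
      have := hc.isUnit_of_dvd' (x := 2) ⟨s, hs⟩ ⟨t, ht⟩
      exact absurd (Int.isUnit_iff.1 this) (by norm_num)
    have hSo : Odd S := Int.not_even_iff_odd.1 hS2
    have hTo : Odd T := by
      have : T = v + v - S := by linear_combination hv'
      rw [this]
      exact Even.sub_odd ⟨v, rfl⟩ hSo
    obtain ⟨s, hs⟩ := hSo
    obtain ⟨t, ht⟩ := hTo
    set p := 2 * s ^ 2 + 2 * s + 2 * t ^ 2 + 2 * t + 1 with hp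
    have hp2 : S ^ 2 + T ^ 2 = 2 * p := by rw [hs, ht, hp]; ring
    obtain ⟨q, hq2⟩ : ∃ q, S ^ 2 + 2 * S * T - T ^ 2 = 2 * q :=
      ⟨2 * s ^ 2 + 2 * s - 2 * t ^ 2 - 2 * t + S * T, by rw [hs, ht]; ring⟩
    have hz : ∃ w, z = 2 * w := by
      have : (2 : ℤ) ∣ z ^ 2 := ⟨2 * (S * T * (p * q)), by rw [← h, hp2, hq2]; ring⟩
      exact Int.prime_two.dvd_of_dvd_pow this
    obtain ⟨w, rfl⟩ := hz
    have h' : p * (S * T * q) = w ^ 2 := by
      have : 4 * (p * (S * T * q)) = 4 * w ^ 2 := by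
        rw [hp2, hq2] at h
        linear_combination h
      exact mul_left_cancel₀ (by norm_num) this
    have b1 : IsCoprime S p := by
      rw [hp2] at a1
      exact a1.of_mul_right_right
    have b2 : IsCoprime T p := by
      rw [hp2] at a2
      exact a2.of_mul_right_right
    have b3 : IsCoprime p (S + T) := by
      have e1 : S + T = 2 * v := by linear_combination hv'
      rw [e1]
      refine IsCoprime.mul_right ?_ ?_
      · refine ⟨1, -(s ^ 2 + s + t ^ 2 + t), ?_⟩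
        rw [hp]
        ring
      · have e2 : p = v * (2 * v) + -(S * T) := by
          have : 2 * p = 2 * (v * (2 * v) + -(S * T)) := by
            rw [← hp2]
            linear_combination (S + T + 2 * v) * e1
          exact mul_left_cancel₀ two_ne_zero this
        have b4 : IsCoprime v (S * T) := by
          rw [e1] at hv
          exact hv.of_mul_left_right
        rw [e2]
        exact (b4.neg_right.mul_add_left_right (2 * v)).symm
    have b5 : IsCoprime p q := by
      have e3 : p + q = S * (S + T) := by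
        have : 2 * (p + q) = 2 * (S * (S + T)) := by
          linear_combination -hp2 - hq2
        exact mul_left_cancel₀ two_ne_zero this
      have : q = S * (S + T) + p * (-1) := by linear_combination e3
      rw [this]
      exact (IsCoprime.mul_right b1.symm b3).add_mul_left_right (-1)
    obtain ⟨y, hy⟩ := Int.sq_of_isCoprime
      (IsCoprime.mul_right (IsCoprime.mul_right b1.symm b2.symm) b5) h'
    have hppos : 0 < p := by
      have : 0 < S ^ 2 + T ^ 2 := by positivity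
      omega
    have hy' : p = y ^ 2 := by
      rcases hy with hy | hy
      · exact hy
      · nlinarith [sq_nonneg y]
    have hfin : (X : ℚ) ^ 4 + (Y : ℚ) ^ 4 = 2 * (y : ℚ) ^ 2 := by
      have : X ^ 4 + Y ^ 4 = 2 * y ^ 2 := by rw [← hX, ← hY, ← hy', hp2]
      exact_mod_cast this
    have h4 := Ferm.sq_eq_sq_of_four_add_four hfin
    have h5 : X ^ 2 = Y ^ 2 := by exact_mod_cast h4
    rw [hX, hY]
    linear_combination (X ^ 2 + Y ^ 2) * h5
  · -- opposite parity
    exfalso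
    have b3 : IsCoprime (S ^ 2 + T ^ 2) (S + T) := by
      have b6 : IsCoprime (S + T) 2 := by
        obtain ⟨v, hv'⟩ := ho
        exact ⟨1, -v, by rw [hv']; ring⟩
      have b7 : IsCoprime (S + T) (-(2 * (S * T))) := (IsCoprime.mul_right b6 hv).neg_right
      have := b7.mul_add_left_right (S + T)
      have e : (S + T) * (S + T) + -(2 * (S * T)) = S ^ 2 + T ^ 2 := by ring
      rw [e] at this
      exact this.symm
    have b8 : IsCoprime (S ^ 2 + T ^ 2) 2 := by
      obtain ⟨v, hv'⟩ := ho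
      refine ⟨1, -(2 * v ^ 2 + 2 * v - S * T), ?_⟩
      have : S ^ 2 + T ^ 2 = (S + T) ^ 2 - 2 * (S * T) := by ring
      rw [this, hv']
      ring
    have b9 : IsCoprime (S ^ 2 + T ^ 2) (S ^ 2 + 2 * S * T - T ^ 2) := by
      have e : S ^ 2 + 2 * S * T - T ^ 2 = 2 * (S * (S + T)) + (S ^ 2 + T ^ 2) * (-1) := by ring
      rw [e]
      exact (IsCoprime.mul_right b8 (IsCoprime.mul_right a1.symm b3)).add_mul_left_right (-1)
    have h' : (S ^ 2 + T ^ 2) * (S * T * (S ^ 2 + 2 * S * T - T ^ 2)) = z ^ 2 := by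
      linear_combination h
    obtain ⟨y, hy⟩ := Int.sq_of_isCoprime
      (IsCoprime.mul_right (IsCoprime.mul_right a1.symm a2.symm) b9) h'
    have hpos : 0 < S ^ 2 + T ^ 2 := by positivity
    rcases hy with hy | hy
    · exact not_fermat_42 hX0 hY0 (c := y) (by rw [← hX, ← hY, hy])
    · nlinarith [sq_nonneg y]

theorem no_sixteen_algebra {m u₁ u₂ w : ℚ} (hm : m ≠ 0) (hu₁ : u₁ ≠ 0)
    (hp : m ^ 2 + u₁ ^ 2 = u₂ ^ 2) (h : m * u₂ * ((u₁ + u₂) * (m + u₁)) = w ^ 2) : False := by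
  have h12 : u₁ + u₂ ≠ 0 := by
    intro h0
    have : m ^ 2 = 0 := by linear_combination hp + (u₂ - u₁) * h0
    exact hm (pow_eq_zero_iff two_ne_zero |>.1 this)
  set s := (u₁ + u₂) / m with hs
  have hs0 : s ≠ 0 := div_ne_zero h12 hm
  have e1 : u₁ + u₂ = s * m := by rw [hs]; field_simp
  clear_value s
  have e2 : s * (u₂ - u₁) = m := by
    refine mul_left_cancel₀ hm ?_
    linear_combination -hp - (u₂ - u₁) * e1
  have e3 : 2 * s * u₂ = m * (s ^ 2 + 1) := by linear_combination s * e1 + e2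
  have e4 : 2 * s * u₁ = m * (s ^ 2 - 1) := by linear_combination s * e1 - e2
  have hs1 : s ^ 2 ≠ 1 := by
    intro h0
    rw [h0] at e4
    have : s * u₁ = 0 := by linear_combination e4 / 2
    exact mul_ne_zero hs0 hu₁ this
  have hSq : s * (s ^ 2 + 1) * (s ^ 2 + 2 * s - 1) = (2 * s * w / m ^ 2) ^ 2 := by
    rw [div_pow, eq_div_iff (pow_ne_zero 2 (pow_ne_zero 2 hm)), mul_pow, ← h]
    have e5 : 2 * s * (m + u₁) = m * (s ^ 2 + 2 * s - 1) := by linear_combination e4
    have : (2 * s) ^ 2 * (m * u₂ * ((u₁ + u₂) * (m + u₁))) =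
        m * (2 * s * u₂) * ((u₁ + u₂) * (2 * s * (m + u₁))) := by ring
    rw [this, e3, e5, e1]
    ring
  -- clear denominators
  set S := s.num with hS
  set T := (s.den : ℤ) with hT
  have hT0 : T ≠ 0 := by rw [hT]; exact_mod_cast s.den_nz
  have hT0' : (T : ℚ) ≠ 0 := by exact_mod_cast hT0
  have hS0 : S ≠ 0 := Rat.num_ne_zero.2 hs0
  have hsST : s * T = S := by
    rw [hT, hS]
    exact_mod_cast Rat.mul_den_eq_num s
  have hc : IsCoprime S T := by
    rw [Int.isCoprime_iff_gcd_eq_one]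
    have := s.reduced
    rw [hS, hT, Int.gcd, Int.natAbs_natCast]
    exact this
  have h6 : ((S * T * ((S ^ 2 + T ^ 2) * (S ^ 2 + 2 * S * T - T ^ 2)) : ℤ) : ℚ) =
      (T ^ 3 * (2 * s * w / m ^ 2)) ^ 2 := by
    push_cast
    rw [mul_pow, ← hSq, ← hsST]
    ring
  have h7 : IsSquare (S * T * ((S ^ 2 + T ^ 2) * (S ^ 2 + 2 * S * T - T ^ 2))) := by
    rw [← Rat.isSquare_intCast_iff, h6]
    exact IsSquare.sq _
  obtain ⟨z, hz⟩ := h7
  have h8 := sq_eq_of_int hc hS0 hT0 (z := z) (by rw [hz]; ring)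
  apply hs1
  have h9 : (S : ℚ) ^ 2 = (T : ℚ) ^ 2 := by exact_mod_cast h8
  rw [← hsST, mul_pow] at h9
  exact mul_right_cancel₀ (pow_ne_zero 2 hT0') (by rw [h9, one_mul])

end Fermat.Agent.Cor.MT
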