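import Mathlib

/-!
# The isogeny of degree two

`A : y² = x (x² + a x + b)`, `B : y² = x (x² - 2 a x + a² - 4 b)`, over a field in which `2 ≠ 0`,
`b (a² - 4 b) ≠ 0`. The map `φ (x, y) = (y² / x², y (b - x²) / x²)` is a homomorphism `A → B` with
kernel `{0, (0, 0)}` (`exists_twoIsog`).

The proof: three affine points on the line `y = l x + n` with the correct symmetric functions of the
abscissas have sum `0` (`add_eq_neg_of_line`, one statement for all cases), the line through three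
points with sum `0` goes to the line `y = (b / n - l) x + (a l - n - b l² / n)` if `n ≠ 0`, and the
lines through `(0, 0)` are treated directly.
-/

set_option autoImplicit false

namespace Fermat.Agent.Cor.MT

open WeierstrassCurve WeierstrassCurve.Affine

variable {K : Type*} [Field K]

/-- The curve `y² = x (x² + a x + b)`. -/
abbrev Cv (a b : K) : WeierstrassCurve K := ⟨0, a, 0, b, 0⟩

variable {a b : K}

theorem equation_Cv {x y : K} : (Cv a b).toAffine.Equation x y ↔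
    y ^ 2 = x ^ 3 + a * x ^ 2 + b * x := by
  rw [Affine.equation_iff]
  constructor <;> intro h <;> linear_combination h

theorem negY_Cv (x y : K) : (Cv a b).toAffine.negY x y = -y := by
  simp [Affine.negY]

theorem Δ_Cv : (Cv a b).Δ = 16 * b ^ 2 * (a ^ 2 - 4 * b) := by
  simp only [WeierstrassCurve.Δ, WeierstrassCurve.b₂, WeierstrassCurve.b₄, WeierstrassCurve.b₆,
    WeierstrassCurve.b₈]
  ring

variable [DecidableEq K]

/-- **Three points on a line**: if `x₁, x₂, x₃` are the three zeros (with multiplicities) of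
`x³ + a x² + b x - (l x + n)²`, the points `(xᵢ, l xᵢ + n)` have sum `0`. -/
theorem add_eq_neg_of_line (h2 : (2 : K) ≠ 0) {x₁ x₂ x₃ y₁ y₂ y₃ : K}
    {h₁ : (Cv a b).toAffine.Nonsingular x₁ y₁} {h₂ : (Cv a b).toAffine.Nonsingular x₂ y₂}
    {h₃ : (Cv a b).toAffine.Nonsingular x₃ y₃} (l n : K) (hy₁ : y₁ = l * x₁ + n)
    (hy₂ : y₂ = l * x₂ + n) (hy₃ : y₃ = l * x₃ + n) (e1 : x₁ + x₂ + x₃ = l ^ 2 - a)
    (e2 : x₁ * x₂ + x₁ * x₃ + x₂ * x₃ = b - 2 * l * n) :
    Point.some x₁ y₁ h₁ + Point.some x₂ y₂ h₂ = -Point.some x₃ y₃ h₃ := by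
  have hder : x₁ = x₂ → 3 * x₁ ^ 2 + 2 * a * x₁ + b = 2 * l * y₁ := by
    rintro rfl
    linear_combination 2 * x₁ * e1 - e2 - 2 * l * hy₁
  have hne : ¬(x₁ = x₂ ∧ y₁ = (Cv a b).toAffine.negY x₂ y₂) := by
    rintro ⟨hx, hy⟩
    rw [negY_Cv] at hy
    have h0 : y₁ = 0 := by
      have h3 : 2 * y₁ = 0 := by
        have h4 : y₂ = y₁ := by rw [hy₁, hy₂, hx]
        rw [h4] at hy
        linear_combination hy
      exact (mul_eq_zero.mp h3).resolve_left h2
    have h4 := ((Affine.nonsingular_iff _ _).mp h₁).2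
    have h5 := hder hx
    rw [h0] at h4 h5
    rcases h4 with h4 | h4
    · apply h4
      linear_combination -h5
    · apply h4
      simp
  have hsl : (Cv a b).toAffine.slope x₁ x₂ y₁ y₂ = l := by
    by_cases hx : x₁ = x₂
    · have hy : y₁ ≠ (Cv a b).toAffine.negY x₂ y₂ := fun h => hne ⟨hx, h⟩
      have hy0 : y₁ ≠ 0 := by
        intro h0
        apply hy
        rw [negY_Cv, hy₂, ← hx, ← hy₁, h0, neg_zero]
      rw [Affine.slope_of_Y_ne hx hy, negY_Cv]
      have h3 : y₁ - -y₁ ≠ 0 := by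
        rw [sub_neg_eq_add, ← two_mul]
        exact mul_ne_zero h2 hy0
      rw [div_eq_iff h3]
      linear_combination hder hx
    · rw [Affine.slope_of_X_ne hx, div_eq_iff (sub_ne_zero.mpr hx), hy₁, hy₂]
      ring
  have hX : (Cv a b).toAffine.addX x₁ x₂ l = x₃ := by
    rw [Affine.addX]
    linear_combination -e1
  rw [Point.add_some hne, Point.neg_some, Point.some.injEq, hsl]
  refine ⟨hX, ?_⟩
  rw [Affine.addY, Affine.negAddY, hX, negY_Cv, negY_Cv, hy₃, hy₁]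
  ring

/-- The line through two points. -/
theorem exists_line {x₁ x₂ y₁ y₂ : K} (h₁ : (Cv a b).toAffine.Nonsingular x₁ y₁)
    (h₂ : (Cv a b).toAffine.Nonsingular x₂ y₂)
    (hne : ¬(x₁ = x₂ ∧ y₁ = (Cv a b).toAffine.negY x₂ y₂)) :
    ∃ (x₃ y₃ l n : K) (h₃ : (Cv a b).toAffine.Nonsingular x₃ (-y₃)),
      Point.some x₁ y₁ h₁ + Point.some x₂ y₂ h₂ = Point.some x₃ (-y₃) h₃ ∧
      y₁ = l * x₁ + n ∧ y₂ = l * x₂ + n ∧ y₃ = l * x₃ + n ∧ x₁ + x₂ + x₃ = l ^ 2 - a ∧
      x₁ * x₂ + x₁ * x₃ + x₂ * x₃ = b - 2 * l * n ∧ x₁ * x₂ * x₃ = n ^ 2 := by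
  set l := (Cv a b).toAffine.slope x₁ x₂ y₁ y₂ with hl
  have hpol := Affine.addPolynomial_slope h₁.1 h₂.1 hne
  rw [Affine.addPolynomial_eq, neg_inj, Cubic.prod_X_sub_C_eq, Cubic.toPoly_injective,
    Cubic.mk.injEq] at hpol
  obtain ⟨-, c1, c2, c3⟩ := hpol
  rw [← hl] at c1 c2 c3
  set x₃ := (Cv a b).toAffine.addX x₁ x₂ l with hx₃
  have hy₂ : y₂ = l * x₂ + (y₁ - l * x₁) := by
    by_cases hx : x₁ = x₂
    · have hy : y₁ ≠ (Cv a b).toAffine.negY x₂ y₂ := fun h => hne ⟨hx, h⟩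
      have h3 := Affine.Y_eq_of_Y_ne h₁.1 h₂.1 hx hy
      rw [hx, h3]
      ring
    · have h3 : (x₁ - x₂) * l = y₁ - y₂ := by
        rw [hl, Affine.slope_of_X_ne hx]
        field_simp [sub_ne_zero.mpr hx]
      linear_combination h3
  have hns := Affine.nonsingular_add h₁ h₂ hne
  rw [← hl] at hns
  have hY : (Cv a b).toAffine.addY x₁ x₂ y₁ l = -(l * x₃ + (y₁ - l * x₁)) := by
    rw [Affine.addY, Affine.negAddY, negY_Cv, ← hx₃]
    ring
  rw [← hx₃, hY] at hns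
  refine ⟨x₃, l * x₃ + (y₁ - l * x₁), l, y₁ - l * x₁, hns, ?_, by ring, hy₂, rfl, ?_, ?_, ?_⟩
  · rw [Point.add_some hne, Point.some.injEq]
    exact ⟨rfl, hY⟩
  · linear_combination c1
  · linear_combination -c2
  · linear_combination c3

section Map

variable (h2 : (2 : K) ≠ 0) (hb : b ≠ 0) (hd : a ^ 2 - 4 * b ≠ 0)

omit [DecidableEq K] in
include h2 hb hd in
theorem nonsingular_image {x y : K} (h : (Cv a b).toAffine.Nonsingular x y) (hx : x ≠ 0) :
    (Cv (-2 * a) (a ^ 2 - 4 * b)).toAffine.Nonsingular (y ^ 2 / x ^ 2)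
      (y * (b - x ^ 2) / x ^ 2) := by
  have hΔ : (Cv (-2 * a) (a ^ 2 - 4 * b)).Δ ≠ 0 := by
    rw [Δ_Cv]
    have h3 : (16 : K) * (a ^ 2 - 4 * b) ^ 2 * ((-2 * a) ^ 2 - 4 * (a ^ 2 - 4 * b)) =
        2 ^ 8 * (a ^ 2 - 4 * b) ^ 2 * b := by ring
    rw [h3]
    exact mul_ne_zero (mul_ne_zero (pow_ne_zero _ h2) (pow_ne_zero _ hd)) hb
  rw [← Affine.equation_iff_nonsingular_of_Δ_ne_zero hΔ, equation_Cv]
  have h3 := equation_Cv.mp h.1
  have h4 : y ^ 2 = x * (x ^ 2 + a * x + b) := by rw [h3]; ring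
  have h5 : (y * (b - x ^ 2) / x ^ 2) ^ 2 = y ^ 2 * (b - x ^ 2) ^ 2 / x ^ 4 := by
    field_simp
  rw [h5, h4]
  field_simp
  ring

/-- The isogeny as a map. -/
noncomputable def isogFun : (Cv a b).toAffine.Point →
    (Cv (-2 * a) (a ^ 2 - 4 * b)).toAffine.Point
  | .zero => .zero
  | .some x _ h => if hx : x = 0 then .zero else .some _ _ (nonsingular_image h2 hb hd h hx)

theorem isogFun_some {x y : K} (h : (Cv a b).toAffine.Nonsingular x y) (hx : x ≠ 0) {X Y : K}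
    (hX : X = y ^ 2 / x ^ 2) (hY : Y = y * (b - x ^ 2) / x ^ 2)
    (h' : (Cv (-2 * a) (a ^ 2 - 4 * b)).toAffine.Nonsingular X Y) :
    isogFun h2 hb hd (.some x y h) = .some X Y h' := by
  subst hX hY
  simp [isogFun, hx]

theorem isogFun_some_zero {x y : K} (h : (Cv a b).toAffine.Nonsingular x y) (hx : x = 0) :
    isogFun h2 hb hd (.some x y h) = 0 := by
  simp only [isogFun, hx, dite_true]
  rfl

theorem isogFun_zero : isogFun h2 hb hd (0 : (Cv a b).toAffine.Point) = 0 := rfl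

theorem isogFun_add (P Q : (Cv a b).toAffine.Point) :
    isogFun h2 hb hd (P + Q) = isogFun h2 hb hd P + isogFun h2 hb hd Q := by
  rcases P with _ | ⟨x₁, y₁, h₁⟩
  · show isogFun h2 hb hd (0 + Q) = 0 + isogFun h2 hb hd Q
    rw [zero_add, zero_add]
  rcases Q with _ | ⟨x₂, y₂, h₂⟩
  · show isogFun h2 hb hd (_ + 0) = isogFun h2 hb hd _ + 0
    rw [add_zero, add_zero]
  by_cases hne : x₁ = x₂ ∧ y₁ = (Cv a b).toAffine.negY x₂ y₂
  · rw [Point.add_of_Y_eq hne.1 hne.2, isogFun_zero]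
    obtain ⟨hx, hy⟩ := hne
    rw [negY_Cv] at hy
    by_cases hx0 : x₁ = 0
    · rw [isogFun_some_zero h2 hb hd h₁ hx0, isogFun_some_zero h2 hb hd h₂ (hx ▸ hx0), add_zero]
    · have hx0' : x₂ ≠ 0 := hx ▸ hx0
      rw [isogFun_some h2 hb hd h₁ hx0 rfl rfl (nonsingular_image h2 hb hd h₁ hx0),
        isogFun_some h2 hb hd h₂ hx0' rfl rfl (nonsingular_image h2 hb hd h₂ hx0')]
      rw [Point.add_of_Y_eq]
      · rw [hx, hy]; ring
      · rw [negY_Cv, hx, hy]; ring
  obtain ⟨x₃, y₃, l, n, h₃, hadd, hy₁, hy₂, hy₃, e1, e2, e3⟩ := exists_line h₁ h₂ hne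
  rw [hadd]
  have q₁ := equation_Cv.mp h₁.1
  have q₂ := equation_Cv.mp h₂.1
  have q₃ := equation_Cv.mp h₃.1
  by_cases hn : n = 0
  · -- the line goes through `(0, 0)`
    rw [hn, add_zero] at hy₁ hy₂ hy₃
    rw [hn, mul_zero, sub_zero] at e2
    rw [hn, zero_pow two_ne_zero] at e3
    by_cases hx1 : x₁ = 0
    · rw [hx1, zero_mul, zero_mul, zero_add, zero_add] at e2
      have hx2 : x₂ ≠ 0 := by
        rintro h0
        rw [h0, zero_mul] at e2
        exact hb e2.symm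
      have hx3 : x₃ ≠ 0 := by
        rintro h0
        rw [h0, mul_zero] at e2
        exact hb e2.symm
      rw [isogFun_some_zero h2 hb hd h₁ hx1, zero_add,
        isogFun_some h2 hb hd h₃ hx3 rfl rfl (nonsingular_image h2 hb hd h₃ hx3),
        isogFun_some h2 hb hd h₂ hx2 rfl rfl (nonsingular_image h2 hb hd h₂ hx2),
        Point.some.injEq]
      constructor
      · rw [hy₃, hy₂]
        field_simp
      · rw [hy₃, hy₂, ← e2]
        field_simp
        ring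
    by_cases hx2 : x₂ = 0
    · rw [hx2, mul_zero, zero_mul, add_zero, zero_add] at e2
      have hx3 : x₃ ≠ 0 := by
        rintro h0
        rw [h0, mul_zero] at e2
        exact hb e2.symm
      rw [isogFun_some_zero h2 hb hd h₂ hx2, add_zero,
        isogFun_some h2 hb hd h₃ hx3 rfl rfl (nonsingular_image h2 hb hd h₃ hx3),
        isogFun_some h2 hb hd h₁ hx1 rfl rfl (nonsingular_image h2 hb hd h₁ hx1),
        Point.some.injEq]
      constructor
      · rw [hy₃, hy₁]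
        field_simp
      · rw [hy₃, hy₁, ← e2]
        field_simp
        ring
    · have hx3 : x₃ = 0 := (mul_eq_zero.mp e3).resolve_left (mul_ne_zero hx1 hx2)
      rw [hx3, mul_zero, mul_zero, add_zero, add_zero] at e2
      rw [isogFun_some_zero h2 hb hd h₃ hx3,
        isogFun_some h2 hb hd h₂ hx2 rfl rfl (nonsingular_image h2 hb hd h₂ hx2),
        isogFun_some h2 hb hd h₁ hx1 rfl rfl (nonsingular_image h2 hb hd h₁ hx1),
        Point.add_of_Y_eq]
      · rw [hy₁, hy₂]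
        field_simp
      · rw [negY_Cv, hy₁, hy₂, ← e2]
        field_simp
        ring
  · -- the general case
    have hn2 : n ^ 2 ≠ 0 := pow_ne_zero 2 hn
    have hx1 : x₁ ≠ 0 := by
      rintro h0
      rw [h0, zero_mul, zero_mul] at e3
      exact hn2 e3.symm
    have hx2 : x₂ ≠ 0 := by
      rintro h0
      rw [h0, mul_zero, zero_mul] at e3
      exact hn2 e3.symm
    have hx3 : x₃ ≠ 0 := by
      rintro h0
      rw [h0, mul_zero] at e3
      exact hn2 e3.symm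
    -- `wᵢ = n / xᵢ`
    obtain ⟨w₁, hw₁⟩ : ∃ w, w * x₁ = n := ⟨n / x₁, by field_simp⟩
    obtain ⟨w₂, hw₂⟩ : ∃ w, w * x₂ = n := ⟨n / x₂, by field_simp⟩
    obtain ⟨w₃, hw₃⟩ : ∃ w, w * x₃ = n := ⟨n / x₃, by field_simp⟩
    have key : ∀ {x y w : K}, x ≠ 0 → w * x = n → y = l * x + n → y ^ 2 = x ^ 3 + a * x ^ 2 + b * x →
        y ^ 2 / x ^ 2 = (l + w) ^ 2 ∧
        y * (b - x ^ 2) / x ^ 2 = (b / n - l) * (l + w) ^ 2 + (a * l - n - b * l ^ 2 / n) := by
      intro x y w hx hw hy hq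
      have hy' : y = (l + w) * x := by rw [hy, ← hw]; ring
      have e : y ^ 2 / x ^ 2 = (l + w) ^ 2 := by
        rw [hy']
        field_simp
      refine ⟨e, ?_⟩
      rw [← e]
      field_simp
      rw [hy] at hq ⊢
      linear_combination (l * n) * hq
    have hs3 : w₁ * w₂ * w₃ = n := by
      have h4 : (w₁ * w₂ * w₃) * (x₁ * x₂ * x₃) = n ^ 3 := by
        rw [← hw₁] at hw₂ hw₃ ⊢
        linear_combination (w₁ * x₁) * (w₃ * x₃) * hw₂ + (w₁ * x₁) * (w₁ * x₁) * hw₃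
      rw [e3] at h4
      have h5 : n ^ 2 * (w₁ * w₂ * w₃ - n) = 0 := by linear_combination h4
      exact sub_eq_zero.mp ((mul_eq_zero.mp h5).resolve_left hn2)
    have hs2 : w₁ * w₂ + w₁ * w₃ + w₂ * w₃ = l ^ 2 - a := by
      have h5 : n ^ 2 * (w₁ * w₂ + w₁ * w₃ + w₂ * w₃ - (l ^ 2 - a)) = 0 := by
        rw [← e1, mul_sub]
        have h6 : n ^ 2 * (w₁ * w₂) = n ^ 2 * x₃ := by
          rw [← e3]
          linear_combination (x₃ * w₂ * x₂) * hw₁ + (x₃ * n) * hw₂ - x₃ * e3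
        have h7 : n ^ 2 * (w₁ * w₃) = n ^ 2 * x₂ := by
          rw [← e3]
          linear_combination (x₂ * w₃ * x₃) * hw₁ + (x₂ * n) * hw₃ - x₂ * e3
        have h8 : n ^ 2 * (w₂ * w₃) = n ^ 2 * x₁ := by
          rw [← e3]
          linear_combination (x₁ * w₃ * x₃) * hw₂ + (x₁ * n) * hw₃ - x₁ * e3
        linear_combination h6 + h7 + h8
      exact sub_eq_zero.mp ((mul_eq_zero.mp h5).resolve_left hn2)
    have hs1 : w₁ + w₂ + w₃ = b / n - 2 * l := by
      have h5 : n ^ 2 * (w₁ + w₂ + w₃ - (b / n - 2 * l)) = 0 := by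
        have h9 : n ^ 2 * (b / n - 2 * l) = n * (b - 2 * l * n) := by
          field_simp
        rw [mul_sub, h9, ← e2]
        have h6 : n ^ 2 * w₁ = n * (x₂ * x₃) := by
          rw [← e3]
          linear_combination (x₂ * x₃) * hw₁
        have h7 : n ^ 2 * w₂ = n * (x₁ * x₃) := by
          rw [← e3]
          linear_combination (x₁ * x₃) * hw₂
        have h8 : n ^ 2 * w₃ = n * (x₁ * x₂) := by
          rw [← e3]
          linear_combination (x₁ * x₂) * hw₃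
        linear_combination h6 + h7 + h8
      exact sub_eq_zero.mp ((mul_eq_zero.mp h5).resolve_left hn2)
    obtain ⟨kX1, kY1⟩ := key hx1 hw₁ hy₁ q₁
    obtain ⟨kX2, kY2⟩ := key hx2 hw₂ hy₂ q₂
    obtain ⟨kX3, kY3⟩ := key hx3 hw₃ hy₃ (by rw [← q₃]; ring)
    have hns1 := nonsingular_image h2 hb hd h₁ hx1
    have hns2 := nonsingular_image h2 hb hd h₂ hx2
    have hns3 := nonsingular_image h2 hb hd h₃ hx3
    have hneg : -y₃ * (b - x₃ ^ 2) / x₃ ^ 2 = -(y₃ * (b - x₃ ^ 2) / x₃ ^ 2) := by ring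
    rw [neg_sq, hneg] at hns3
    have hns3' : (Cv (-2 * a) (a ^ 2 - 4 * b)).toAffine.Nonsingular (y₃ ^ 2 / x₃ ^ 2)
        (y₃ * (b - x₃ ^ 2) / x₃ ^ 2) := by
      refine (Affine.nonsingular_neg _ _).mp ?_
      rw [negY_Cv]
      exact hns3
    rw [isogFun_some h2 hb hd h₁ hx1 rfl rfl hns1, isogFun_some h2 hb hd h₂ hx2 rfl rfl hns2,
      isogFun_some h2 hb hd h₃ hx3 (by rw [neg_sq]) hneg.symm hns3]
    rw [add_eq_neg_of_line h2 (h₁ := hns1) (h₂ := hns2) (h₃ := hns3') (b / n - l)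
      (a * l - n - b * l ^ 2 / n) (by rw [kY1, kX1]) (by rw [kY2, kX2]) (by rw [kY3, kX3]) ?_ ?_]
    · rw [Point.neg_some, Point.some.injEq]
      exact ⟨rfl, by rw [negY_Cv]⟩
    · rw [kX1, kX2, kX3]
      linear_combination (w₁ + w₂ + w₃ + (b / n - 2 * l) + 2 * l) * hs1 - 2 * hs2
    · rw [kX1, kX2, kX3]
      have hP1 : (l + w₁) + (l + w₂) + (l + w₃) = l + b / n := by linear_combination hs1
      have hP2 : (l + w₁) * (l + w₂) + (l + w₁) * (l + w₃) + (l + w₂) * (l + w₃) =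
          2 * l * (b / n) - a := by linear_combination 2 * l * hs1 + hs2
      have hP3 : (l + w₁) * (l + w₂) * (l + w₃) = l ^ 2 * (b / n) - a * l + n := by
        linear_combination l ^ 2 * hs1 + l * hs2 + hs3
      have hbn : b / n * n = b := by field_simp
      have h6 : (l + w₁) ^ 2 * (l + w₂) ^ 2 + (l + w₁) ^ 2 * (l + w₃) ^ 2 +
          (l + w₂) ^ 2 * (l + w₃) ^ 2 = (2 * l * (b / n) - a) ^ 2 -
            2 * (l + b / n) * (l ^ 2 * (b / n) - a * l + n) := by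
        rw [← hP1, ← hP2, ← hP3]
        ring
      rw [h6]
      linear_combination (-4 : K) * hbn

end Map

/-- **The isogeny of degree two**: `φ (x, y) = (y² / x², y (b - x²) / x²)` is a homomorphism from
`y² = x (x² + a x + b)` to `y² = x (x² - 2 a x + a² - 4 b)` with kernel `{0, (0, 0)}`. -/
theorem exists_twoIsog (h2 : (2 : K) ≠ 0) (a b : K) (hb : b ≠ 0) (hd : a ^ 2 - 4 * b ≠ 0) :
    ∃ φ : (⟨0, a, 0, b, 0⟩ : WeierstrassCurve K).toAffine.Point →+
      (⟨0, -2 * a, 0, a ^ 2 - 4 * b, 0⟩ : WeierstrassCurve K).toAffine.Point,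
      (∀ P, φ P = 0 ↔ P = 0 ∨ ∃ h, P = .some 0 0 h) ∧
      ∀ x y h, x ≠ 0 → ∃ h', φ (.some x y h) = .some (y ^ 2 / x ^ 2) (y * (b - x ^ 2) / x ^ 2) h' := by
  refine ⟨⟨⟨isogFun h2 hb hd, rfl⟩, isogFun_add h2 hb hd⟩, ?_, ?_⟩
  · intro P
    constructor
    · intro h
      rcases P with _ | ⟨x, y, hxy⟩
      · exact Or.inl rfl
      · right
        by_cases hx : x = 0
        · have h3 := equation_Cv.mp hxy.1
          rw [hx] at h3
          have hy : y = 0 := by
            have h4 : y ^ 2 = 0 := by rw [h3]; ring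
            exact pow_eq_zero_iff two_ne_zero |>.mp h4
          subst hx hy
          exact ⟨hxy, rfl⟩
        · exfalso
          have h4 : isogFun h2 hb hd (.some x y hxy) = 0 := h
          rw [isogFun_some h2 hb hd hxy hx rfl rfl (nonsingular_image h2 hb hd hxy hx)] at h4
          exact Point.some_ne_zero _ h4
    · rintro (rfl | ⟨h, rfl⟩)
      · rfl
      · exact isogFun_some_zero h2 hb hd h rfl
  · intro x y h hx
    exact ⟨nonsingular_image h2 hb hd h hx, isogFun_some h2 hb hd h hx rfl rfl _⟩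

end Fermat.Agent.Cor.MT
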