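import Fermat.Agent.Corollaries.MT.Nine
import Fermat.Agent.Corollaries.MT.Alg16
import Fermat.Agent.Corollaries.MT.TwoIsog
import Fermat.Agent.S41.VarChange
import Fermat.Agent.Corollaries.K4.Small.Rat

/-!
# Elliptic curves over `ℚ` with a rational point of order four

Let `P` be a rational point of order four, `T = 2 P`.  The isogeny with kernel `{0, T}` maps
`E(ℚ)` to the rational points of a curve with complete rational 2-torsion, and the abscissas of
the image differ from one of the roots by a square.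

* `exists_isog`;
* `addOrderOf_ne_nine_of_four`, `addOrderOf_ne_of_four` (primes `≥ 5`),
  `addOrderOf_ne_sixteen_any`, `addOrderOf_ne_twentyfour_any`.
-/

set_option autoImplicit false

open WeierstrassCurve WeierstrassCurve.Affine
open Fermat.Agent.Cor.MordellWeil

namespace Fermat.Agent.Cor.MT

section general

variable {F : Type*} [Field F] [DecidableEq F]

/-- the normal form `y² = x (x² + a x + b)` at a point of order two -/
theorem exists_Cv (h2 : (2 : F) ≠ 0) {W : WeierstrassCurve F} (hΔ : W.Δ ≠ 0)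
    {T : W.toAffine.Point} (hT0 : T ≠ 0) (hT : T + T = 0) :
    ∃ a b : F, b ≠ 0 ∧ a ^ 2 - 4 * b ≠ 0 ∧ ∃ e : (Cv a b).toAffine.Point ≃+ W.toAffine.Point,
      ∀ h, e (.some 0 0 h) = T := by
  obtain ⟨x, η, hc⟩ := exists_co hT0
  have hη : η = 0 := (hc.add_self_eq_zero_iff h2).1 hT
  subst hη
  obtain ⟨y, h, rfl, hy⟩ := hc
  have hy2 : 2 * y + W.a₁ * x + W.a₃ = 0 := by
    rw [← two_eta h2, hy, mul_zero]
  have heq : y ^ 2 + W.a₁ * x * y + W.a₃ * y = x ^ 3 + W.a₂ * x ^ 2 + W.a₄ * x + W.a₆ :=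
    (equation_iff ..).1 h.1
  set C : VariableChange F := ⟨1, x, -(W.a₁ / 2), y⟩ with hC
  have hV : C • W = Cv (C • W).a₂ (C • W).a₄ := by
    ext
    · rw [variableChange_a₁]
      change ((1 : Fˣ)⁻¹ : Fˣ) * (W.a₁ + 2 * -(W.a₁ / 2)) = 0
      field_simp
      ring
    · rfl
    · rw [variableChange_a₃]
      change (((1 : Fˣ)⁻¹ : Fˣ) : F) ^ 3 * (W.a₃ + x * W.a₁ + 2 * y) = 0
      have : W.a₃ + x * W.a₁ + 2 * y = 0 := by linear_combination hy2
      rw [this, mul_zero]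
    · rfl
    · rw [variableChange_a₆]
      change (((1 : Fˣ)⁻¹ : Fˣ) : F) ^ 6 *
        (W.a₆ + x * W.a₄ + x ^ 2 * W.a₂ + x ^ 3 - y * W.a₃ - y ^ 2 - x * y * W.a₁) = 0
      have : W.a₆ + x * W.a₄ + x ^ 2 * W.a₂ + x ^ 3 - y * W.a₃ - y ^ 2 - x * y * W.a₁ = 0 := by
        linear_combination -heq
      rw [this, mul_zero]
  have hΔ' : (Cv (C • W).a₂ (C • W).a₄).Δ ≠ 0 := by
    rw [← hV, variableChange_Δ]
    exact mul_ne_zero (pow_ne_zero _ (Units.ne_zero _)) hΔ
  obtain ⟨e, he⟩ := Fermat.Agent.S41vc.exists_equiv W C hΔ hV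
  rw [Δ_Cv] at hΔ'
  refine ⟨_, _, ?_, right_ne_zero_of_mul hΔ', e, fun h0 => ?_⟩
  · intro h0
    apply hΔ'
    rw [h0]
    ring
  · obtain ⟨h', h1⟩ := he 0 0 h0
    rw [h1]
    simp only [Point.some.injEq]
    constructor
    · change ((1 : Fˣ) : F) ^ 2 * 0 + x = x
      ring
    · change ((1 : Fˣ) : F) ^ 3 * 0 + ((1 : Fˣ) : F) ^ 2 * -(W.a₁ / 2) * 0 + y = y
      ring

theorem Cv_quarter (h2 : (2 : F) ≠ 0) {a b : F} {x y : F}
    (h : (Cv a b).toAffine.Nonsingular x y) (h0 : (Cv a b).toAffine.Nonsingular 0 0)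
    (hP : Point.some x y h + Point.some x y h = Point.some 0 0 h0) :
    x ^ 2 = b ∧ y ^ 2 = x ^ 2 * (a + 2 * x) := by
  have heq : y ^ 2 = x ^ 3 + a * x ^ 2 + b * x := equation_Cv.1 h.1
  have hne : y ≠ (Cv a b).toAffine.negY x y := by
    intro h1
    rw [Point.add_self_of_Y_eq h1] at hP
    exact Point.some_ne_zero h0 hP.symm
  rw [Point.add_self_of_Y_ne hne] at hP
  simp only [Point.some.injEq] at hP
  have hX := hP.1
  have hy : y ≠ 0 := by
    rintro rfl
    exact hne (by rw [negY_Cv, neg_zero])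
  rw [slope_of_Y_ne rfl hne] at hX
  have e1 : y - (Cv a b).toAffine.negY x y = 2 * y := by rw [negY_Cv]; ring
  rw [e1] at hX
  change ((3 * x ^ 2 + 2 * a * x + b - 0 * y) / (2 * y)) ^ 2 +
    0 * ((3 * x ^ 2 + 2 * a * x + b - 0 * y) / (2 * y)) - a - x - x = 0 at hX
  have h4 : (3 * x ^ 2 + 2 * a * x + b) ^ 2 = (2 * y) ^ 2 * (a + 2 * x) := by
    have h2y : (2 * y) ^ 2 ≠ 0 := pow_ne_zero 2 (mul_ne_zero h2 hy)
    have : ((3 * x ^ 2 + 2 * a * x + b) / (2 * y)) ^ 2 = a + 2 * x := by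
      linear_combination hX
    rw [div_pow, div_eq_iff h2y] at this
    rw [this]
    ring
  have h5 : (x ^ 2 - b) ^ 2 = 0 := by
    linear_combination h4 + 4 * (a + 2 * x) * heq
  have h6 : x ^ 2 = b := by
    have := pow_eq_zero_iff two_ne_zero |>.1 h5
    linear_combination this
  refine ⟨h6, ?_⟩
  rw [heq, ← h6]
  ring

/-- **The isogeny**: `P` a point with `2 P = T` of order two; `φ` has kernel in `{0, T}` and
values in a curve with complete 2-torsion. -/
theorem exists_isog (h2 : (2 : F) ≠ 0) {W : WeierstrassCurve F} (hΔ : W.Δ ≠ 0)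
    {P : W.toAffine.Point} (hP : P + P ≠ 0) (hPP : (P + P) + (P + P) = 0) :
    ∃ (B : WeierstrassCurve F) (e₁ e₂ e₃ : F) (φ : W.toAffine.Point →+ B.toAffine.Point),
      B.Δ ≠ 0 ∧ Splits2 B e₁ e₂ e₃ ∧ (∀ Q, φ Q = 0 → Q = 0 ∨ Q = P + P) ∧
      Co B (φ P) e₁ 0 ∧
      ∀ Q, Q ≠ 0 → Q ≠ P + P → ∃ x η, Co B (φ Q) x η ∧ IsSquare (x - e₂) := by
  obtain ⟨a, b, hb, hd, e, he⟩ := exists_Cv h2 hΔ hP hPP
  obtain ⟨ψ, hker, hψ⟩ := exists_twoIsog h2 a b hb hd
  have h00 : (Cv a b).toAffine.Nonsingular 0 0 := by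
    have hΔ' : (Cv a b).Δ ≠ 0 := by
      rw [Δ_Cv]
      refine mul_ne_zero (mul_ne_zero ?_ (pow_ne_zero 2 hb)) hd
      have : (16 : F) = 2 ^ 4 := by norm_num
      rw [this]
      exact pow_ne_zero 4 h2
    refine (equation_iff_nonsingular_of_Δ_ne_zero hΔ').1 (equation_Cv.2 ?_)
    ring
  have hT : ∀ Q : W.toAffine.Point, (∃ h, e.symm Q = Point.some 0 0 h) ↔ Q = P + P := fun Q => by
    constructor
    · rintro ⟨h, hQ⟩
      rw [← he h, ← hQ, e.apply_symm_apply]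
    · rintro rfl
      exact ⟨h00, by rw [← he h00, e.symm_apply_apply]⟩
  have hP0 : P ≠ 0 := by
    rintro rfl
    exact hP (add_zero 0)
  rcases hP' : e.symm P with _ | ⟨x, y, h⟩
  · exact absurd (by rw [← e.apply_symm_apply P, hP']; exact map_zero e) hP0
  have hPP' : Point.some x y h + Point.some x y h = Point.some 0 0 h00 := by
    rw [← hP', ← map_add]
    obtain ⟨h', hh⟩ := (hT (P + P)).2 rfl
    exact hh
  obtain ⟨hx, hy⟩ := Cv_quarter h2 h h00 hPP'
  have hx0 : x ≠ 0 := by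
    rintro rfl
    exact hb (by rw [← hx]; ring)
  refine ⟨⟨0, -2 * a, 0, a ^ 2 - 4 * b, 0⟩, a + 2 * x, 0, a - 2 * x,
    ψ.comp e.symm.toAddMonoidHom, ?_, ?_, fun Q hQ => ?_, ?_, fun Q hQ0 hQT => ?_⟩
  · have := Δ_Cv (a := -2 * a) (b := a ^ 2 - 4 * b)
    rw [this]
    have e1 : (-2 * a) ^ 2 - 4 * (a ^ 2 - 4 * b) = 2 ^ 4 * b := by ring
    have e2 : (16 : F) = 2 ^ 4 := by norm_num
    rw [e1, e2]
    exact mul_ne_zero (mul_ne_zero (pow_ne_zero 4 h2) (pow_ne_zero 2 hd))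
      (mul_ne_zero (pow_ne_zero 4 h2) hb)
  · refine ⟨?_, ?_, ?_⟩
    · change 0 ^ 2 + 4 * (-2 * a) = -4 * (a + 2 * x + 0 + (a - 2 * x))
      ring
    · change 2 * (a ^ 2 - 4 * b) + 0 * 0 = _
      rw [← hx]
      ring
    · change 0 ^ 2 + 4 * 0 = _
      ring
  · have h1 : ψ (e.symm Q) = 0 := hQ
    rcases (hker _).1 h1 with h3 | h3
    · left
      rw [← e.apply_symm_apply Q, h3, map_zero]
    · right
      exact (hT Q).1 h3
  · obtain ⟨h', h3⟩ := hψ x y h hx0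
    refine ⟨y * (b - x ^ 2) / x ^ 2, ?_⟩
    have e1 : y ^ 2 / x ^ 2 = a + 2 * x := by
      rw [div_eq_iff (pow_ne_zero 2 hx0), hy]
      ring
    have h'' := h'
    rw [e1] at h''
    refine ⟨h'', ?_, ?_⟩
    · change ψ (e.symm P) = _
      rw [hP']
      refine h3.trans ?_
      simp only [Point.some.injEq, and_true]
      exact e1
    · rw [hx, sub_self]
      change y * 0 / b + (0 * (a + 2 * x) + 0) / 2 = 0
      simp
  · rcases hQ' : e.symm Q with _ | ⟨x', y', k⟩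
    · exact absurd (by rw [← e.apply_symm_apply Q, hQ']; exact map_zero e) hQ0
    have hx' : x' ≠ 0 := by
      rintro rfl
      have hy' : y' = 0 := by
        have := equation_Cv.1 k.1
        exact pow_eq_zero_iff two_ne_zero |>.1 (by rw [this]; ring)
      subst hy'
      exact hQT ((hT Q).1 ⟨k, hQ'⟩)
    obtain ⟨h', h3⟩ := hψ x' y' k hx'
    refine ⟨_, _, ⟨_, h', ?_, rfl⟩, ⟨y' / x', ?_⟩⟩
    · change ψ (e.symm Q) = _
      rw [hQ']
      exact h3
    · rw [sub_zero]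
      field_simp

end general

theorem addOrderOf_map_of_odd {A B : Type*} [AddCommGroup A] [AddCommGroup B] (φ : A →+ B)
    {T : A} (hT : T + T = 0) (hker : ∀ Q, φ Q = 0 → Q = 0 ∨ Q = T) {g : A}
    (hodd : Odd (addOrderOf g)) : addOrderOf (φ g) = addOrderOf g := by
  refine Nat.dvd_antisymm (addOrderOf_map_dvd φ g) ?_
  have h1 : φ (addOrderOf (φ g) • g) = 0 := by
    rw [map_nsmul, addOrderOf_nsmul_eq_zero]
  have h2 : 2 • (addOrderOf (φ g) • g) = 0 := by
    rcases hker _ h1 with h | h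
    · rw [h, smul_zero]
    · rw [h, two_nsmul, hT]
  rw [← mul_nsmul] at h2
  have h3 := addOrderOf_dvd_of_nsmul_eq_zero h2
  exact (Nat.Coprime.dvd_of_dvd_mul_right (Nat.Coprime.symm
    (Nat.coprime_two_left.2 hodd)) h3)

section card

variable {F : Type*} [Field F] {W : WeierstrassCurve F} {e₁ e₂ e₃ : F} [DecidableEq F]

/-- complete 2-torsion has four elements -/
theorem card_two_torsion (h2 : (2 : F) ≠ 0) (hΔ : W.Δ ≠ 0) (hs : Splits2 W e₁ e₂ e₃) :
    Nat.card {P : W.toAffine.Point // 2 • P = 0} = 4 := by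
  classical
  obtain ⟨n12, n13, n23⟩ := ne_of_splits h2 hΔ hs
  obtain ⟨T₁, h₁⟩ := exists_root_point₁ h2 hΔ hs
  obtain ⟨T₂, h₂⟩ := exists_root_point₁ h2 hΔ (splits_swap₁₂ hs)
  obtain ⟨T₃, h₃⟩ := exists_root_point₁ h2 hΔ (splits_swap₁₃ hs)
  have m12 : T₁ ≠ T₂ := by
    rintro rfl
    exact n12 (h₁.unique h₂).1
  have m13 : T₁ ≠ T₃ := by
    rintro rfl
    exact n13 (h₁.unique h₃).1
  have m23 : T₂ ≠ T₃ := by
    rintro rfl
    exact n23 (h₂.unique h₃).1
  have hset : ∀ P : W.toAffine.Point, 2 • P = 0 ↔ P ∈ ({0, T₁, T₂, T₃} : Finset _) := by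
    intro P
    simp only [Finset.mem_insert, Finset.mem_singleton]
    rw [two_nsmul]
    constructor
    · intro hP
      by_cases h0 : P = 0
      · exact Or.inl h0
      · rcases exists_root_of_two h2 hs h0 hP with h | h | h
        · exact Or.inr (Or.inl (h.ext h2 h₁))
        · exact Or.inr (Or.inr (Or.inl (h.ext h2 h₂)))
        · exact Or.inr (Or.inr (Or.inr (h.ext h2 h₃)))
    · rintro (rfl | rfl | rfl | rfl)
      · exact add_zero 0
      · exact (h₁.add_self_eq_zero_iff h2).2 rfl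
      · exact (h₂.add_self_eq_zero_iff h2).2 rfl
      · exact (h₃.add_self_eq_zero_iff h2).2 rfl
  rw [Nat.card_congr (Equiv.subtypeEquivRight hset), Nat.card_eq_fintype_card,
    Fintype.card_coe]
  rw [Finset.card_insert_of_notMem, Finset.card_insert_of_notMem, Finset.card_insert_of_notMem,
    Finset.card_singleton]
  · simpa using m23
  · simp only [Finset.mem_insert, Finset.mem_singleton, not_or]
    exact ⟨m12, m13⟩
  · simp only [Finset.mem_insert, Finset.mem_singleton, not_or]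
    exact ⟨h₁.ne_zero.symm, h₂.ne_zero.symm, h₃.ne_zero.symm⟩

end card

variable {W : WeierstrassCurve ℚ}

/-- **A curve with a rational point of order 4 has no rational point of order 9.** -/
theorem addOrderOf_ne_nine_of_four (hΔ : W.Δ ≠ 0) {P : W.toAffine.Point} (hP : P + P ≠ 0)
    (hPP : (P + P) + (P + P) = 0) (Q : W.toAffine.Point) : addOrderOf Q ≠ 9 := by
  intro hQ
  obtain ⟨B, e₁, e₂, e₃, φ, hB, hs, hker, -, -⟩ := exists_isog two_ne_zero hΔ hP hPP
  refine addOrderOf_ne_nine hB hs (φ Q) ?_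
  rw [addOrderOf_map_of_odd φ hPP hker (by rw [hQ]; decide), hQ]

/-- **A curve with a rational point of order 4 has no rational point of prime order `≥ 5`.** -/
theorem addOrderOf_ne_of_four (hΔ : W.Δ ≠ 0) {P : W.toAffine.Point} (hP : P + P ≠ 0)
    (hPP : (P + P) + (P + P) = 0) {p : ℕ} (hp : p.Prime) (h5 : 5 ≤ p) (Q : W.toAffine.Point) :
    addOrderOf Q ≠ p := by
  intro hQ
  obtain ⟨B, e₁, e₂, e₃, φ, hB, hs, hker, -, -⟩ := exists_isog two_ne_zero hΔ hP hPP
  have : B.IsElliptic := ⟨isUnit_iff_ne_zero.2 hB⟩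
  refine no_point_of_full_two B (card_two_torsion two_ne_zero hB hs) hp h5 (φ Q) ?_
  rw [addOrderOf_map_of_odd φ hPP hker, hQ]
  rw [hQ]
  exact hp.odd_of_ne_two (by omega)

/-- **No elliptic curve over `ℚ` has a rational point of order 24.** -/
theorem addOrderOf_ne_twentyfour_any (hΔ : W.Δ ≠ 0) (Q : W.toAffine.Point) :
    addOrderOf Q ≠ 24 := by
  intro hQ
  have key : ∀ k : ℕ, k • Q = 0 ↔ 24 ∣ k := fun k => by
    rw [← hQ]
    exact addOrderOf_dvd_iff_nsmul_eq_zero.symm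
  have hP : 6 • Q + 6 • Q ≠ 0 := by
    rw [← add_nsmul, Ne, key]
    norm_num
  have hPP : (6 • Q + 6 • Q) + (6 • Q + 6 • Q) = 0 := by
    rw [← add_nsmul, ← add_nsmul, key]
  obtain ⟨B, e₁, e₂, e₃, φ, hB, hs, hker, hφ, -⟩ := exists_isog two_ne_zero hΔ hP hPP
  refine addOrderOf_ne_twelve hs (φ Q) ?_
  refine Nat.dvd_antisymm ?_ ?_
  · apply addOrderOf_dvd_of_nsmul_eq_zero
    have h1 := (hφ.add_self_eq_zero_iff two_ne_zero).2 rfl
    rw [← map_add, ← add_nsmul, map_nsmul] at h1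
    exact h1
  · have h1 : φ (addOrderOf (φ Q) • Q) = 0 := by
      rw [map_nsmul, addOrderOf_nsmul_eq_zero]
    have h3 : 2 • (addOrderOf (φ Q) • Q) = 0 := by
      rcases hker _ h1 with h | h
      · rw [h, nsmul_zero]
      · rw [h, two_nsmul, hPP]
    rw [← mul_nsmul, key] at h3
    omega

/-- **No elliptic curve over `ℚ` has a rational point of order 16.** -/
theorem addOrderOf_ne_sixteen_any (hΔ : W.Δ ≠ 0) (Q : W.toAffine.Point) :
    addOrderOf Q ≠ 16 := by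
  intro hQ
  have key : ∀ k : ℕ, k • Q = 0 ↔ 16 ∣ k := fun k => by
    rw [← hQ]
    exact addOrderOf_dvd_iff_nsmul_eq_zero.symm
  have h4 : (Q + Q) + (Q + Q) = 4 • Q := by
    rw [← two_nsmul, ← two_nsmul, ← mul_nsmul]
  have h8 : ((Q + Q) + (Q + Q)) + ((Q + Q) + (Q + Q)) = 8 • Q := by
    rw [h4, ← add_nsmul]
  have hP : ((Q + Q) + (Q + Q)) + ((Q + Q) + (Q + Q)) ≠ 0 := by
    rw [h8, Ne, key]
    norm_num
  have hPP : (((Q + Q) + (Q + Q)) + ((Q + Q) + (Q + Q))) +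
      (((Q + Q) + (Q + Q)) + ((Q + Q) + (Q + Q))) = 0 := by
    rw [h8, ← add_nsmul, key]
  obtain ⟨B, e₁, e₂, e₃, φ, hB, hs, hker, hφ, hsq⟩ := exists_isog two_ne_zero hΔ hP hPP
  have hQ0 : Q ≠ 0 := by
    intro h0
    have := (key 1).1 (by rw [h0, nsmul_zero])
    norm_num at this
  have hQT : Q ≠ ((Q + Q) + (Q + Q)) + ((Q + Q) + (Q + Q)) := by
    intro h0
    rw [h8] at h0
    have h7 : 7 • Q = 0 := by
      have : 7 • Q + Q = 0 + Q := by
        rw [← succ_nsmul, zero_add]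
        exact h0.symm
      exact add_right_cancel this
    have := (key 7).1 h7
    norm_num at this
  obtain ⟨x', η', hc', z, hz⟩ := hsq Q hQ0 hQT
  rw [map_add, map_add] at hφ
  set R := φ Q with hR
  obtain ⟨x₂, m, n, c₂, a1, a2, b1, b2, b3, hm, hn, hmn⟩ := exists_quarter two_ne_zero hs hφ
  obtain ⟨x₁, X₂, u₁, u₂, u₃, c₁, C₂, p1, p2, p3, q1, q2, q3, u12, u13, u23⟩ :=
    exists_double two_ne_zero hs c₂.ne_zero
  obtain ⟨rfl, hη⟩ := C₂.unique c₂
  obtain ⟨rfl, -⟩ := c₁.unique hc'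
  rw [b1] at p1
  rw [b2] at p2
  rw [b3] at p3
  rw [q2] at hz
  have hu₁ : u₁ ≠ 0 := by
    rintro rfl
    have : m * n = 0 := by rw [p1]; ring
    exact mul_ne_zero hm hn this
  have hu₂ : u₂ ≠ 0 := by
    rintro rfl
    have : m * (m + n) = 0 := by rw [p2]; ring
    exact mul_ne_zero hm hmn this
  have hmu : m * u₃ = u₁ * u₂ := by
    refine mul_left_cancel₀ (mul_ne_zero hn hu₂) ?_
    have : u₂ * (u₁ * u₃) = u₂ * (n * u₂) := by
      linear_combination hη + n * p2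
    have h2 : u₁ * u₃ = n * u₂ := mul_left_cancel₀ hu₂ this
    linear_combination u₂ * u₁ * h2 + u₂ * u₃ * p1
  have hpyth : m ^ 2 + u₁ ^ 2 = u₂ ^ 2 := by
    rw [← p1, ← p2]; ring
  refine no_sixteen_algebra hm hu₁ hpyth (w := m * z) ?_
  linear_combination (m ^ 2) * hz - m * (u₁ + u₂) * hmu

end Fermat.Agent.Cor.MT
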