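import Fermat.Agent.Corollaries.K4.Small.Desc5

/-!
# Corollaries, MT: Euler's theorem on `y ^ 2 = x ^ 3 + 1`

The rational solutions of `y ^ 2 = x ^ 3 + 1` have `x = -1`, `0` or `2` (Euler 1738). The descent is on the equation
`r ^ 4 - 3 r ^ 2 e ^ 2 + 3 e ^ 4 = s ^ 2`; the proof on paper is helper61's.
-/

set_option autoImplicit false

namespace Fermat.Agent.Cor.MT

open Fermat.Agent.Cor.Small (split4 isCoprime_of_prime exists_half sq_of_mul3 exists_sq_of_rat)

theorem prime_dvd_of_sq_dvd {q f : ℤ} (hq : Prime q) (h : q * q ∣ 3 * f ^ 4) : q ∣ f := by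
  by_contra hf
  have h1 : IsCoprime (q * q) (f ^ 4) := by
    have h0 : IsCoprime q f := (Irreducible.coprime_iff_not_dvd hq.irreducible).mpr hf
    exact (h0.mul_left h0).pow_right
  have h2 : q * q ∣ 3 := h1.dvd_of_dvd_mul_right h
  have h3 : q * q ≤ 3 := Int.le_of_dvd (by norm_num) h2
  have h4 : 2 ≤ q.natAbs := (Int.prime_iff_natAbs_prime.mp hq).two_le
  have h5 : 2 ≤ |q| := by
    rw [Int.abs_eq_natAbs]
    exact_mod_cast h4
  have h6 : q * q = |q| * |q| := (abs_mul_abs_self q).symm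
  nlinarith

/-- The second half of a step. -/
theorem euler_last {g h u v : ℤ} (hh : h ≠ 0) (hgh : IsCoprime g h) (huv : u * v = 3 * h ^ 4)
    (hsum : u + v = g ^ 2 + 3 * h ^ 2) :
    ∃ a b : ℤ, h = a * b ∧ IsCoprime a b ∧ a ^ 4 - 3 * a ^ 2 * b ^ 2 + 3 * b ^ 4 = g ^ 2 := by
  have hc : IsCoprime u v := isCoprime_of_prime fun q hq h1 h2 => by
    have h3 : q ∣ h := prime_dvd_of_sq_dvd hq (huv ▸ mul_dvd_mul h1 h2)
    have h4 : q ∣ g ^ 2 := by
      have h5 : q ∣ g ^ 2 + 3 * h ^ 2 := hsum ▸ dvd_add h1 h2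
      exact (dvd_add_left ((Dvd.dvd.pow h3 (by norm_num)).mul_left 3)).mp h5
    exact hq.not_isUnit (hgh.isUnit_of_dvd' (hq.dvd_of_dvd_pow h4) h3)
  obtain ⟨a, b, ε, hab, hc', hε, hcase⟩ := split4 Int.prime_three 1 hh hc
    (by rw [huv, pow_one])
  have hb : b ≠ 0 := by rintro rfl; exact hh (by rw [hab, mul_zero])
  have hs : ε * (a ^ 4 + 3 * b ^ 4) = g ^ 2 + 3 * (a * b) ^ 2 := by
    rw [← hab, ← hsum]
    rcases hcase with ⟨h1, h2⟩ | ⟨h1, h2⟩ <;> rw [h1, h2] <;> ring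
  have hε1 : ε = 1 := by
    rcases hε with h1 | h1
    · exact h1
    · exfalso
      rw [h1] at hs
      have h2 : 0 < b ^ 4 := by positivity
      have h3 : 0 ≤ a ^ 4 := by positivity
      nlinarith [sq_nonneg g, sq_nonneg (a * b)]
  rw [hε1, one_mul] at hs
  exact ⟨a, b, hab, hc', by linear_combination hs⟩

/-- The first half of a step: `u v = 3 f ^ 4`, with `v - u` up to sign `g ^ 4 - 3 h ^ 4`. -/
theorem euler_first {f u v : ℤ} (hf : f ≠ 0) (hc : IsCoprime u v) (huv : u * v = 3 * f ^ 4) :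
    ∃ g h δ : ℤ, f = g * h ∧ IsCoprime g h ∧ (δ = 1 ∨ δ = -1) ∧
      v - u = δ * (g ^ 4 - 3 * h ^ 4) := by
  obtain ⟨g, h, ε, hgh, hc', hε, hcase⟩ := split4 Int.prime_three 1 hf hc
    (by rw [huv, pow_one])
  rcases hcase with ⟨h1, h2⟩ | ⟨h1, h2⟩
  · exact ⟨g, h, -ε, hgh, hc', by rcases hε with rfl | rfl <;> simp, by rw [h1, h2]; ring⟩
  · exact ⟨g, h, ε, hgh, hc', hε, by rw [h1, h2]; ring⟩

theorem zmod3_key : ∀ r g x : ZMod 3, r ^ 2 = -g ^ 4 + 3 * x → r = 0 := by decide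

theorem zmod9_key : ∀ e s : ZMod 9, s ^ 2 = 3 * e ^ 4 → 3 * e = 0 := by decide

theorem zmod4_key : ∀ e s : ZMod 4, s ^ 2 = 3 * e ^ 4 → 2 * e = 0 := by decide

/-- Squares: `x = 2 k` or `x ^ 2 = 8 k + 1`. -/
theorem even_or_sq (x : ℤ) : (∃ k, x = 2 * k) ∨ ∃ k, x ^ 2 = 8 * k + 1 := by
  rcases Int.even_or_odd x with ⟨k, hk⟩ | ⟨t, rfl⟩
  · exact Or.inl ⟨k, by rw [hk]; ring⟩
  · obtain ⟨k, hk⟩ := Int.even_mul_succ_self t
    exact Or.inr ⟨k, by linear_combination 4 * hk⟩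

/-- `r` is odd. -/
theorem euler_odd {r e s : ℤ} (hcop : IsCoprime r e)
    (h : r ^ 4 - 3 * r ^ 2 * e ^ 2 + 3 * e ^ 4 = s ^ 2) : ¬ (2 : ℤ) ∣ r := by
  rintro ⟨k, rfl⟩
  have h1 := zmod4_key (e : ZMod 4) (s : ZMod 4) (by
    have h2 := congrArg (Int.cast : ℤ → ZMod 4) h
    push_cast at h2
    have h3 : (4 : ZMod 4) = 0 := by decide
    linear_combination -h2 + (4 * (k : ZMod 4) ^ 4 - 3 * (k : ZMod 4) ^ 2 * (e : ZMod 4) ^ 2) * h3)
  have h2 : (4 : ℤ) ∣ 2 * e := (ZMod.intCast_zmod_eq_zero_iff_dvd _ 4).mp (by push_cast; exact h1)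
  have h3 : (2 : ℤ) ∣ e := by omega
  exact Int.prime_two.not_isUnit (hcop.isUnit_of_dvd' (Dvd.intro k rfl) h3)

/-- `r` is not divisible by `3`. -/
theorem euler_three {r e s : ℤ} (hcop : IsCoprime r e)
    (h : r ^ 4 - 3 * r ^ 2 * e ^ 2 + 3 * e ^ 4 = s ^ 2) : ¬ (3 : ℤ) ∣ r := by
  rintro ⟨k, rfl⟩
  have h1 := zmod9_key (e : ZMod 9) (s : ZMod 9) (by
    have h2 := congrArg (Int.cast : ℤ → ZMod 9) h
    push_cast at h2
    have h3 : (9 : ZMod 9) = 0 := by decide
    linear_combination -h2 + (9 * (k : ZMod 9) ^ 4 - 3 * (k : ZMod 9) ^ 2 * (e : ZMod 9) ^ 2) * h3)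
  have h2 : (9 : ℤ) ∣ 3 * e := (ZMod.intCast_zmod_eq_zero_iff_dvd _ 9).mp (by push_cast; exact h1)
  have h3 : (3 : ℤ) ∣ e := by omega
  exact Int.prime_three.not_isUnit (hcop.isUnit_of_dvd' (Dvd.intro k rfl) h3)

/-- **The descent.** -/
theorem euler_key {r e s : ℤ} (hcop : IsCoprime r e)
    (h : r ^ 4 - 3 * r ^ 2 * e ^ 2 + 3 * e ^ 4 = s ^ 2) : e = 0 ∨ (r ^ 2 = 1 ∧ e ^ 2 = 1) := by
  induction hn : e.natAbs using Nat.strong_induction_on generalizing r e s with
  | _ n ih =>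
  by_cases he : e = 0
  · exact Or.inl he
  right
  have hr2 := euler_odd hcop h
  have hr3 := euler_three hcop h
  obtain ⟨k, hk⟩ := (even_or_sq r).resolve_left fun ⟨k, hk⟩ => hr2 ⟨k, hk⟩
  have hno : ∀ R g x : ℤ, (3 : ℤ) ∣ R ^ 2 - r ^ 2 → R ^ 2 = -g ^ 4 + 3 * x → False := by
    intro R g x hR h0
    have h1 := zmod3_key (R : ZMod 3) (g : ZMod 3) (x : ZMod 3) (by
      have h2 := congrArg (Int.cast : ℤ → ZMod 3) h0
      push_cast at h2
      exact h2)
    have h2 : (3 : ℤ) ∣ R := (ZMod.intCast_zmod_eq_zero_iff_dvd _ 3).mp h1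
    have h3 : (3 : ℤ) ∣ r ^ 2 := by
      have := dvd_sub (Dvd.dvd.pow h2 (by norm_num : (2 : ℕ) ≠ 0)) hR
      rwa [sub_sub_cancel] at this
    exact hr3 (Int.prime_three.dvd_of_dvd_pow h3)
  rcases even_or_sq e with ⟨f, rfl⟩ | ⟨l, hl⟩
  · -- `e = 2 f`
    exfalso
    have hf : f ≠ 0 := by rintro rfl; exact he (by ring)
    have hcf : IsCoprime r f := hcop.of_mul_right_right
    obtain ⟨u, v, hu, hv⟩ := exists_half (a := s) (b := r ^ 2 - 6 * f ^ 2) (c := 6 * f ^ 4)
      (by rw [← h]; ring)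
    have huv : u * v = 3 * f ^ 4 := by
      have h1 : (s - (r ^ 2 - 6 * f ^ 2)) * (s + (r ^ 2 - 6 * f ^ 2)) = 12 * f ^ 4 := by
        linear_combination -h
      rw [hu, hv] at h1
      linarith
    have hdiff : v - u = r ^ 2 - 6 * f ^ 2 := by linarith
    have hc : IsCoprime u v := isCoprime_of_prime fun q hq h1 h2 => by
      have h3 : q ∣ f := prime_dvd_of_sq_dvd hq (huv ▸ mul_dvd_mul h1 h2)
      have h4 : q ∣ r ^ 2 - 6 * f ^ 2 := hdiff ▸ dvd_sub h2 h1
      have h5 : q ∣ r ^ 2 :=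
        (dvd_sub_left ((Dvd.dvd.pow h3 (by norm_num : (2 : ℕ) ≠ 0)).mul_left 6)).mp h4
      exact hq.not_isUnit (hcf.isUnit_of_dvd' (hq.dvd_of_dvd_pow h5) h3)
    obtain ⟨g, h', δ, rfl, hgh, hδ, hd⟩ := euler_first hf hc huv
    rw [hdiff] at hd
    have hh' : h' ≠ 0 := right_ne_zero_of_mul hf
    have hg' : g ≠ 0 := left_ne_zero_of_mul hf
    rcases hδ with rfl | rfl
    · -- `r ^ 2 = g ^ 4 + 6 g ^ 2 h ^ 2 - 3 h ^ 4`
      have hr : r ^ 2 = g ^ 4 + 6 * g ^ 2 * h' ^ 2 - 3 * h' ^ 4 := by linear_combination hd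
      -- `h'` is even
      have heven : ∃ j, h' = 2 * j := by
        rcases even_or_sq h' with h1 | ⟨j, hj⟩
        · exact h1
        · exfalso
          have h4 : h' ^ 4 = 64 * j ^ 2 + 16 * j + 1 := by
            linear_combination (h' ^ 2 + 8 * j + 1) * hj
          rcases even_or_sq g with ⟨i, rfl⟩ | ⟨i, hi⟩
          · rw [h4, hk, hj] at hr
            ring_nf at hr
            omega
          · have h5 : g ^ 4 = 64 * i ^ 2 + 16 * i + 1 := by
              linear_combination (g ^ 2 + 8 * i + 1) * hi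
            rw [h4, h5, hk, hj, hi] at hr
            ring_nf at hr
            omega
      obtain ⟨u', v', hu', hv'⟩ := exists_half (a := g ^ 2 + 3 * h' ^ 2) (b := r)
        (c := 6 * h' ^ 4) (by rw [hr]; ring)
      have huv' : u' * v' = 3 * h' ^ 4 := by
        have h1 : (g ^ 2 + 3 * h' ^ 2 - r) * (g ^ 2 + 3 * h' ^ 2 + r) = 12 * h' ^ 4 := by
          linear_combination -hr
        rw [hu', hv'] at h1
        linarith
      obtain ⟨a, b, rfl, hab, hgab⟩ := euler_last hh' hgh huv' (by linarith)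
      have hb0 : b ≠ 0 := right_ne_zero_of_mul hh'
      have ha0 : a ≠ 0 := left_ne_zero_of_mul hh'
      have hlt : b.natAbs < n := by
        rw [← hn, Int.natAbs_mul, Int.natAbs_mul, Int.natAbs_mul]
        have h1 : 0 < g.natAbs := Int.natAbs_pos.mpr hg'
        have h2 : 0 < a.natAbs := Int.natAbs_pos.mpr ha0
        have h3 : 0 < b.natAbs := Int.natAbs_pos.mpr hb0
        have h4 : 1 * b.natAbs ≤ a.natAbs * b.natAbs := Nat.mul_le_mul_right _ h2
        have h5 : 1 * (a.natAbs * b.natAbs) ≤ g.natAbs * (a.natAbs * b.natAbs) :=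
          Nat.mul_le_mul_right _ h1
        have h6 : (2 : ℤ).natAbs = 2 := rfl
        rw [h6]
        omega
      rcases ih b.natAbs hlt hab hgab rfl with h1 | ⟨h1, h2⟩
      · exact hb0 h1
      · obtain ⟨j, hj⟩ := heven
        have h3 : (a * b) ^ 2 = 1 := by rw [mul_pow, h1, h2, one_mul]
        rw [hj] at h3
        ring_nf at h3
        omega
    · -- sign `-1`: impossible modulo `3`
      exact hno r g (2 * (g * h') ^ 2 + h' ^ 4) (by simp) (by linear_combination hd)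
  · -- `e` odd
    have hs : (2 * s - (2 * r ^ 2 - 3 * e ^ 2)) * (2 * s + (2 * r ^ 2 - 3 * e ^ 2)) =
        3 * e ^ 4 := by linear_combination -4 * h
    have hc : IsCoprime (2 * s - (2 * r ^ 2 - 3 * e ^ 2)) (2 * s + (2 * r ^ 2 - 3 * e ^ 2)) :=
      isCoprime_of_prime fun q hq h1 h2 => by
        have h3 : q ∣ e := prime_dvd_of_sq_dvd hq (hs ▸ mul_dvd_mul h1 h2)
        have h4 : q ∣ 2 ^ 2 * r ^ 2 := by
          have h5 := dvd_sub h2 h1
          have h6 : 2 * s + (2 * r ^ 2 - 3 * e ^ 2) - (2 * s - (2 * r ^ 2 - 3 * e ^ 2)) =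
              2 ^ 2 * r ^ 2 - 6 * e ^ 2 := by ring
          rw [h6] at h5
          exact (dvd_sub_left ((Dvd.dvd.pow h3 (by norm_num : (2 : ℕ) ≠ 0)).mul_left 6)).mp h5
        rcases hq.dvd_mul.mp h4 with h5 | h5
        · have h6 : q ∣ 2 := hq.dvd_of_dvd_pow h5
          have h7 : (2 : ℤ) ∣ e :=
            ((hq.dvd_prime_iff_associated Int.prime_two).mp h6).symm.dvd.trans h3
          have h8 : (2 : ℤ) ∣ e ^ 2 := Dvd.dvd.pow h7 (by norm_num)
          omega
        · exact hq.not_isUnit (hcop.isUnit_of_dvd' (hq.dvd_of_dvd_pow h5) h3)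
    obtain ⟨g, h', δ, rfl, hgh, hδ, hd⟩ := euler_first he hc hs
    have hh' : h' ≠ 0 := right_ne_zero_of_mul he
    have hg' : g ≠ 0 := left_ne_zero_of_mul he
    rcases hδ with rfl | rfl
    · have hr : 4 * r ^ 2 = g ^ 4 + 6 * g ^ 2 * h' ^ 2 - 3 * h' ^ 4 := by
        linear_combination hd
      -- `g ^ 2 + 3 h ^ 2 = 2 N`
      obtain ⟨N, hN⟩ : ∃ N, g ^ 2 + 3 * h' ^ 2 = 2 * N := by
        rcases even_or_sq h' with ⟨j, rfl⟩ | ⟨j, hj⟩
        · exfalso
          have h1 : (g * (2 * j)) ^ 2 = 2 * (2 * (g * j) ^ 2) := by ring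
          omega
        · rcases even_or_sq g with ⟨i, rfl⟩ | ⟨i, hi⟩
          · exfalso
            have h1 : (2 * i * h') ^ 2 = 2 * (2 * (i * h') ^ 2) := by ring
            omega
          · exact ⟨4 * i + 12 * j + 2, by rw [hi, hj]; ring⟩
      have huv' : (N - r) * (N + r) = 3 * h' ^ 4 := by
        have h1 : 4 * ((N - r) * (N + r)) = 4 * (3 * h' ^ 4) := by
          have h2 : (g ^ 2 + 3 * h' ^ 2) ^ 2 = 4 * N ^ 2 := by rw [hN]; ring
          linear_combination -h2 - hr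
        linarith
      obtain ⟨a, b, rfl, hab, hgab⟩ := euler_last hh' hgh huv' (by linarith)
      have hb0 : b ≠ 0 := right_ne_zero_of_mul hh'
      have ha0 : a ≠ 0 := left_ne_zero_of_mul hh'
      have key : a ^ 2 = 1 ∧ b ^ 2 = 1 ∧ g ^ 2 = 1 := by
        by_cases hga : g.natAbs * a.natAbs = 1
        · have h1 : g.natAbs = 1 := Nat.eq_one_of_mul_eq_one_right hga
          have h2 : a.natAbs = 1 := Nat.eq_one_of_mul_eq_one_left hga
          have h3 : g ^ 2 = 1 := by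
            rw [← Int.natAbs_sq, h1]
            norm_num
          have h4 : a ^ 2 = 1 := by
            rw [← Int.natAbs_sq, h2]
            norm_num
          refine ⟨h4, ?_, h3⟩
          have h5 : a ^ 4 = 1 := by
            have : a ^ 4 = (a ^ 2) ^ 2 := by ring
            rw [this, h4, one_pow]
          rw [h5, h4, h3] at hgab
          have h6 : 3 * b ^ 2 * (b ^ 2 - 1) = 0 := by linear_combination hgab
          have h7 := (mul_eq_zero.mp h6).resolve_left
            (mul_ne_zero (by norm_num) (pow_ne_zero _ hb0))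
          linarith
        · have hlt : b.natAbs < n := by
            rw [← hn, Int.natAbs_mul, Int.natAbs_mul, ← mul_assoc]
            have h1 : 0 < g.natAbs := Int.natAbs_pos.mpr hg'
            have h2 : 0 < a.natAbs := Int.natAbs_pos.mpr ha0
            have h3 : 0 < b.natAbs := Int.natAbs_pos.mpr hb0
            have h4 : 0 < g.natAbs * a.natAbs := Nat.mul_pos h1 h2
            have h5 : 2 * b.natAbs ≤ (g.natAbs * a.natAbs) * b.natAbs :=
              Nat.mul_le_mul_right _ (by omega)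
            omega
          rcases ih b.natAbs hlt hab hgab rfl with h1 | ⟨h1, h2⟩
          · exact absurd h1 hb0
          · refine ⟨h1, h2, ?_⟩
            rw [← hgab]
            have h3 : a ^ 4 = 1 := by
              have : a ^ 4 = (a ^ 2) ^ 2 := by ring
              rw [this, h1, one_pow]
            have h4 : b ^ 4 = 1 := by
              have : b ^ 4 = (b ^ 2) ^ 2 := by ring
              rw [this, h2, one_pow]
            rw [h3, h4, h1, h2]
            norm_num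
      obtain ⟨h1, h2, h3⟩ := key
      constructor
      · have h4 : (a * b) ^ 2 = 1 := by rw [mul_pow, h1, h2, one_mul]
        have h5 : g ^ 4 = 1 := by
          have : g ^ 4 = (g ^ 2) ^ 2 := by ring
          rw [this, h3, one_pow]
        have h6 : (a * b) ^ 4 = 1 := by
          have : (a * b) ^ 4 = ((a * b) ^ 2) ^ 2 := by ring
          rw [this, h4, one_pow]
        rw [h4, h5, h6, h3] at hr
        linarith
      · rw [mul_pow, mul_pow, h1, h2, h3]
        norm_num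
    · exfalso
      refine hno (2 * r) g (2 * (g * h') ^ 2 + h' ^ 4) ⟨r ^ 2, by ring⟩ ?_
      linear_combination hd

/-- **Euler's theorem** (1738): the rational solutions of `y ^ 2 = x ^ 3 + 1` have `x = -1`, `0` or `2`. -/
theorem sq_eq_cube_add_one {x y : ℚ} (h : y ^ 2 = x ^ 3 + 1) : x = -1 ∨ x = 0 ∨ x = 2 := by
  by_cases hw0 : x + 1 = 0
  · exact Or.inl (by linear_combination hw0)
  right
  obtain ⟨w, hw⟩ : ∃ w, w = x + 1 := ⟨_, rfl⟩
  have hx : x = w - 1 := by rw [hw]; ring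
  rw [← hw] at hw0
  have h' : y ^ 2 = w * (w ^ 2 - 3 * w + 3) := by rw [h, hx]; ring
  set m : ℤ := w.num with hm
  set n : ℤ := (w.den : ℤ) with hn
  have hn0 : 0 < n := by rw [hn]; exact_mod_cast w.den_pos
  have hnq : (n : ℚ) ≠ 0 := by exact_mod_cast hn0.ne'
  have hwmn : w = m / n := by rw [hm, hn]; exact (Rat.num_div_den w).symm
  have hm0 : m ≠ 0 := by rw [hm]; exact Rat.num_ne_zero.mpr hw0
  have hmn : IsCoprime m n := by
    rw [hm, hn, Int.isCoprime_iff_gcd_eq_one]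
    exact w.reduced
  have h1 : (y * n ^ 2) ^ 2 = ((m * n * (m ^ 2 - 3 * m * n + 3 * n ^ 2) : ℤ) : ℚ) := by
    rw [mul_pow, h', hwmn]
    push_cast
    field_simp
  obtain ⟨z, hz⟩ := exists_sq_of_rat h1
  have hpos : 0 < m ^ 2 - 3 * m * n + 3 * n ^ 2 := by
    nlinarith [sq_nonneg (2 * m - 3 * n), pow_pos hn0 2]
  by_cases h3 : (3 : ℤ) ∣ m
  · -- `w = 3 e ^ 2 / r ^ 2`
    right
    obtain ⟨m', hm'⟩ := h3
    rw [hm'] at hz hmn hm0 hwmn
    have hm'0 : m' ≠ 0 := right_ne_zero_of_mul hm0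
    have hm'n : IsCoprime m' n := hmn.of_mul_left_right
    have h3n : IsCoprime 3 n := hmn.of_mul_left_left
    have h3z : (3 : ℤ) ∣ z := by
      have h2 : (3 : ℤ) ∣ z ^ 2 :=
        ⟨3 * (m' * n * (3 * m' ^ 2 - 3 * m' * n + n ^ 2)), by rw [← hz]; ring⟩
      exact Int.prime_three.dvd_of_dvd_pow h2
    obtain ⟨z', rfl⟩ := h3z
    have hz' : m' * n * (3 * m' ^ 2 - 3 * m' * n + n ^ 2) = z' ^ 2 := by
      have h2 : 9 * (m' * n * (3 * m' ^ 2 - 3 * m' * n + n ^ 2)) = 9 * z' ^ 2 := by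
        linear_combination hz
      linarith
    have hc1 : IsCoprime m' (3 * m' ^ 2 - 3 * m' * n + n ^ 2) := by
      have := (hm'n.pow_right (n := 2)).add_mul_left_right (3 * m' - 3 * n)
      rwa [show n ^ 2 + m' * (3 * m' - 3 * n) = 3 * m' ^ 2 - 3 * m' * n + n ^ 2 by ring] at this
    have hc2 : IsCoprime n (3 * m' ^ 2 - 3 * m' * n + n ^ 2) := by
      have h2 : IsCoprime n (3 * m' ^ 2) := h3n.symm.mul_right (hm'n.symm.pow_right)
      have := h2.add_mul_left_right (-3 * m' + n)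
      rwa [show 3 * m' ^ 2 + n * (-3 * m' + n) = 3 * m' ^ 2 - 3 * m' * n + n ^ 2 by ring] at this
    obtain ⟨ε, e, r, s, hε, he, hr, hs⟩ := sq_of_mul3 hm'n hc1 hc2 hm'0 hn0 hz'
    have hε1 : ε = 1 := by
      rcases hε with h2 | h2
      · exact h2
      · exfalso
        rw [h2] at hs
        have h4 : 0 < 3 * m' ^ 2 - 3 * m' * n + n ^ 2 := by
          nlinarith [sq_nonneg (3 * m' - 2 * n), sq_nonneg (m' - n), pow_pos hn0 2,
            sq_nonneg (2 * m' - n), sq_nonneg m']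
        nlinarith [sq_nonneg s]
    rw [hε1, one_mul] at he hs
    rw [he, hr] at hm'n hs
    have hre : IsCoprime r e := by
      exact ((IsCoprime.pow_iff (by norm_num) (by norm_num)).mp hm'n).symm
    have he0 : e ≠ 0 := by rintro rfl; exact hm'0 (by rw [he]; ring)
    obtain ⟨h4, h5⟩ := (euler_key hre (s := s) (by linear_combination hs)).resolve_left he0
    rw [hx, hwmn, he, hr, h4, h5]
    norm_num
  · left
    have hc1 : IsCoprime m (m ^ 2 - 3 * m * n + 3 * n ^ 2) := by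
      have h2 : IsCoprime m (3 * n ^ 2) :=
        ((Irreducible.coprime_iff_not_dvd Int.prime_three.irreducible).mpr h3).symm.mul_right
          (hmn.pow_right)
      have := h2.add_mul_left_right (m - 3 * n)
      rwa [show 3 * n ^ 2 + m * (m - 3 * n) = m ^ 2 - 3 * m * n + 3 * n ^ 2 by ring] at this
    have hc2 : IsCoprime n (m ^ 2 - 3 * m * n + 3 * n ^ 2) := by
      have := (hmn.symm.pow_right (n := 2)).add_mul_left_right (-3 * m + 3 * n)
      rwa [show m ^ 2 + n * (-3 * m + 3 * n) = m ^ 2 - 3 * m * n + 3 * n ^ 2 by ring] at this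
    obtain ⟨ε, r, e, s, hε, hr, he, hs⟩ := sq_of_mul3 hmn hc1 hc2 hm0 hn0 hz
    have hε1 : ε = 1 := by
      rcases hε with h2 | h2
      · exact h2
      · exfalso
        rw [h2] at hs
        nlinarith [sq_nonneg s]
    rw [hε1, one_mul] at hr hs
    rw [he, hr] at hmn hs
    have hre : IsCoprime r e := (IsCoprime.pow_iff (by norm_num) (by norm_num)).mp hmn
    have he0 : e ≠ 0 := by rintro rfl; exact hn0.ne' (by rw [he]; ring)
    obtain ⟨h4, h5⟩ := (euler_key hre (s := s) (by linear_combination hs)).resolve_left he0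
    rw [hx, hwmn, he, hr, h4, h5]
    norm_num

end Fermat.Agent.Cor.MT
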