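import Fermat.Agent.Corollaries.MT.Main
import Fermat.Agent.Corollaries.MT.Irred

/-!
# Corollaries, MT: consequences of Mazur's theorem for `4 ∣ #E(ℚ)_tors`

* `realized`: each of the seven groups occurs;
* `irreducible_of_four_dvd`, `repP_surjective_of_four_dvd`, `tate_surjective_of_four_dvd`: semistable elliptic curves
  over `ℚ` whose torsion subgroup has order divisible by four.
-/

set_option autoImplicit false

noncomputable section

open WeierstrassCurve WeierstrassCurve.Affine

namespace Fermat.Agent.Cor.MT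

theorem isOneOfSeven (E : WeierstrassCurve ℚ) [E.IsElliptic] (h : 4 ∣ Nat.card (Tor E)) :
    IsOneOfSeven (Tor E) :=
  mazur_four E h

/-- **Each of the seven groups is the torsion subgroup of an elliptic curve over `ℚ`.** -/
theorem realized :
    (∀ n ∈ ({4, 8, 12} : Set ℕ), ∃ E : WeierstrassCurve ℚ, E.IsElliptic ∧
      Nonempty (AddCommGroup.torsion E.toAffine.Point ≃+ ZMod n)) ∧
    ∀ m ∈ ({1, 2, 3, 4} : Set ℕ), ∃ E : WeierstrassCurve ℚ, E.IsElliptic ∧
      Nonempty (AddCommGroup.torsion E.toAffine.Point ≃+ ZMod 2 × ZMod (2 * m)) :=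
  realized_of fun E _ h => isOneOfSeven E h

/-- **Irreducibility**: if the torsion subgroup of a semistable elliptic curve over `ℚ` has order divisible by four,
its mod `p` representation is irreducible for every prime `p ≥ 5`. -/
theorem irreducible_of_four_dvd {p : ℕ} (hp : p.Prime) (h5 : 5 ≤ p) {W : WeierstrassCurve ℤ}
    (hΔ : W.Δ ≠ 0) (hW : W.IsSemistableModel)
    (h4 : 4 ∣ Nat.card (AddCommGroup.torsion (W.map (Int.castRingHom ℚ)).toAffine.Point)) :
    W.ModRepIsIrreducible p :=
  irreducible_of_four_dvd_of (fun E _ h => isOneOfSeven E h) hp h5 hΔ hW h4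

/-- **Surjectivity**: the mod `p` representation of a semistable elliptic curve over `ℚ` whose torsion subgroup has
order divisible by four is surjective for every prime `p ≥ 5`. -/
theorem repP_surjective_of_four_dvd {W : WeierstrassCurve ℤ} (hΔ : W.Δ ≠ 0) {p : ℕ}
    [hp : Fact p.Prime] (h5 : 5 ≤ p) (hW : W.IsSemistableModel)
    (h4 : 4 ∣ Nat.card (AddCommGroup.torsion (W.map (Int.castRingHom ℚ)).toAffine.Point)) :
    Function.Surjective (Classic.repP p hΔ) :=
  repP_surjective_of_four_dvd_of (fun E _ h => isOneOfSeven E h) hΔ h5 hW h4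

/-- **The `p`-adic representation** of a semistable elliptic curve over `ℚ` whose torsion subgroup has order divisible
by four is surjective for every prime `p ≥ 5`. -/
theorem tate_surjective_of_four_dvd {W : WeierstrassCurve ℤ} (hΔ : W.Δ ≠ 0) {p : ℕ}
    [hp : Fact p.Prime] (h5 : 5 ≤ p) (hW : W.IsSemistableModel)
    (h4 : 4 ∣ Nat.card (AddCommGroup.torsion (W.map (Int.castRingHom ℚ)).toAffine.Point))
    (e : Tate.TMod p ((W.map (Int.castRingHom ℚ))⁄(AlgebraicClosure ℚ)).Point
      ≃ₗ[ℤ_[p]] Tate.TMod p ((W.map (Int.castRingHom ℚ))⁄(AlgebraicClosure ℚ)).Point) :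
    ∃ σ : AlgebraicClosure ℚ ≃ₐ[ℚ] AlgebraicClosure ℚ,
      (Tate.tateRep (W.map (Int.castRingHom ℚ)) (Tate.map_Δ_ne_zero hΔ) p).ρ σ = e.toLinearMap :=
  tate_surjective_of_four_dvd_of (fun E _ h => isOneOfSeven E h) hΔ h5 hW h4 e

end Fermat.Agent.Cor.MT
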