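import Fermat.Agent.Corollaries.MT.Split
import Fermat.Agent.Corollaries.Ferm.Quartic
import Fermat.Agent.Corollaries.Ferm.FourSq

/-!
# Complete rational 2-torsion: no points of order 12 and 16

`E / ℚ` with 2-torsion polynomial `4 (x - e₁) (x - e₂) (x - e₃)`.

* `exists_not_double` : some rational point of order dividing 2 is not in `2 E(ℚ)`;
* `addOrderOf_ne_sixteen` (Fermat's right triangle theorem);
* `addOrderOf_ne_twelve` (Euler's quartic `x⁴ - x² y² + y⁴ = z²`).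
-/

set_option autoImplicit false

open WeierstrassCurve WeierstrassCurve.Affine
open Fermat.Agent.Cor.MordellWeil

namespace Fermat.Agent.Cor.MT

section general

variable {F : Type*} [Field F] {W : WeierstrassCurve F} {e₁ e₂ e₃ : F}

theorem splits_swap₁₂ (hs : Splits2 W e₁ e₂ e₃) : Splits2 W e₂ e₁ e₃ :=
  ⟨by rw [hs.h2]; ring, by rw [hs.h4]; ring, by rw [hs.h6]; ring⟩

theorem splits_swap₁₃ (hs : Splits2 W e₁ e₂ e₃) : Splits2 W e₃ e₂ e₁ :=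
  ⟨by rw [hs.h2]; ring, by rw [hs.h4]; ring, by rw [hs.h6]; ring⟩

theorem splits_swap₂₃ (hs : Splits2 W e₁ e₂ e₃) : Splits2 W e₁ e₃ e₂ :=
  ⟨by rw [hs.h2]; ring, by rw [hs.h4]; ring, by rw [hs.h6]; ring⟩

/-- all points of the curve -/
theorem exists_point (h2 : (2 : F) ≠ 0) (hΔ : W.Δ ≠ 0) (hs : Splits2 W e₁ e₂ e₃) {x η : F}
    (h : η ^ 2 = (x - e₁) * (x - e₂) * (x - e₃)) : ∃ P, Co W P x η := by
  obtain ⟨α, γ, ha1, ha3, ha2, ha4, ha6⟩ := exists_coeffs h2 hs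
  have heq : W.toAffine.Equation x (η - α * x - γ) := by
    rw [equation_iff]
    change (η - α * x - γ) ^ 2 + W.a₁ * x * (η - α * x - γ) + W.a₃ * (η - α * x - γ) =
      x ^ 3 + W.a₂ * x ^ 2 + W.a₄ * x + W.a₆
    rw [ha1, ha2, ha3, ha4, ha6]
    linear_combination h
  have hns : W.toAffine.Nonsingular x (η - α * x - γ) :=
    (equation_iff_nonsingular_of_Δ_ne_zero hΔ).1 heq
  refine ⟨Point.some _ _ hns, _, hns, rfl, ?_⟩
  refine mul_left_cancel₀ h2 ?_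
  rw [two_eta h2, ha1, ha3]
  ring

theorem exists_root_point₁ (h2 : (2 : F) ≠ 0) (hΔ : W.Δ ≠ 0) (hs : Splits2 W e₁ e₂ e₃) :
    ∃ P, Co W P e₁ 0 :=
  exists_point h2 hΔ hs (by ring)

theorem co_of_two (h2 : (2 : F) ≠ 0) (hs : Splits2 W e₁ e₂ e₃) {P : W.toAffine.Point} {x : F}
    (h : Co W P x 0) : x = e₁ ∨ x = e₂ ∨ x = e₃ := by
  have h1 := h.sq h2 hs
  have h3 : (x - e₁) * (x - e₂) * (x - e₃) = 0 := by rw [← h1]; ring
  rcases mul_eq_zero.1 h3 with h4 | h4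
  · rcases mul_eq_zero.1 h4 with h5 | h5
    · exact Or.inl (sub_eq_zero.1 h5)
    · exact Or.inr (Or.inl (sub_eq_zero.1 h5))
  · exact Or.inr (Or.inr (sub_eq_zero.1 h4))

variable [DecidableEq F]

theorem exists_double (h2 : (2 : F) ≠ 0) (hs : Splits2 W e₁ e₂ e₃) {P : W.toAffine.Point}
    (hP : P + P ≠ 0) : ∃ x X r₁ r₂ r₃ : F, Co W P x ((r₁ + r₂) * (r₁ + r₃) * (r₂ + r₃)) ∧
      Co W (P + P) X (r₁ * r₂ * r₃) ∧
      X - e₁ = r₁ ^ 2 ∧ X - e₂ = r₂ ^ 2 ∧ X - e₃ = r₃ ^ 2 ∧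
      x - e₁ = (r₁ + r₂) * (r₁ + r₃) ∧ x - e₂ = (r₂ + r₁) * (r₂ + r₃) ∧
      x - e₃ = (r₃ + r₁) * (r₃ + r₂) ∧ r₁ + r₂ ≠ 0 ∧ r₁ + r₃ ≠ 0 ∧ r₂ + r₃ ≠ 0 := by
  have hP0 : P ≠ 0 := by
    rintro rfl
    exact hP (add_zero 0)
  obtain ⟨x, η, hc⟩ := exists_co hP0
  have hη : η ≠ 0 := fun h0 => hP ((hc.add_self_eq_zero_iff h2).2 h0)
  obtain ⟨X, r₁, r₂, r₃, k, k1, k2, k3, l1, l2, l3, l4⟩ := hc.double h2 hs hη
  rw [l4] at hc hη
  have m23 := right_ne_zero_of_mul hη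
  have m13 := right_ne_zero_of_mul (left_ne_zero_of_mul hη)
  have m12 := left_ne_zero_of_mul (left_ne_zero_of_mul hη)
  exact ⟨x, X, r₁, r₂, r₃, hc, k, k1, k2, k3, l1, l2, l3, m12, m13, m23⟩

/-- `2 P` is the point with abscissa `e₁` -/
theorem exists_quarter (h2 : (2 : F) ≠ 0) (hs : Splits2 W e₁ e₂ e₃) {P : W.toAffine.Point}
    (hP : Co W (P + P) e₁ 0) : ∃ x m n : F, Co W P x (m * n * (m + n)) ∧
      e₁ - e₂ = m ^ 2 ∧ e₁ - e₃ = n ^ 2 ∧ x - e₁ = m * n ∧ x - e₂ = m * (m + n) ∧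
      x - e₃ = n * (m + n) ∧ m ≠ 0 ∧ n ≠ 0 ∧ m + n ≠ 0 := by
  obtain ⟨x, X, r₁, r₂, r₃, c, C, k1, k2, k3, l1, l2, l3, m12, m13, m23⟩ :=
    exists_double h2 hs hP.ne_zero
  obtain ⟨rfl, -⟩ := C.unique hP
  have hr₁ : r₁ = 0 := by
    rw [sub_self] at k1
    exact pow_eq_zero_iff two_ne_zero |>.1 k1.symm
  subst hr₁
  refine ⟨x, r₂, r₃, ?_, k2, k3, ?_, ?_, ?_, ?_, ?_, m23⟩
  · simpa using c
  · rw [l1]; ring
  · rw [l2]; ring
  · rw [l3]; ring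
  · simpa using m12
  · simpa using m13

theorem exists_root_of_two (h2 : (2 : F) ≠ 0) (hs : Splits2 W e₁ e₂ e₃) {T : W.toAffine.Point}
    (h0 : T ≠ 0) (hT : T + T = 0) : Co W T e₁ 0 ∨ Co W T e₂ 0 ∨ Co W T e₃ 0 := by
  obtain ⟨x, η, hc⟩ := exists_co h0
  have hη : η = 0 := (hc.add_self_eq_zero_iff h2).1 hT
  subst hη
  rcases co_of_two h2 hs hc with rfl | rfl | rfl
  · exact Or.inl hc
  · exact Or.inr (Or.inl hc)
  · exact Or.inr (Or.inr hc)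

/-- to exclude something about a point of order two it is enough to treat `(e₁, 0)` -/
theorem two_induction (h2 : (2 : F) ≠ 0) (hs : Splits2 W e₁ e₂ e₃) {T : W.toAffine.Point}
    (h0 : T ≠ 0) (hT : T + T = 0) {p : Prop}
    (h : ∀ f₁ f₂ f₃ : F, Splits2 W f₁ f₂ f₃ → Co W T f₁ 0 → p) : p := by
  rcases exists_root_of_two h2 hs h0 hT with h1 | h1 | h1
  · exact h _ _ _ hs h1
  · exact h _ _ _ (splits_swap₁₂ hs) h1
  · exact h _ _ _ (splits_swap₁₃ hs) h1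

/-- three-torsion: `x(Q) - e_i = r_i²` with `r₁ r₂ + r₁ r₃ + r₂ r₃ = 0` -/
theorem exists_three_coords (h2 : (2 : F) ≠ 0) (hs : Splits2 W e₁ e₂ e₃) {Q : W.toAffine.Point}
    (h0 : Q ≠ 0) (h3 : 3 • Q = 0) : ∃ X r₁ r₂ r₃ : F, Co W Q X (r₁ * r₂ * r₃) ∧
      X - e₁ = r₁ ^ 2 ∧ X - e₂ = r₂ ^ 2 ∧ X - e₃ = r₃ ^ 2 ∧
      r₁ * r₂ + r₁ * r₃ + r₂ * r₃ = 0 ∧
      r₁ + r₂ ≠ 0 ∧ r₁ + r₃ ≠ 0 ∧ r₂ + r₃ ≠ 0 ∧ r₁ ≠ 0 ∧ r₂ ≠ 0 ∧ r₃ ≠ 0 := by
  have hQ : -Q + -Q = Q := by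
    have h4 : 3 • Q = Q + Q + Q := by
      rw [succ_nsmul, two_nsmul]
    rw [h4] at h3
    have : Q = -(Q + Q) := by
      rw [eq_neg_iff_add_eq_zero, add_comm]
      exact h3
    rw [← neg_add]
    exact this.symm
  obtain ⟨x, X, r₁, r₂, r₃, c, C, k1, k2, k3, l1, l2, l3, m12, m13, m23⟩ :=
    exists_double h2 hs (P := -Q) (by rw [hQ]; exact h0)
  rw [hQ] at C
  obtain ⟨hx, -⟩ := c.unique (C.neg h2)
  have hsum : r₁ * r₂ + r₁ * r₃ + r₂ * r₃ = 0 := by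
    have : (r₁ + r₂) * (r₁ + r₃) = r₁ ^ 2 := by rw [← l1, ← k1, hx]
    linear_combination this
  refine ⟨X, r₁, r₂, r₃, C, k1, k2, k3, hsum, m12, m13, m23, ?_, ?_, ?_⟩
  · rintro rfl
    have : r₂ * r₃ = 0 := by linear_combination hsum
    rcases mul_eq_zero.1 this with rfl | rfl
    · exact m12 (add_zero 0)
    · exact m13 (add_zero 0)
  · rintro rfl
    have : r₁ * r₃ = 0 := by linear_combination hsum
    rcases mul_eq_zero.1 this with rfl | rfl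
    · exact m12 (add_zero 0)
    · exact m23 (add_zero 0)
  · rintro rfl
    have : r₁ * r₂ = 0 := by linear_combination hsum
    rcases mul_eq_zero.1 this with rfl | rfl
    · exact m13 (add_zero 0)
    · exact m23 (add_zero 0)

end general

variable {W : WeierstrassCurve ℚ} {e₁ e₂ e₃ : ℚ}

/-- **Not all points of order two are divisible by two** -/
theorem exists_not_double (hΔ : W.Δ ≠ 0) (hs : Splits2 W e₁ e₂ e₃) :
    ∃ T : W.toAffine.Point, T + T = 0 ∧ ∀ S, S + S ≠ T := by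
  obtain ⟨T₁, h₁⟩ := exists_root_point₁ two_ne_zero hΔ hs
  obtain ⟨T₂, h₂⟩ := exists_root_point₁ two_ne_zero hΔ (splits_swap₁₂ hs)
  by_contra hcon
  push Not at hcon
  obtain ⟨S₁, rfl⟩ := hcon T₁ ((h₁.add_self_eq_zero_iff two_ne_zero).2 rfl)
  obtain ⟨S₂, rfl⟩ := hcon T₂ ((h₂.add_self_eq_zero_iff two_ne_zero).2 rfl)
  obtain ⟨-, m, -, -, k1, -, -, -, -, hm, -⟩ := exists_quarter two_ne_zero hs h₁
  obtain ⟨-, m', -, -, k1', -⟩ := exists_quarter two_ne_zero (splits_swap₁₂ hs) h₂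
  have : m ^ 2 + m' ^ 2 = 0 := by rw [← k1, ← k1']; ring
  have h5 : 0 < m ^ 2 := by positivity
  have h6 : 0 ≤ m' ^ 2 := sq_nonneg _
  linarith

/-- a point of order 16 with `8 P = (e₁, 0)` -/
theorem no_sixteen (hs : Splits2 W e₁ e₂ e₃) {P : W.toAffine.Point}
    (h : Co W ((P + P + (P + P)) + (P + P + (P + P))) e₁ 0) : False := by
  obtain ⟨x₄, m, n, c₄, a1, a2, b1, b2, b3, hm, hn, hmn⟩ := exists_quarter two_ne_zero hs h
  obtain ⟨x₂, X₄, u₁, u₂, u₃, c₂, C₄, p1, p2, p3, q1, q2, q3, u12, u13, u23⟩ :=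
    exists_double two_ne_zero hs c₄.ne_zero
  obtain ⟨rfl, hη⟩ := C₄.unique c₄
  obtain ⟨x₁, X₂, v₁, v₂, v₃, c₁, C₂, s1, s2, s3, t1, t2, t3, v12, v13, v23⟩ :=
    exists_double two_ne_zero hs c₂.ne_zero
  obtain ⟨rfl, -⟩ := C₂.unique c₂
  rw [b1] at p1
  rw [b2] at p2
  rw [b3] at p3
  rw [q1] at s1
  have hu₁ : u₁ ≠ 0 := by
    rintro rfl
    have : m * n = 0 := by rw [p1]; ring
    exact mul_ne_zero hm hn this
  have hu₂ : u₂ ≠ 0 := by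
    rintro rfl
    have : m * (m + n) = 0 := by rw [p2]; ring
    exact mul_ne_zero hm hmn this
  have hmu : m * u₃ = u₁ * u₂ := by
    refine mul_left_cancel₀ (mul_ne_zero hn hu₂) ?_
    have : u₂ * (u₁ * u₃) = u₂ * (n * u₂) := by
      linear_combination hη + n * p2
    have h2 : u₁ * u₃ = n * u₂ := mul_left_cancel₀ hu₂ this
    linear_combination u₂ * u₁ * h2 + u₂ * u₃ * p1
  have hpyth : m ^ 2 + u₁ ^ 2 = u₂ ^ 2 := by
    rw [← p1, ← p2]; ring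
  have hD : 2 * ((u₁ + u₂) * (m + u₂)) = (m + u₁ + u₂) ^ 2 := by
    linear_combination -hpyth
  have hmu₂ : m + u₂ ≠ 0 := by
    intro h0
    have : u₂ = -m := by linear_combination h0
    rw [this] at hpyth
    have : u₁ ^ 2 = 0 := by linear_combination hpyth
    exact hu₁ (pow_eq_zero_iff two_ne_zero |>.1 this)
  have hD0 : m + u₁ + u₂ ≠ 0 := by
    intro h0
    rw [h0] at hD
    have : (u₁ + u₂) * (m + u₂) = 0 := by linarith
    exact mul_ne_zero u12 hmu₂ this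
  refine Ferm.area_ne_sq hm hu₁ hpyth (t := m * v₁ / (m + u₁ + u₂)) ?_
  rw [div_pow, eq_div_iff (pow_ne_zero 2 hD0), ← hD, mul_pow, ← s1]
  linear_combination (-(m * (u₁ + u₂))) * hmu

/-- **No point of order 16.** -/
theorem addOrderOf_ne_sixteen (hs : Splits2 W e₁ e₂ e₃) (P : W.toAffine.Point) :
    addOrderOf P ≠ 16 := by
  intro hP
  have h8 : 8 • P = (P + P + (P + P)) + (P + P + (P + P)) := by
    rw [← two_nsmul, ← two_nsmul, ← two_nsmul, ← mul_nsmul, ← mul_nsmul]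
  have h0 : 8 • P ≠ 0 := by
    intro h0
    have := addOrderOf_dvd_of_nsmul_eq_zero h0
    rw [hP] at this
    norm_num at this
  have h1 : 8 • P + 8 • P = 0 := by
    rw [← two_nsmul, ← mul_nsmul]
    exact addOrderOf_dvd_iff_nsmul_eq_zero.1 (by rw [hP])
  refine two_induction two_ne_zero hs h0 h1 fun f₁ f₂ f₃ hs' hc => ?_
  rw [h8] at hc
  exact no_sixteen hs' hc

theorem sq_ne_three (p : ℚ) : p ^ 2 ≠ 3 := by
  intro h
  have h1 : Irrational (Real.sqrt (3 : ℕ)) := Nat.Prime.irrational_sqrt Nat.prime_three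
  have h2 : ((|p| : ℚ) : ℝ) = Real.sqrt (3 : ℕ) := by
    symm
    rw [Real.sqrt_eq_iff_mul_self_eq (by positivity) (by positivity)]
    have : (|p|) * |p| = 3 := by rw [abs_mul_abs_self, ← sq, h]
    exact_mod_cast this.symm
  exact h1 ⟨_, h2⟩

/-- the algebra of a point of order 12 -/
theorem no_twelve_algebra {m n r₁ r₂ r₃ : ℚ} (hm : m ≠ 0) (hn : n ≠ 0)
    (h : r₁ * r₂ + r₁ * r₃ + r₂ * r₃ = 0) (h23 : r₂ + r₃ ≠ 0) (hr₂ : r₂ ≠ 0) (hr₃ : r₃ ≠ 0)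
    (h1 : r₂ ^ 2 - r₁ ^ 2 = m ^ 2) (h2 : r₃ ^ 2 - r₁ ^ 2 = n ^ 2) : False := by
  have hr₁ : r₁ * (r₂ + r₃) = -(r₂ * r₃) := by linear_combination h
  set g := m * (r₂ + r₃) / r₂ with hg
  set k := n * (r₂ + r₃) / r₃ with hk
  have hg0 : g ≠ 0 := div_ne_zero (mul_ne_zero hm h23) hr₂
  have hk0 : k ≠ 0 := div_ne_zero (mul_ne_zero hn h23) hr₃
  have hg2 : g ^ 2 = r₂ * (r₂ + 2 * r₃) := by
    rw [hg, div_pow, div_eq_iff (pow_ne_zero 2 hr₂), mul_pow, ← h1]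
    linear_combination (-(r₁ * (r₂ + r₃)) + r₂ * r₃) * hr₁
  have hk2 : k ^ 2 = r₃ * (r₃ + 2 * r₂) := by
    rw [hk, div_pow, div_eq_iff (pow_ne_zero 2 hr₃), mul_pow, ← h2]
    linear_combination (-(r₁ * (r₂ + r₃)) + r₂ * r₃) * hr₁
  set p := k / r₃ with hp
  set w := 2 * g / r₃ with hw
  have hp0 : p ≠ 0 := div_ne_zero hk0 hr₃
  have hw0 : w ≠ 0 := div_ne_zero (mul_ne_zero two_ne_zero hg0) hr₃
  have hp2 : p ^ 2 = 1 + 2 * (r₂ / r₃) := by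
    rw [hp, div_pow, hk2]
    field_simp
  have hw2 : w ^ 2 = (p ^ 2 - 1) * (p ^ 2 + 3) := by
    rw [hw, div_pow, mul_pow, hg2, hp2]
    field_simp
    ring
  have hq : w ^ 4 - w ^ 2 * (2 * p) ^ 2 + (2 * p) ^ 4 = (p ^ 4 + 3) ^ 2 := by
    have : w ^ 4 = (w ^ 2) ^ 2 := by ring
    rw [this, hw2]
    ring
  rcases Ferm.euler_quartic hq with h5 | h5
  · exact mul_ne_zero hw0 (mul_ne_zero two_ne_zero hp0) h5
  · have h6 : (p ^ 2 - 3) * (p ^ 2 + 1) = 0 := by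
      rw [hw2] at h5
      linear_combination h5
    rcases mul_eq_zero.1 h6 with h7 | h7
    · exact sq_ne_three p (by linear_combination h7)
    · nlinarith [sq_nonneg p]

/-- **No point of order 12.** -/
theorem addOrderOf_ne_twelve (hs : Splits2 W e₁ e₂ e₃) (P : W.toAffine.Point) :
    addOrderOf P ≠ 12 := by
  intro hP
  have key : ∀ k : ℕ, k • P = 0 → 12 ∣ k := fun k hk => by
    rw [← hP]
    exact addOrderOf_dvd_of_nsmul_eq_zero hk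
  have h6 : 6 • P ≠ 0 := fun h0 => absurd (key 6 h0) (by norm_num)
  have h12 : 6 • P + 6 • P = 0 := by
    rw [← two_nsmul, ← mul_nsmul]
    exact addOrderOf_dvd_iff_nsmul_eq_zero.1 (by rw [hP])
  have h4 : 4 • P ≠ 0 := fun h0 => absurd (key 4 h0) (by norm_num)
  have h34 : 3 • (4 • P) = 0 := by
    rw [← mul_nsmul]
    exact addOrderOf_dvd_iff_nsmul_eq_zero.1 (by rw [hP])
  refine two_induction two_ne_zero hs h6 h12 fun f₁ f₂ f₃ hs' hc => ?_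
  have h63 : 6 • P = 3 • P + 3 • P := by rw [← add_nsmul]
  rw [h63] at hc
  obtain ⟨x, m, n, -, k1, k2, -, -, -, hm, hn, -⟩ := exists_quarter two_ne_zero hs' hc
  obtain ⟨X, r₁, r₂, r₃, -, l1, l2, l3, hr, -, -, h23, -, hr₂, hr₃⟩ :=
    exists_three_coords two_ne_zero hs' h4 h34
  exact no_twelve_algebra hm hn hr h23 hr₂ hr₃ (by rw [← l1, ← l2, ← k1]; ring)
    (by rw [← l1, ← l3, ← k2]; ring)

end Fermat.Agent.Cor.MT
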