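import Fermat.Agent.Corollaries.MT.Sharp
import Fermat.Agent.Corollaries.LN.Count

/-!
# Mazur's theorem for elliptic curves with good reduction at `2`, `3` or `5`

`W` is a Weierstrass equation over `ℤ` and `q` a prime which does not divide its discriminant.

* `card_torsion_le_of_good` : `W(ℚ)_tors` has at most `2 q + 1` elements (`q` odd), at most `10` if `q = 2`;
* `mazur_of_good` : if the discriminant is prime to `2`, to `3` or to `5`, then `W(ℚ)_tors` is one of
  Mazur's fifteen groups, without exception;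
* `mazur_of_good_seven` : if `7` does not divide the discriminant, then `W(ℚ)_tors` is one of the
  fifteen groups, or `W(ℚ)` has a point of order `13`.
-/

set_option autoImplicit false

open WeierstrassCurve WeierstrassCurve.Affine
open Fermat.Agent.ECRed Fermat.Agent.Cor.LN

namespace Fermat.Agent.Cor.MT

theorem abs_quadraticChar_le {F : Type*} [Field F] [Fintype F] [DecidableEq F] (a : F) :
    |quadraticChar F a| ≤ 1 := by
  by_cases ha : a = 0
  · rw [ha, MulChar.map_zero]; norm_num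
  · rcases quadraticChar_dichotomy ha with h | h <;> rw [h] <;> norm_num

/-- At most `2 q + 1` rational torsion points, `q` odd with good reduction. -/
theorem card_torsion_le_of_good {W : WeierstrassCurve ℤ} {q : ℕ} [hq : Fact q.Prime] (hq2 : q ≠ 2)
    (h : ¬ (q : ℤ) ∣ W.Δ) : Nat.card (AddCommGroup.torsion (EQQ W).Point) ≤ 2 * q + 1 := by
  have hF : ringChar (ZMod q) ≠ 2 := by
    rwa [ZMod.ringChar_zmod_n]
  have hΔ : (W.reductionMod q).Δ ≠ 0 := EF_Δ_ne_zero h
  have h1 := card_torsion_dvd_apOfModel (W := W) hq2 h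
  have h2 : |W.apOfModel q| ≤ q := by
    rw [WeierstrassCurve.apOfModel, Twist.trace_eq _ hF hΔ, abs_neg]
    refine (Finset.abs_sum_le_sum_abs _ _).trans ?_
    refine (Finset.sum_le_sum fun x _ => abs_quadraticChar_le _).trans ?_
    simp [ZMod.card]
  have h3 := abs_le.mp h2
  have h4 : (0 : ℤ) < q + 1 - W.apOfModel q := by linarith [h3.2]
  have h5 := Int.le_of_dvd h4 h1
  have h6 : (Nat.card (AddCommGroup.torsion (EQQ W).Point) : ℤ) ≤ 2 * q + 1 := by linarith [h3.1]
  exact_mod_cast h6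

/-- At most five points over the field with two elements. -/
theorem card_two_le (W : WeierstrassCurve ℤ) : Nat.card (EF 2 W).Point ≤ 5 := by
  let f : (EF 2 W).Point → Option (ZMod 2 × ZMod 2) := fun P => match P with
    | .zero => none
    | .some x y _ => some (x, y)
  have hf : Function.Injective f := by
    rintro (_ | ⟨x, y, hP⟩) (_ | ⟨x', y', hQ⟩) hPQ
    · rfl
    · simp [f] at hPQ
    · simp [f] at hPQ
    · simp only [f, Option.some.injEq, Prod.mk.injEq] at hPQ
      obtain ⟨rfl, rfl⟩ := hPQ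
      rfl
  have h1 := Nat.card_le_card_of_injective f hf
  have h2 : Nat.card (Option (ZMod 2 × ZMod 2)) = 5 := by
    rw [Nat.card_eq_fintype_card]; rfl
  omega

theorem card_torsion_le_ten {W : WeierstrassCurve ℤ} (h : ¬ ((2 : ℕ) : ℤ) ∣ W.Δ) :
    Nat.card (AddCommGroup.torsion (EQQ W).Point) ≤ 10 := by
  have h1 := card_torsion_dvd_two (W := W) h
  have h2 := card_two_le W
  have : Nonempty (EF 2 W).Point := ⟨0⟩
  have : Fact (Nat.Prime 2) := ⟨Nat.prime_two⟩
  have : Finite (EF 2 W).Point := by infer_instance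
  have h3 : 0 < Nat.card (EF 2 W).Point := Nat.card_pos
  have h4 := Nat.le_of_dvd (by omega) h1
  omega

theorem isElliptic_of_good {W : WeierstrassCurve ℤ} {q : ℕ} (h : ¬ (q : ℤ) ∣ W.Δ) :
    (W.map (Int.castRingHom ℚ)).IsElliptic := by
  have h0 : W.Δ ≠ 0 := fun h0 => h (by rw [h0]; exact dvd_zero _)
  refine ⟨?_⟩
  rw [WeierstrassCurve.map_Δ, isUnit_iff_ne_zero]
  simpa using h0

/-- a point of finite order `d` gives at least `d` torsion points -/
theorem le_card_of_addOrderOf {W : WeierstrassCurve ℤ} (hΔ : W.Δ ≠ 0) {P : (EQQ W).Point} {d : ℕ}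
    (hd : d ≠ 0) (hP : addOrderOf P = d) : d ≤ Nat.card (AddCommGroup.torsion (EQQ W).Point) := by
  have hfin := LN.finite_torsion hΔ
  have hmem : P ∈ AddCommGroup.torsion (EQQ W).Point :=
    addOrderOf_pos_iff.mp (by rw [hP]; omega)
  have h1 : addOrderOf (⟨P, hmem⟩ : AddCommGroup.torsion (EQQ W).Point) = d := by
    rw [← hP, ← AddSubgroup.addOrderOf_mk P hmem]
  rw [← h1]
  exact addOrderOf_le_card

/-- **Mazur's theorem for elliptic curves over `ℚ` with good reduction at `2`, `3` or `5`.** -/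
theorem mazur_of_good {W : WeierstrassCurve ℤ} {q : ℕ} (hq : q = 2 ∨ q = 3 ∨ q = 5)
    (h : ¬ (q : ℤ) ∣ W.Δ) :
    (∃ n ∈ ({1, 2, 3, 4, 5, 6, 7, 8, 9, 10, 12} : Set ℕ),
      Nonempty (AddCommGroup.torsion (EQQ W).Point ≃+ ZMod n)) ∨
    ∃ m ∈ ({1, 2, 3, 4} : Set ℕ),
      Nonempty (AddCommGroup.torsion (EQQ W).Point ≃+ ZMod 2 × ZMod (2 * m)) := by
  have hE := isElliptic_of_good h
  have h0 : W.Δ ≠ 0 := fun h0 => h (by rw [h0]; exact dvd_zero _)
  have hc : Nat.card (AddCommGroup.torsion (EQQ W).Point) ≤ 11 := by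
    rcases hq with rfl | rfl | rfl
    · exact (card_torsion_le_ten h).trans (by norm_num)
    · have : Fact (Nat.Prime 3) := ⟨Nat.prime_three⟩
      exact (card_torsion_le_of_good (by norm_num) h).trans (by norm_num)
    · have : Fact (Nat.Prime 5) := ⟨Nat.prime_five⟩
      exact (card_torsion_le_of_good (by norm_num) h)
  rcases mazur_sharp (W.map (Int.castRingHom ℚ)) with h1 | h1 | ⟨d, hd, P, hP⟩
  · exact Or.inl h1
  · exact Or.inr h1
  · exfalso
    have hd13 : 13 ≤ d := by
      rcases hd with rfl | rfl | rfl | rfl <;> norm_num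
    have := le_card_of_addOrderOf h0 (by omega) hP
    omega

/-- **Mazur's theorem for elliptic curves over `ℚ` with good reduction at `7`**, up to the order
`13`. -/
theorem mazur_of_good_seven {W : WeierstrassCurve ℤ} (h : ¬ ((7 : ℕ) : ℤ) ∣ W.Δ) :
    (∃ n ∈ ({1, 2, 3, 4, 5, 6, 7, 8, 9, 10, 12} : Set ℕ),
      Nonempty (AddCommGroup.torsion (EQQ W).Point ≃+ ZMod n)) ∨
    (∃ m ∈ ({1, 2, 3, 4} : Set ℕ),
      Nonempty (AddCommGroup.torsion (EQQ W).Point ≃+ ZMod 2 × ZMod (2 * m))) ∨
    ∃ P : (EQQ W).Point, addOrderOf P = 13 := by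
  have hE := isElliptic_of_good h
  have h0 : W.Δ ≠ 0 := fun h0 => h (by rw [h0]; exact dvd_zero _)
  have : Fact (Nat.Prime 7) := ⟨by norm_num⟩
  have hc : Nat.card (AddCommGroup.torsion (EQQ W).Point) ≤ 15 :=
    (card_torsion_le_of_good (by norm_num) h).trans (by norm_num)
  rcases mazur_sharp (W.map (Int.castRingHom ℚ)) with h1 | h1 | ⟨d, hd, P, hP⟩
  · exact Or.inl h1
  · exact Or.inr (Or.inl h1)
  · right; right
    have hle := le_card_of_addOrderOf h0 (d := d) (by rcases hd with rfl | rfl | rfl | rfl <;> norm_num) hP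
    rcases hd with rfl | rfl | rfl | rfl
    · exact ⟨P, hP⟩
    all_goals omega

end Fermat.Agent.Cor.MT
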