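import Mathlib.GroupTheory.SpecificGroups.Cyclic
import Mathlib.GroupTheory.Coset.Card
import Mathlib.GroupTheory.QuotientGroup.Basic
import Mathlib.Data.Nat.Factorization.Basic
import Mathlib.Tactic

set_option autoImplicit false

/-!
# Finite commutative groups with small torsion

`G` is a finite commutative group.

* `isAddCyclic_of_card_torsion_le`: if `G[p]` has at most `p` elements for every prime `p`, then
  `G` is cyclic;
* `exists_equiv_prod`: if `t ∈ G` has order two, is not of the form `2 s`, `G[2]` has four elements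
  and `G[p]` has at most `p` elements for every odd prime `p`, then `G ≃ ZMod 2 × ZMod n` with `n`
  even;
* `grp_full`, `grp_cyclic`: the group theory in Mazur's theorem for the curves with `4 ∣ #E(ℚ)_tors`.
-/

namespace Fermat.Agent.Cor.MT

section

variable {G : Type*} [AddCommGroup G] [Finite G]

/-- `#G[m n] ≤ #G[m] #G[n]`. -/
theorem card_torsion_mul_le (m n : ℕ) :
    Nat.card {g : G // (m * n) • g = 0} ≤
      Nat.card {g : G // m • g = 0} * Nat.card {g : G // n • g = 0} := by
  classical
  -- choose a preimage under multiplication by `m` for each value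
  let f : {g : G // (m * n) • g = 0} → {g : G // n • g = 0} := fun g =>
    ⟨m • g.1, by rw [← mul_nsmul', mul_comm n m]; exact g.2⟩
  let s : {g : G // n • g = 0} → G := fun y =>
    if h : ∃ g : {g : G // (m * n) • g = 0}, f g = y then h.choose.1 else 0
  have hs : ∀ g : {g : G // (m * n) • g = 0}, m • s (f g) = m • g.1 := by
    intro g
    have h : ∃ g' : {g : G // (m * n) • g = 0}, f g' = f g := ⟨g, rfl⟩
    simp only [s, dif_pos h]
    exact congrArg Subtype.val h.choose_spec
  rw [← Nat.card_prod]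
  refine Nat.card_le_card_of_injective
    (fun g => (⟨g.1 - s (f g), by rw [nsmul_sub, hs, sub_self]⟩, f g)) ?_
  intro g g' h
  simp only [Prod.mk.injEq, Subtype.mk.injEq] at h
  obtain ⟨h1, h2⟩ := h
  rw [h2] at h1
  exact Subtype.ext (sub_left_injective h1)

/-- A finite commutative group `G` such that `G[p]` has at most `p` elements for every prime `p` is
cyclic. -/
theorem isAddCyclic_of_card_torsion_le
    (h : ∀ p : ℕ, p.Prime → Nat.card {g : G // p • g = 0} ≤ p) : IsAddCyclic G := by
  classical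
  have := Fintype.ofFinite G
  have key : ∀ n : ℕ, n ≠ 0 → Nat.card {g : G // n • g = 0} ≤ n := by
    intro n
    induction n using Nat.recOnMul with
    | zero => intro h; exact absurd rfl h
    | one =>
      intro _
      have : Subsingleton {g : G // 1 • g = 0} :=
        ⟨fun a b => Subtype.ext (by rw [← one_nsmul a.1, a.2, ← one_nsmul b.1, b.2])⟩
      exact Finite.card_le_one_iff_subsingleton.2 this
    | prime p hp => intro _; exact h p hp
    | mul a b ha hb =>
      intro hab
      have ha0 : a ≠ 0 := left_ne_zero_of_mul hab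
      have hb0 : b ≠ 0 := right_ne_zero_of_mul hab
      exact (card_torsion_mul_le a b).trans (Nat.mul_le_mul (ha ha0) (hb hb0))
  refine isAddCyclic_of_card_nsmul_eq_zero_le fun n hn => ?_
  have := key n hn.ne'
  rwa [Nat.card_eq_fintype_card, Fintype.card_subtype] at this

/-- If `t` has order two and is not of the form `2 s`, `G[2]` has four elements and `G[p]` has at
most `p` elements for every odd prime `p`, then `G ≃ ZMod 2 × ZMod n` with `n` even. -/
theorem exists_equiv_prod {t : G} (ht2 : 2 • t = 0) (ht : ∀ s : G, 2 • s ≠ t)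
    (h4 : Nat.card {g : G // 2 • g = 0} = 4)
    (hodd : ∀ p : ℕ, p.Prime → p ≠ 2 → Nat.card {g : G // p • g = 0} ≤ p) :
    ∃ (n : ℕ) (g : G), n ≠ 0 ∧ Even n ∧ addOrderOf g = n ∧
      Nonempty (G ≃+ ZMod 2 × ZMod n) := by
  classical
  have ht0 : t ≠ 0 := fun h => ht 0 (by rw [smul_zero, h])
  have hmem : ∀ x : G, x ∈ AddSubgroup.zmultiples t ↔ x = 0 ∨ x = t := by
    intro x
    rw [AddSubgroup.mem_zmultiples_iff]
    constructor
    · rintro ⟨k, rfl⟩
      have h2 : (2 : ℤ) • t = 0 := by exact_mod_cast ht2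
      rcases Int.even_or_odd' k with ⟨m, rfl | rfl⟩
      · left; rw [mul_comm, mul_smul, h2, smul_zero]
      · right; rw [add_smul, mul_comm, mul_smul, h2, smul_zero, zero_add, one_smul]
    · rintro (rfl | rfl)
      · exact ⟨0, zero_smul _ _⟩
      · exact ⟨1, one_smul _ _⟩
  let H := G ⧸ AddSubgroup.zmultiples t
  let π : G →+ H := QuotientAddGroup.mk' (AddSubgroup.zmultiples t)
  have hπ : Function.Surjective π := QuotientAddGroup.mk'_surjective _
  have hker : ∀ x : G, π x = 0 ↔ x = 0 ∨ x = t := by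
    intro x
    rw [← hmem, ← AddMonoidHom.mem_ker, QuotientAddGroup.ker_mk']
  have hπt : π t = 0 := (hker t).2 (Or.inr rfl)
  have : Finite H := Finite.of_surjective π hπ
  have hcyc : IsAddCyclic H := by
    refine isAddCyclic_of_card_torsion_le fun p hp => ?_
    rcases eq_or_ne p 2 with rfl | hp2
    · have hl : ∀ h : {h : H // 2 • h = 0}, ∃ g : G, π g = h.1 ∧ 2 • g = 0 := by
        rintro ⟨h, hh⟩
        obtain ⟨g, rfl⟩ := hπ h
        refine ⟨g, rfl, ?_⟩
        rw [← map_nsmul] at hh
        rcases (hker _).1 hh with h0 | h0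
        · exact h0
        · exact absurd h0 (ht g)
      choose l hl hl2 using hl
      have hinj : Function.Injective
          (fun x : {h : H // 2 • h = 0} × Bool =>
            (⟨l x.1 + if x.2 then t else 0, by
              split_ifs
              · rw [nsmul_add, hl2, ht2, add_zero]
              · rw [add_zero, hl2]⟩ : {g : G // 2 • g = 0})) := by
        rintro ⟨h, a⟩ ⟨h', a'⟩ heq
        simp only [Subtype.mk.injEq] at heq
        have h1 : h = h' := by
          have := congrArg π heq
          rw [map_add, map_add, hl, hl] at this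
          have e : ∀ b : Bool, π (if b = true then t else 0) = 0 := by
            intro b; split_ifs
            · exact hπt
            · exact map_zero π
          rw [e, e, add_zero, add_zero] at this
          exact Subtype.ext this
        subst h1
        have h2 := add_left_cancel heq
        have h3 : a = a' := by
          cases a <;> cases a' <;> simp_all
        rw [h3]
      have := Nat.card_le_card_of_injective _ hinj
      rw [Nat.card_prod, h4, Nat.card_eq_fintype_card (α := Bool), Fintype.card_bool] at this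
      omega
    · have hl : ∀ h : {h : H // p • h = 0}, ∃ g : G, π g = h.1 ∧ p • g = 0 := by
        rintro ⟨h, hh⟩
        obtain ⟨g, rfl⟩ := hπ h
        rw [← map_nsmul] at hh
        rcases (hker _).1 hh with h0 | h0
        · exact ⟨g, rfl, h0⟩
        · refine ⟨g - t, by rw [map_sub, hπt, sub_zero], ?_⟩
          obtain ⟨m, hm⟩ := hp.odd_of_ne_two hp2
          have : p • t = t := by
            rw [hm, add_smul, mul_comm, mul_smul, ht2, smul_zero, zero_add, one_smul]
          rw [nsmul_sub, h0, this, sub_self]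
      choose l hl hl2 using hl
      refine le_trans (Nat.card_le_card_of_injective (fun x => (⟨l x, hl2 x⟩ :
        {g : G // p • g = 0})) fun x y h => ?_) (hodd p hp hp2)
      simp only [Subtype.mk.injEq] at h
      exact Subtype.ext (by rw [← hl, ← hl, h])
  obtain ⟨h, hh⟩ := IsAddCyclic.exists_ofOrder_eq_natCard (α := H)
  obtain ⟨g, hg⟩ := hπ h
  have hN0 : Nat.card H ≠ 0 := Nat.card_pos.ne'
  -- `#H` is even
  have heven : Even (Nat.card H) := by
    obtain ⟨u, hu⟩ : ∃ u : {g : G // 2 • g = 0}, u.1 ≠ 0 ∧ u.1 ≠ t := by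
      by_contra hcon
      push Not at hcon
      have hinj : Function.Injective (fun u : {g : G // 2 • g = 0} => decide (u.1 = 0)) := by
        intro u v huv
        simp only [decide_eq_decide] at huv
        by_cases hu : u.1 = 0
        · exact Subtype.ext (hu.trans (huv.1 hu).symm)
        · have hv : v.1 ≠ 0 := fun h => hu (huv.2 h)
          exact Subtype.ext ((hcon u hu).trans (hcon v hv).symm)
      have := Nat.card_le_card_of_injective _ hinj
      rw [h4, Nat.card_eq_fintype_card, Fintype.card_bool] at this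
      omega
    have h1 : π u.1 ≠ 0 := fun h => by
      rcases (hker _).1 h with h | h
      · exact hu.1 h
      · exact hu.2 h
    have h2 : addOrderOf (π u.1) = 2 :=
      addOrderOf_eq_prime (by rw [← map_nsmul, u.2, map_zero]) h1
    exact even_iff_two_dvd.2 (h2 ▸ addOrderOf_dvd_natCard (π u.1))
  have hNg : Nat.card H • g = 0 := by
    have h1 : π (Nat.card H • g) = 0 := by
      rw [map_nsmul, hg, ← hh, addOrderOf_nsmul_eq_zero]
    rcases (hker _).1 h1 with h2 | h2
    · exact h2
    · obtain ⟨m, hm⟩ := heven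
      exact absurd (by rw [← h2, hm, ← two_mul, mul_smul]) (ht (m • g))
  refine ⟨Nat.card H, g, hN0, heven, Nat.dvd_antisymm (addOrderOf_dvd_of_nsmul_eq_zero hNg) ?_,
    ?_⟩
  · rw [← hh, ← hg]
    exact addOrderOf_map_dvd π g
  let φ : ZMod 2 × ZMod (Nat.card H) →+ G :=
    (ZMod.lift 2 ⟨zmultiplesHom G t, by
      simpa using (by exact_mod_cast ht2 : (2 : ℤ) • t = 0)⟩).coprod
      (ZMod.lift (Nat.card H) ⟨zmultiplesHom G g, by simpa using hNg⟩)
  have hφ : ∀ a b : ℤ, φ ((a : ZMod 2), (b : ZMod (Nat.card H))) = a • t + b • g := by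
    intro a b
    simp [φ]
  refine ⟨(AddEquiv.ofBijective φ ⟨?_, ?_⟩).symm⟩
  · rw [injective_iff_map_eq_zero]
    rintro ⟨a, b⟩ hab
    obtain ⟨a, rfl⟩ := ZMod.intCast_surjective a
    obtain ⟨b, rfl⟩ := ZMod.intCast_surjective b
    rw [hφ] at hab
    have h1 : b • h = 0 := by
      have := congrArg π hab
      rwa [map_add, map_zsmul, map_zsmul, hπt, smul_zero, zero_add, map_zero, hg] at this
    have h2 : ((Nat.card H : ℕ) : ℤ) ∣ b := by
      rw [← hh]; exact addOrderOf_dvd_iff_zsmul_eq_zero.2 h1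
    have h3 : b • g = 0 := by
      obtain ⟨c, rfl⟩ := h2
      rw [mul_comm, mul_smul, natCast_zsmul, hNg, smul_zero]
    rw [h3, add_zero] at hab
    have h4 : ((2 : ℕ) : ℤ) ∣ a := by
      rw [← addOrderOf_eq_prime ht2 ht0]
      exact addOrderOf_dvd_iff_zsmul_eq_zero.2 hab
    rw [(ZMod.intCast_zmod_eq_zero_iff_dvd a 2).2 h4,
      (ZMod.intCast_zmod_eq_zero_iff_dvd b _).2 h2]
    rfl
  · intro x
    obtain ⟨k, hk⟩ : ∃ k : ℤ, k • h = π x := by
      have h1 : AddSubgroup.zmultiples h = ⊤ := by
        rw [← AddSubgroup.card_eq_iff_eq_top, Nat.card_zmultiples, hh]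
      have h2 : π x ∈ AddSubgroup.zmultiples h := by rw [h1]; exact AddSubgroup.mem_top _
      exact AddSubgroup.mem_zmultiples_iff.1 h2
    have h1 : π (x - k • g) = 0 := by rw [map_sub, map_zsmul, hg, hk, sub_self]
    rcases (hker _).1 h1 with h2 | h2
    · exact ⟨(((0 : ℤ) : ZMod 2), (k : ZMod (Nat.card H))), by
        rw [hφ, zero_smul, zero_add]; exact (sub_eq_zero.1 h2).symm⟩
    · exact ⟨(((1 : ℤ) : ZMod 2), (k : ZMod (Nat.card H))), by
        rw [hφ, one_smul, ← h2, sub_add_cancel]⟩

/-- If `G[3]` is cyclic, it has at most three elements. -/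
theorem card_three_torsion_le
    (h3 : ∀ g g' : G, 3 • g = 0 → 3 • g' = 0 → g ≠ 0 → ∃ k : ℤ, g' = k • g) :
    Nat.card {g : G // 3 • g = 0} ≤ 3 := by
  classical
  by_cases h : ∃ g : G, 3 • g = 0 ∧ g ≠ 0
  · obtain ⟨g, hg, hg0⟩ := h
    have ho : addOrderOf g = 3 :=
      haveI : Fact (Nat.Prime 3) := ⟨by norm_num⟩
      addOrderOf_eq_prime hg hg0
    have e : Nat.card (AddSubgroup.zmultiples g) = 3 := by rw [Nat.card_zmultiples, ho]
    refine le_of_le_of_eq (Nat.card_le_card_of_injective
      (fun x => (⟨x.1, ?_⟩ : AddSubgroup.zmultiples g)) fun x y hxy => ?_) e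
    · obtain ⟨k, hk⟩ := h3 g x.1 hg x.2 hg0
      exact AddSubgroup.mem_zmultiples_iff.2 ⟨k, hk.symm⟩
    · simp only [Subtype.mk.injEq] at hxy
      exact Subtype.ext hxy
  · push Not at h
    have : Subsingleton {g : G // 3 • g = 0} :=
      ⟨fun a b => Subtype.ext ((h a.1 a.2).trans (h b.1 b.2).symm)⟩
    exact (Finite.card_le_one_iff_subsingleton.2 this).trans (by norm_num)

/-- If no element of `G` has order `p`, then `G[p] = 0`. -/
theorem card_torsion_le_of_ne {p : ℕ} (hp : p.Prime) (h : ∀ g : G, addOrderOf g ≠ p) :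
    Nat.card {g : G // p • g = 0} ≤ p := by
  have : Fact p.Prime := ⟨hp⟩
  have : Subsingleton {g : G // p • g = 0} := by
    refine ⟨fun a b => Subtype.ext ?_⟩
    have e : ∀ x : {g : G // p • g = 0}, x.1 = 0 := fun x => by
      by_contra hx
      exact h x.1 (addOrderOf_eq_prime x.2 hx)
    rw [e a, e b]
  exact (Finite.card_le_one_iff_subsingleton.2 this).trans hp.one_lt.le

end

/-- A number without prime divisors `≥ 5`, not divisible by `9` and `16`, divides `24`. -/
theorem dvd_of_no_prime {n : ℕ} (hn : n ≠ 0) (hp : ∀ p : ℕ, p.Prime → 5 ≤ p → ¬ p ∣ n)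
    (h9 : ¬ 9 ∣ n) (h16 : ¬ 16 ∣ n) : n ∣ 24 := by
  have h2 : n.factorization 2 ≤ 3 := by
    by_contra h
    exact h16 ((pow_dvd_pow 2 (by omega : 4 ≤ n.factorization 2)).trans
      (Nat.ordProj_dvd n 2))
  have h3 : n.factorization 3 ≤ 1 := by
    by_contra h
    exact h9 ((pow_dvd_pow 3 (by omega : 2 ≤ n.factorization 3)).trans
      (Nat.ordProj_dvd n 3))
  rw [← Nat.factorization_le_iff_dvd hn (by norm_num)]
  intro p
  by_cases hpp : p.Prime
  · rcases lt_or_ge p 5 with h | h
    · have e : (24 : ℕ).factorization = (2 ^ 3 * 3 ^ 1 : ℕ).factorization := by norm_num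
      rw [e, Nat.factorization_mul (by norm_num) (by norm_num),
        Nat.Prime.factorization_pow Nat.prime_two, Nat.Prime.factorization_pow Nat.prime_three]
      interval_cases p
      · exact absurd hpp (by norm_num)
      · exact absurd hpp (by norm_num)
      · simpa using h2
      · simpa using h3
      · exact absurd hpp (by norm_num)
    · rw [Nat.factorization_eq_zero_of_not_dvd (hp p hpp h)]
      exact Nat.zero_le _
  · rw [Nat.factorization_eq_zero_of_not_prime n hpp]
    exact Nat.zero_le _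

section

variable {G : Type*} [AddCommGroup G] [Finite G]

/-- **The case of full 2-torsion.** -/
theorem grp_full (h4 : Nat.card {g : G // 2 • g = 0} = 4)
    (ht : ∃ t : G, 2 • t = 0 ∧ ∀ s : G, 2 • s ≠ t)
    (h9 : ∀ g : G, addOrderOf g ≠ 9) (h12 : ∀ g : G, addOrderOf g ≠ 12)
    (h16 : ∀ g : G, addOrderOf g ≠ 16)
    (hp : ∀ p : ℕ, p.Prime → 5 ≤ p → ∀ g : G, addOrderOf g ≠ p)
    (h3 : ∀ g g' : G, 3 • g = 0 → 3 • g' = 0 → g ≠ 0 → ∃ k : ℤ, g' = k • g) :
    ∃ m ∈ ({1, 2, 3, 4} : Set ℕ), Nonempty (G ≃+ ZMod 2 × ZMod (2 * m)) := by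
  obtain ⟨t, ht2, ht⟩ := ht
  obtain ⟨n, g, hn, ⟨m, rfl⟩, hg, ⟨e⟩⟩ := exists_equiv_prod ht2 ht h4 fun p hpp hp2 => by
    rcases lt_or_ge p 5 with h | h
    · obtain rfl : p = 3 := by
        interval_cases p
        · exact absurd hpp (by norm_num)
        · exact absurd hpp (by norm_num)
        · exact absurd rfl hp2
        · rfl
        · exact absurd hpp (by norm_num)
      exact card_three_torsion_le h3
    · exact card_torsion_le_of_ne hpp (hp p hpp h)
  have hdvd : ∀ d : ℕ, d ∣ m + m → ∃ x : G, addOrderOf x = d := by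
    rintro d ⟨c, hc⟩
    have hc0 : c ≠ 0 := by rintro rfl; exact hn (by simpa using hc)
    refine ⟨c • g, ?_⟩
    rw [addOrderOf_nsmul_of_dvd hc0 (by rw [hg, hc]; exact Dvd.intro_left d rfl), hg, hc]
    exact Nat.mul_div_cancel d (Nat.pos_of_ne_zero hc0)
  have h24 : m + m ∣ 24 := by
    refine dvd_of_no_prime hn (fun p hpp h5 h => ?_) (fun h => ?_) (fun h => ?_)
    · obtain ⟨x, hx⟩ := hdvd p h
      exact hp p hpp h5 x hx
    · obtain ⟨x, hx⟩ := hdvd 9 h
      exact h9 x hx
    · obtain ⟨x, hx⟩ := hdvd 16 h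
      exact h16 x hx
  have h12' : ¬ 12 ∣ m + m := fun h => by
    obtain ⟨x, hx⟩ := hdvd 12 h
    exact h12 x hx
  have hm : m ≤ 12 := by
    have := Nat.le_of_dvd (by norm_num) h24
    omega
  refine ⟨m, ?_, by rw [two_mul]; exact ⟨e⟩⟩
  interval_cases m <;> first | (simp; done) | (exfalso; revert h24 h12'; decide)

/-- **The case of cyclic 2-torsion.** -/
theorem grp_cyclic (h2 : Nat.card {g : G // 2 • g = 0} = 2) (h4 : ∃ g : G, addOrderOf g = 4)
    (h9 : ∀ g : G, addOrderOf g ≠ 9) (h16 : ∀ g : G, addOrderOf g ≠ 16)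
    (h24 : ∀ g : G, addOrderOf g ≠ 24)
    (hp : ∀ p : ℕ, p.Prime → 5 ≤ p → ∀ g : G, addOrderOf g ≠ p)
    (h3 : ∀ g g' : G, 3 • g = 0 → 3 • g' = 0 → g ≠ 0 → ∃ k : ℤ, g' = k • g) :
    ∃ n ∈ ({4, 8, 12} : Set ℕ), Nonempty (G ≃+ ZMod n) := by
  have hcyc : IsAddCyclic G := by
    refine isAddCyclic_of_card_torsion_le fun p hpp => ?_
    rcases lt_or_ge p 5 with h | h
    · interval_cases p
      · exact absurd hpp (by norm_num)
      · exact absurd hpp (by norm_num)
      · exact h2.le
      · exact card_three_torsion_le h3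
      · exact absurd hpp (by norm_num)
    · exact card_torsion_le_of_ne hpp (hp p hpp h)
  obtain ⟨g, hg⟩ := IsAddCyclic.exists_ofOrder_eq_natCard (α := G)
  have hn : Nat.card G ≠ 0 := Nat.card_pos.ne'
  have hdvd : ∀ d : ℕ, d ∣ Nat.card G → ∃ x : G, addOrderOf x = d := by
    rintro d ⟨c, hc⟩
    have hc0 : c ≠ 0 := by rintro rfl; exact hn (by simpa using hc)
    refine ⟨c • g, ?_⟩
    rw [addOrderOf_nsmul_of_dvd hc0 (by rw [hg, hc]; exact Dvd.intro_left d rfl), hg, hc]
    exact Nat.mul_div_cancel d (Nat.pos_of_ne_zero hc0)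
  have hd24 : Nat.card G ∣ 24 := by
    refine dvd_of_no_prime hn (fun p hpp h5 h => ?_) (fun h => ?_) (fun h => ?_)
    · obtain ⟨x, hx⟩ := hdvd p h
      exact hp p hpp h5 x hx
    · obtain ⟨x, hx⟩ := hdvd 9 h
      exact h9 x hx
    · obtain ⟨x, hx⟩ := hdvd 16 h
      exact h16 x hx
  have hd4 : 4 ∣ Nat.card G := by
    obtain ⟨x, hx⟩ := h4
    exact hx ▸ addOrderOf_dvd_natCard x
  have hne : Nat.card G ≠ 24 := fun h => by
    obtain ⟨x, hx⟩ := hdvd 24 (by rw [h])
    exact h24 x hx
  refine ⟨Nat.card G, ?_, ⟨(zmodAddCyclicAddEquiv hcyc).symm⟩⟩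
  generalize Nat.card G = n at *
  have hle : n ≤ 24 := Nat.le_of_dvd (by norm_num) hd24
  interval_cases n <;> first | (simp; done) | (exfalso; revert hd24 hd4 hne; decide)

end

end Fermat.Agent.Cor.MT
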