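import Fermat.Agent.Corollaries.K4.Small.NormalN
import Fermat.Agent.Corollaries.K4.Small.Rat
import Fermat.Agent.Corollaries.Mazur.Split
import Fermat.Agent.Corollaries.Surj.Det

/-!
# Corollaries, MT: the rational `p`-torsion is cyclic for odd `p`

The rational points killed by an odd prime `p` on an elliptic curve over `ℚ` are multiples of one of them: `Gal(ℚ̄/ℚ)`
acts on `E[p] / ⟨P⟩`, `P` rational, through the cyclotomic character.
-/

set_option autoImplicit false

noncomputable section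

open WeierstrassCurve WeierstrassCurve.Affine

namespace Fermat.Agent.Cor.MT

open Fermat.Agent.Cor.K1
open Fermat.Agent.Cor.Mazur (Pt Vt)
open Fermat.Agent.ECFrob (cycMod)

local notation "ℚbar" => AlgebraicClosure ℚ

/-- Two fixed points of `W[p]`, `p` odd: the second is a multiple of the first. -/
theorem exists_nsmul_of_fixed {W : WeierstrassCurve ℤ} (hΔ : W.Δ ≠ 0) {p : ℕ} (hp : p.Prime)
    (hp2 : p ≠ 2) {P Q : Pt W} (hP : p • P = 0) (hQ : p • Q = 0) (hP0 : P ≠ 0)
    (hfP : ∀ σ : Gam, σ • P = P) (hfQ : ∀ σ : Gam, σ • Q = Q) : ∃ k : ℕ, Q = k • P := by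
  have hF : Fact p.Prime := ⟨hp⟩
  have h2 : (2 : ZMod p) ≠ 0 := by
    intro h
    have h1 : ((2 : ℕ) : ZMod p) = 0 := by exact_mod_cast h
    rw [ZMod.natCast_eq_zero_iff] at h1
    have := Nat.le_of_dvd (by norm_num) h1
    have := hp.two_le
    omega
  let P' : Vt W p := ⟨P, by
    rw [Submodule.mem_torsionBy_iff]
    exact_mod_cast hP⟩
  let Q' : Vt W p := ⟨Q, by
    rw [Submodule.mem_torsionBy_iff]
    exact_mod_cast hQ⟩
  have hP' : P' ≠ 0 := fun h => hP0 (congrArg Subtype.val h)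
  obtain ⟨σ, hσ⟩ := exists_cycMod (p := p) (-1)
  have h1 := Mazur.smul_sub_mem_span hΔ hP' (σ := σ) (Subtype.ext (hfP σ)) Q'
  have h3 : σ • Q' = Q' := Subtype.ext (hfQ σ)
  rw [h3, hσ, Submodule.mem_span_singleton] at h1
  obtain ⟨c, hc⟩ := h1
  have h4 : Q' = (2⁻¹ * c : ZMod p) • P' := by
    rw [mul_smul, hc, Units.val_neg, Units.val_one, neg_one_smul, sub_neg_eq_add, ← two_smul (ZMod p),
      smul_smul, inv_mul_cancel₀ h2, one_smul]
  refine ⟨(2⁻¹ * c : ZMod p).val, ?_⟩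
  have h5 : Q' = (2⁻¹ * c : ZMod p).val • P' := by
    conv_lhs => rw [h4, ← ZMod.natCast_zmod_val (2⁻¹ * c : ZMod p)]
    exact Nat.cast_smul_eq_nsmul (ZMod p) _ P'
  exact congrArg Subtype.val h5

/-- The same for an elliptic curve over `ℚ`. -/
theorem exists_nsmul_of_fixed' (E : WeierstrassCurve ℚ) [E.IsElliptic] {p : ℕ} (hp : p.Prime)
    (hp2 : p ≠ 2) {P Q : Pts E} (hP : p • P = 0) (hQ : p • Q = 0) (hP0 : P ≠ 0)
    (hfP : ∀ σ : Gam, σ • P = P) (hfQ : ∀ σ : Gam, σ • Q = Q) : ∃ k : ℕ, Q = k • P := by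
  have hF : Fact p.Prime := ⟨hp⟩
  have h3 : 3 ≤ p := by
    have := hp.two_le
    omega
  obtain ⟨W, e, he, hN⟩ := Small.exists_normal_order E h3 P (addOrderOf_eq_prime hP hP0) hfP
  obtain ⟨k, hk⟩ := exists_nsmul_of_fixed hN.hΔ hp hp2 (P := e P) (Q := e Q)
    (by rw [← map_nsmul, hP, map_zero]) (by rw [← map_nsmul, hQ, map_zero])
    (fun h => hP0 (e.injective (by rw [h, map_zero]))) (fun σ => by rw [← he, hfP])
    (fun σ => by rw [← he, hfQ])
  exact ⟨k, e.injective (by rw [hk, map_nsmul])⟩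

/-- **The rational `p`-torsion is cyclic** for odd primes `p`: if `P ≠ 0` and `Q` are rational points killed by `p`,
then `Q` is a multiple of `P`. -/
theorem exists_zsmul_of_prime (E : WeierstrassCurve ℚ) [E.IsElliptic] {p : ℕ} (hp : p.Prime)
    (hp2 : p ≠ 2) (P Q : E.toAffine.Point) (hP : p • P = 0) (hQ : p • Q = 0) (hP0 : P ≠ 0) :
    ∃ k : ℤ, Q = k • P := by
  have key : ∀ P Q : (E⁄ℚ).Point, p • P = 0 → p • Q = 0 → P ≠ 0 → ∃ k : ℤ, Q = k • P := by
    intro P Q hP hQ hP0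
    have hinj : Function.Injective (Point.baseChange ℚ (AlgebraicClosure ℚ) (W' := E.toAffine)) :=
      Point.map_injective (W' := E) _
    have hP' : p • (Point.baseChange ℚ (AlgebraicClosure ℚ) P : Pts E) = 0 := by
      have h1 := map_nsmul (Point.baseChange ℚ (AlgebraicClosure ℚ) (W' := E.toAffine)) p P
      rw [hP, map_zero] at h1
      exact h1.symm
    have hQ' : p • (Point.baseChange ℚ (AlgebraicClosure ℚ) Q : Pts E) = 0 := by
      have h1 := map_nsmul (Point.baseChange ℚ (AlgebraicClosure ℚ) (W' := E.toAffine)) p Q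
      rw [hQ, map_zero] at h1
      exact h1.symm
    obtain ⟨k, hk⟩ := exists_nsmul_of_fixed' E hp hp2 hP' hQ'
      (fun h => hP0 (hinj (by rw [map_zero]; exact h)))
      (fun σ => smul_baseChange E σ P) (fun σ => smul_baseChange E σ Q)
    refine ⟨(k : ℤ), hinj ?_⟩
    rw [natCast_zsmul, map_nsmul]
    exact hk
  have h1 : ∀ (C : WeierstrassCurve ℚ), C = (E⁄ℚ) → ∀ P Q : C.toAffine.Point,
      p • P = 0 → p • Q = 0 → P ≠ 0 → ∃ k : ℤ, Q = k • P := by
    rintro C rfl P Q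
    exact key P Q
  exact h1 E E.map_id.symm P Q hP hQ hP0

end Fermat.Agent.Cor.MT
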