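import Fermat.Agent.Corollaries.MT.Good
import Fermat.Agent.Corollaries.MT.ThreeCyc
import Fermat.Agent.Corollaries.NOS.Local

/-!
# Rational torsion of elliptic curves with integral `j`-invariant

* `good_of_point` : if `j(E)` is an integer and `E(ℚ)` has a point of order `N ≥ 5` prime to `ℓ`, then
  a minimal equation of `E` has good reduction at `ℓ`;
* `torsion_of_integral_j` : if `j(E)` is an integer, then `E(ℚ)_tors` is cyclic of order at most `6`, or
  `ℤ/2 × ℤ/2`, or `ℤ/2 × ℤ/4` (no exception; in particular for all elliptic curves with complex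
  multiplication).
-/

set_option autoImplicit false

open WeierstrassCurve WeierstrassCurve.Affine
open Fermat.Agent.ECRed Fermat.Agent.Cor.LN Fermat.Agent.Cor.MinModel Fermat.Agent.Cor.NOS
open Fermat.Agent.Cor.K1 (Gam Pts)

namespace Fermat.Agent.Cor.MT

/-- A rational point as a point over `ℚ̄`. -/
theorem exists_pts (E : WeierstrassCurve ℚ) [E.IsElliptic] (P : E.toAffine.Point) :
    ∃ Q : Pts E, addOrderOf Q = addOrderOf P ∧ ∀ σ : Gam, σ • Q = Q := by
  have key : ∀ P : (E⁄ℚ).Point, ∃ Q : Pts E, addOrderOf Q = addOrderOf P ∧ ∀ σ : Gam, σ • Q = Q := by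
    intro P
    have hinj : Function.Injective (Point.baseChange ℚ (AlgebraicClosure ℚ) (W' := E.toAffine)) :=
      Point.map_injective (W' := E) _
    exact ⟨(Point.baseChange ℚ (AlgebraicClosure ℚ) P : Pts E),
      addOrderOf_injective (Point.baseChange ℚ (AlgebraicClosure ℚ) (W' := E.toAffine)) hinj P,
      fun σ => Fermat.Agent.Cor.K1.smul_baseChange E σ P⟩
  have h1 : ∀ (C : WeierstrassCurve ℚ), C = (E⁄ℚ) → ∀ P : C.toAffine.Point,
      ∃ Q : Pts E, addOrderOf Q = addOrderOf P ∧ ∀ σ : Gam, σ • Q = Q := by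
    rintro C rfl P
    exact key P
  exact h1 E E.map_id.symm P

/-- `c₄³ = n Δ` for a model over `ℤ` of a curve with `j`-invariant `n`. -/
theorem c₄_pow_of_integral {E : WeierstrassCurve ℚ} [E.IsElliptic] {n : ℤ} (hj : E.j = n)
    {W : WeierstrassCurve ℤ} (h : W.IsIntegralModelOf E) : W.c₄ ^ 3 = n * W.Δ := by
  obtain ⟨C, hC⟩ := h
  have h1 : E.c₄ ^ 3 = n * E.Δ := by
    have h2 : E.j = E.Δ'⁻¹ * E.c₄ ^ 3 := rfl
    have h3 : (E.Δ' : ℚ) = E.Δ := E.coe_Δ'
    rw [← hj, h2, ← h3, mul_comm, ← mul_assoc, Units.mul_inv, one_mul]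
  have h2 : (W.map (Int.castRingHom ℚ)).c₄ ^ 3 = n * (W.map (Int.castRingHom ℚ)).Δ := by
    rw [← hC, variableChange_c₄, variableChange_Δ, mul_pow, h1]
    ring
  rw [map_c₄, map_Δ] at h2
  have h3 : ((W.c₄ ^ 3 : ℤ) : ℚ) = ((n * W.Δ : ℤ) : ℚ) := by
    push_cast
    simpa using h2
  exact_mod_cast h3

/-- **Integral `j`-invariant and a point of order `N ≥ 5` prime to `ℓ`: good reduction at `ℓ`.** -/
theorem good_of_point {E : WeierstrassCurve ℚ} [E.IsElliptic] {n : ℤ} (hj : E.j = n)
    {W : WeierstrassCurve ℤ} (h : IsDiscMinimal W E) {ℓ : ℕ} [hℓ : Fact ℓ.Prime]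
    {P : E.toAffine.Point} (h5 : 5 ≤ addOrderOf P) (hP : ¬ ℓ ∣ addOrderOf P) :
    ¬ (ℓ : ℤ) ∣ W.Δ := by
  have hE : E.Δ ≠ 0 := E.isUnit_Δ.ne_zero
  obtain ⟨A, hA⟩ := Fermat.Agent.Frob.exists_liesOverPrime ℓ hℓ.out
  obtain ⟨Q, hQ, hfix⟩ := exists_pts E P
  have h1 := not_hasAdditiveReduction_of_point hE hA (P := Q) (by rwa [hQ]) (by rwa [hQ])
    fun σ _ => hfix σ
  rw [hasAdditiveReduction_iff_dvd hE h] at h1
  intro hΔ
  refine h1 ⟨hΔ, ?_⟩
  have h2 : (ℓ : ℤ) ∣ W.c₄ ^ 3 := by
    rw [c₄_pow_of_integral hj h.1]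
    exact hΔ.mul_left n
  exact (Nat.prime_iff_prime_int.mp hℓ.out).dvd_of_dvd_pow h2

/-- The torsion of a curve and of its integral model. -/
theorem card_torsion_model {E : WeierstrassCurve ℚ} [E.IsElliptic] {W : WeierstrassCurve ℤ}
    (h : W.IsIntegralModelOf E) : Nat.card (AddCommGroup.torsion E.toAffine.Point) =
      Nat.card (AddCommGroup.torsion (EQQ W).Point) := by
  obtain ⟨C, hC⟩ := h
  have hE : E.Δ ≠ 0 := E.isUnit_Δ.ne_zero
  have e : (W.map (Int.castRingHom ℚ)).toAffine.Point ≃+ E.toAffine.Point := by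
    rw [← hC]
    exact Fermat.Agent.S41vc.pointEquivOf E C hE
  have hmem : ∀ x, x ∈ AddCommGroup.torsion E.toAffine.Point ↔
      e.symm x ∈ AddCommGroup.torsion (W.map (Int.castRingHom ℚ)).toAffine.Point := fun x => by
    have h1 := addOrderOf_injective e.symm.toAddMonoidHom e.symm.injective x
    have h2 : addOrderOf (e.symm x) = addOrderOf x := h1
    change IsOfFinAddOrder x ↔ IsOfFinAddOrder (e.symm x)
    rw [← addOrderOf_pos_iff, ← addOrderOf_pos_iff, h2]
  refine Nat.card_congr ⟨fun x => ⟨e.symm x, (hmem x).mp x.2⟩,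
    fun y => ⟨e y, (hmem _).mpr (by rw [AddEquiv.symm_apply_apply]; exact y.2)⟩, fun x => ?_, fun y => ?_⟩
  · exact Subtype.ext (e.apply_symm_apply x)
  · exact Subtype.ext (e.symm_apply_apply y)

section main

variable (E : WeierstrassCurve ℚ) [E.IsElliptic] {n : ℤ} (hj : E.j = n)

include hj

/-- odd orders are at most five -/
theorem false_of_odd {P : E.toAffine.Point} (h7 : 7 ≤ addOrderOf P) (ho : ¬ 2 ∣ addOrderOf P) : False := by
  have hF : Fact (Nat.Prime 2) := ⟨Nat.prime_two⟩
  obtain ⟨W, hW⟩ := exists_isDiscMinimal E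
  have h2 : ¬ ((2 : ℕ) : ℤ) ∣ W.Δ := good_of_point hj hW (P := P) (by omega) ho
  have h3 := card_torsion_dvd_two (W := W) h2
  rw [← card_torsion_model hW.1] at h3
  have hmem : P ∈ AddCommGroup.torsion E.toAffine.Point := addOrderOf_pos_iff.mp (by omega)
  have h4 : addOrderOf P ∣ Nat.card (AddCommGroup.torsion E.toAffine.Point) := by
    rw [← AddSubgroup.addOrderOf_mk P hmem]
    exact addOrderOf_dvd_natCard _
  have h5 : addOrderOf P ∣ Nat.card (EF 2 W).Point :=
    (Nat.Coprime.symm ((Nat.Prime.coprime_iff_not_dvd Nat.prime_two).mpr ho)).dvd_of_dvd_mul_left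
      (h4.trans h3)
  have h6 := card_two_le W
  have : Nonempty (EF 2 W).Point := ⟨0⟩
  have : Finite (EF 2 W).Point := by infer_instance
  have h7' : 0 < Nat.card (EF 2 W).Point := Nat.card_pos
  have := Nat.le_of_dvd h7' h5
  omega

/-- the bound from a prime not dividing the order -/
theorem card_le_of_point {q : ℕ} (hq : q.Prime) (hq2 : q ≠ 2) {P : E.toAffine.Point}
    (h5 : 5 ≤ addOrderOf P) (hP : ¬ q ∣ addOrderOf P) :
    Nat.card (AddCommGroup.torsion E.toAffine.Point) ≤ 2 * q + 1 := by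
  have hF : Fact q.Prime := ⟨hq⟩
  obtain ⟨W, hW⟩ := exists_isDiscMinimal E
  rw [card_torsion_model hW.1]
  exact card_torsion_le_of_good hq2 (good_of_point hj hW (P := P) h5 hP)

omit [E.IsElliptic] hj in
theorem exists_of_equiv {G : Type*} [AddCommGroup G]
    (e : AddCommGroup.torsion E.toAffine.Point ≃+ G) (g : G) :
    ∃ P : E.toAffine.Point, addOrderOf P = addOrderOf g :=
  ⟨e.symm g, by
    rw [AddSubgroup.addOrderOf_coe]
    exact addOrderOf_injective e.symm.toAddMonoidHom e.symm.injective g⟩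

/-- **Rational torsion for an integral `j`-invariant.** If `j(E)` is an integer, then `E(ℚ)_tors` is
cyclic of order at most `6`, or `ℤ/2 × ℤ/2`, or `ℤ/2 × ℤ/4`. -/
theorem torsion_of_integral_j :
    (∃ m ∈ ({1, 2, 3, 4, 5, 6} : Set ℕ),
      Nonempty (AddCommGroup.torsion E.toAffine.Point ≃+ ZMod m)) ∨
    ∃ m ∈ ({1, 2} : Set ℕ),
      Nonempty (AddCommGroup.torsion E.toAffine.Point ≃+ ZMod 2 × ZMod (2 * m)) := by
  -- no point of order `8`, `10`, `12`, and no odd order `≥ 7`
  have hno : ∀ P : E.toAffine.Point, ∀ N ∈ ({7, 8, 9, 10, 12, 13, 25, 35} : Finset ℕ),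
      addOrderOf P ≠ N := by
    intro P N hN hP
    have hcard : N ≤ Nat.card (AddCommGroup.torsion E.toAffine.Point) := by
      have hfin := finite_torsion_rat E
      have hN0 : 0 < addOrderOf P := by
        rw [hP]
        fin_cases hN <;> norm_num
      have hmem : P ∈ AddCommGroup.torsion E.toAffine.Point := addOrderOf_pos_iff.mp hN0
      rw [← hP, ← AddSubgroup.addOrderOf_mk P hmem]
      exact addOrderOf_le_card
    fin_cases hN
    · exact false_of_odd E hj (P := P) (by rw [hP]) (by rw [hP]; norm_num)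
    · have := card_le_of_point E hj Nat.prime_three (by norm_num) (P := P) (by rw [hP]; norm_num)
        (by rw [hP]; norm_num)
      omega
    · exact false_of_odd E hj (P := P) (by rw [hP]; norm_num) (by rw [hP]; norm_num)
    · have := card_le_of_point E hj Nat.prime_three (by norm_num) (P := P) (by rw [hP]; norm_num)
        (by rw [hP]; norm_num)
      omega
    · have := card_le_of_point E hj Nat.prime_five (by norm_num) (P := P) (by rw [hP]; norm_num)
        (by rw [hP]; norm_num)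
      omega
    · exact false_of_odd E hj (P := P) (by rw [hP]; norm_num) (by rw [hP]; norm_num)
    · exact false_of_odd E hj (P := P) (by rw [hP]; norm_num) (by rw [hP]; norm_num)
    · exact false_of_odd E hj (P := P) (by rw [hP]; norm_num) (by rw [hP]; norm_num)
  have hcyc : ∀ N ∈ ({7, 8, 9, 10, 12} : Finset ℕ),
      ¬ Nonempty (AddCommGroup.torsion E.toAffine.Point ≃+ ZMod N) := by
    rintro N hN ⟨e⟩
    obtain ⟨P, hP⟩ := exists_of_equiv E e (1 : ZMod N)
    rw [ZMod.addOrderOf_one] at hP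
    exact hno P N (by fin_cases hN <;> decide) hP
  rcases mazur_sharp E with ⟨m, hm, h⟩ | ⟨m, hm, h⟩ | ⟨d, hd, P, hP⟩
  · rcases hm with rfl | rfl | rfl | rfl | rfl | rfl | rfl | rfl | rfl | rfl | rfl
    · exact Or.inl ⟨1, by simp, h⟩
    · exact Or.inl ⟨2, by simp, h⟩
    · exact Or.inl ⟨3, by simp, h⟩
    · exact Or.inl ⟨4, by simp, h⟩
    · exact Or.inl ⟨5, by simp, h⟩
    · exact Or.inl ⟨6, by simp, h⟩
    · exact absurd h (hcyc 7 (by decide))
    · exact absurd h (hcyc 8 (by decide))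
    · exact absurd h (hcyc 9 (by decide))
    · exact absurd h (hcyc 10 (by decide))
    · exact absurd h (hcyc 12 (by decide))
  · rcases hm with rfl | rfl | rfl | rfl
    · exact Or.inr ⟨1, by simp, h⟩
    · exact Or.inr ⟨2, by simp, h⟩
    · exfalso
      obtain ⟨e⟩ := h
      have ho : addOrderOf ((0, 1) : ZMod 2 × ZMod (2 * 3)) = 6 := by
        rw [Prod.addOrderOf, addOrderOf_zero]
        change Nat.lcm 1 (addOrderOf (1 : ZMod 6)) = 6
        rw [ZMod.addOrderOf_one]
        rfl
      obtain ⟨P, hP⟩ := exists_of_equiv E e (0, 1)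
      rw [ho] at hP
      have h1 := card_le_of_point E hj Nat.prime_five (by norm_num) (P := P) (by rw [hP]; norm_num)
        (by rw [hP]; norm_num)
      have h2 : Nat.card (AddCommGroup.torsion E.toAffine.Point) = 12 := by
        rw [Nat.card_congr e.toEquiv]
        simp
      omega
    · exfalso
      obtain ⟨e⟩ := h
      have ho : addOrderOf ((0, 1) : ZMod 2 × ZMod (2 * 4)) = 8 := by
        rw [Prod.addOrderOf, addOrderOf_zero]
        change Nat.lcm 1 (addOrderOf (1 : ZMod 8)) = 8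
        rw [ZMod.addOrderOf_one]
        rfl
      obtain ⟨P, hP⟩ := exists_of_equiv E e (0, 1)
      exact hno P 8 (by decide) (by rw [hP, ho])
  · exfalso
    rcases hd with rfl | rfl | rfl | rfl
    · exact hno P 13 (by decide) hP
    · have h9 : addOrderOf (2 • P) = 9 := by
        rw [addOrderOf_nsmul_of_dvd (by norm_num) (by rw [hP]; norm_num), hP]
      exact hno _ 9 (by decide) h9
    · exact hno P 25 (by decide) hP
    · exact hno P 35 (by decide) hP

end main

end Fermat.Agent.Cor.MT
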