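import Fermat.Agent.Corollaries.MT.IntJ
import Fermat.Agent.Corollaries.Twist.Tate

/-!
# Integral `j`-invariant: no rational point of order five, no `ℤ/2 × ℤ/4`
-/

set_option autoImplicit false

open WeierstrassCurve WeierstrassCurve.Affine

namespace Fermat.Agent.Cor.MT

theorem c₄_pow_rat {E : WeierstrassCurve ℚ} [E.IsElliptic] {n : ℤ} (hj : E.j = n) :
    E.c₄ ^ 3 = n * E.Δ := by
  have h2 : E.j = E.Δ'⁻¹ * E.c₄ ^ 3 := rfl
  have h3 : (E.Δ' : ℚ) = E.Δ := E.coe_Δ'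
  rw [← hj, h2, ← h3, mul_comm, ← mul_assoc, Units.mul_inv, one_mul]

/-- no prime divides `m` -/
theorem isUnit_of_eq {m k A B : ℤ} {e : ℕ} (hcop : IsCoprime m k) (h : (m * A + k ^ e) ^ 3 = m * B) :
    IsUnit m := by
  have h1 : m ∣ (k ^ e) ^ 3 := by
    have h2 : (k ^ e) ^ 3 = m * (B - (m ^ 2 * A ^ 3 + 3 * m * A ^ 2 * k ^ e + 3 * A * (k ^ e) ^ 2)) := by
      linear_combination h
    exact ⟨_, h2⟩
  have h3 : IsCoprime m ((k ^ e) ^ 3) := (hcop.pow_right).pow_right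
  exact h3.isUnit_of_dvd' dvd_rfl h1

/-- The equation of the integral points on `X₁(5)`. -/
theorem five_false {m k n : ℤ} (hcop : IsCoprime m k)
    (h : (m ^ 4 - 12 * m ^ 3 * k + 14 * m ^ 2 * k ^ 2 + 12 * m * k ^ 3 + k ^ 4) ^ 3 =
      n * (m ^ 5 * k ^ 5 * (m ^ 2 - 11 * m * k - k ^ 2))) : False := by
  have hm : IsUnit m := isUnit_of_eq (e := 4) (A := m ^ 3 - 12 * m ^ 2 * k + 14 * m * k ^ 2 + 12 * k ^ 3)
    (B := n * (m ^ 4 * k ^ 5 * (m ^ 2 - 11 * m * k - k ^ 2))) hcop (by linear_combination h)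
  have hk : IsUnit k := isUnit_of_eq (e := 4) (A := k ^ 3 + 12 * k ^ 2 * m + 14 * k * m ^ 2 - 12 * m ^ 3)
    (B := n * (m ^ 5 * k ^ 4 * (m ^ 2 - 11 * m * k - k ^ 2))) hcop.symm (by linear_combination h)
  rcases Int.isUnit_iff.mp hm with rfl | rfl <;> rcases Int.isUnit_iff.mp hk with rfl | rfl <;>
    norm_num at h <;> omega

/-- **No rational point of order five** if the `j`-invariant is an integer. -/
theorem ne_five_of_integral_j (E : WeierstrassCurve ℚ) [E.IsElliptic] {n : ℤ} (hj : E.j = n)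
    (P : E.toAffine.Point) : addOrderOf P ≠ 5 := by
  intro hP
  obtain ⟨x, y, s, g, t, hT⟩ := Twist.exists_tate_five hP
  have h1 := c₄_pow_rat hj
  rw [hT.c₄_eq, hT.Δ_eq] at h1
  have hg := hT.hg
  have h2 : (Twist.tate t t).c₄ ^ 3 = n * (Twist.tate t t).Δ := by
    have hg12 : g ^ 12 ≠ 0 := pow_ne_zero _ hg
    apply mul_left_cancel₀ hg12
    linear_combination h1
  have h3 : (t ^ 4 - 12 * t ^ 3 + 14 * t ^ 2 + 12 * t + 1) ^ 3 = n * (t ^ 5 * (t ^ 2 - 11 * t - 1)) := by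
    have e1 : (Twist.tate t t).c₄ = t ^ 4 - 12 * t ^ 3 + 14 * t ^ 2 + 12 * t + 1 := by
      simp only [Twist.tate, WeierstrassCurve.c₄, WeierstrassCurve.b₂, WeierstrassCurve.b₄]
      ring
    have e2 : (Twist.tate t t).Δ = t ^ 5 * (t ^ 2 - 11 * t - 1) := by
      simp only [Twist.tate, WeierstrassCurve.Δ, WeierstrassCurve.b₂, WeierstrassCurve.b₄,
        WeierstrassCurve.b₆, WeierstrassCurve.b₈]
      ring
    rw [← e1, ← e2]
    exact h2
  have hd : (t.den : ℚ) ≠ 0 := by exact_mod_cast t.den_ne_zero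
  have ht : t = t.num / t.den := (Rat.num_div_den t).symm
  have h4 : ((t.num : ℚ) ^ 4 - 12 * t.num ^ 3 * t.den + 14 * t.num ^ 2 * t.den ^ 2 +
      12 * t.num * t.den ^ 3 + t.den ^ 4) ^ 3 =
      n * (t.num ^ 5 * t.den ^ 5 * (t.num ^ 2 - 11 * t.num * t.den - t.den ^ 2)) := by
    have e : (t.num : ℚ) = t * t.den := (Rat.mul_den_eq_num t).symm
    rw [e]
    linear_combination (t.den : ℚ) ^ 12 * h3
  refine five_false (m := t.num) (k := t.den) (n := n) ?_ (by exact_mod_cast h4)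
  exact Int.isCoprime_iff_gcd_eq_one.mpr (by rw [Int.gcd_eq_natAbs, Int.natAbs_natCast]; exact t.reduced)

/-- a square discriminant for four rational points of order two -/
theorem exists_sq_disc {W : WeierstrassCurve ℚ} {P Q : W.toAffine.Point} (hP0 : P ≠ 0) (hQ0 : Q ≠ 0)
    (hPQ : P ≠ Q) (hP : P + P = 0) (hQ : Q + Q = 0) : ∃ r : ℚ, W.Δ = r ^ 2 := by
  obtain ⟨e₁, e₂, e₃, hs⟩ := exists_splits (by norm_num : (2 : ℚ) ≠ 0) hP0 hQ0 hPQ hP hQ
  refine ⟨4 * ((e₁ - e₂) * (e₁ - e₃) * (e₂ - e₃)), ?_⟩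
  have h8 : 4 * W.b₈ = W.b₂ * W.b₆ - W.b₄ ^ 2 := W.b_relation
  have h : 4 * W.Δ = 4 * (4 * ((e₁ - e₂) * (e₁ - e₃) * (e₂ - e₃))) ^ 2 := by
    have : 4 * W.Δ = -W.b₂ ^ 2 * (4 * W.b₈) - 32 * W.b₄ ^ 3 - 108 * W.b₆ ^ 2 +
        36 * W.b₂ * W.b₄ * W.b₆ := by
      simp only [WeierstrassCurve.Δ]
      ring
    rw [this, h8, hs.h2, hs.h4, hs.h6]
    ring
  linarith

theorem two_pow_of_dvd {k : ℕ} (hk : ∀ p : ℕ, p.Prime → p ∣ k → p = 2) (h0 : k ≠ 0) :
    ∃ a : ℕ, k = 2 ^ a := by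
  refine ⟨k.primeFactorsList.length, ?_⟩
  exact Nat.eq_prime_pow_of_unique_prime_dvd h0 fun {d} hd hdk => hk d hd hdk

theorem pow_two_add {a b : ℕ} (h : 2 ^ b = 2 ^ a + 16) : a = 4 ∧ b = 5 := by
  have h1 : a < b := (Nat.pow_lt_pow_iff_right one_lt_two).mp (by omega)
  have h2 : 2 ^ (a + 1) ≤ 2 ^ b := Nat.pow_le_pow_right two_pos h1
  have h3 : 2 ^ a ≤ 16 := by
    rw [pow_succ] at h2
    omega
  have h4 : a ≤ 4 := by
    by_contra hc
    have := Nat.pow_le_pow_right (n := 2) two_pos (show 5 ≤ a by omega)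
    omega
  have h5 : b ≤ 5 := by
    by_contra hc
    have := Nat.pow_le_pow_right (n := 2) two_pos (show 6 ≤ b by omega)
    omega
  interval_cases a <;> interval_cases b <;> omega

/-- The equation for a point of order four and a square discriminant. -/
theorem four_false {m k n w : ℤ} (hcop : IsCoprime m k) (hk0 : 0 < k)
    (h : (16 * m ^ 2 + 16 * m * k + k ^ 2) ^ 3 = n * (m ^ 4 * k * (k + 16 * m)))
    (hw : k * (k + 16 * m) = w ^ 2) (h0 : k + 16 * m ≠ 0) : False := by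
  have hm : IsUnit m := isUnit_of_eq (e := 2) (A := 16 * m + 16 * k)
    (B := n * (m ^ 3 * k * (k + 16 * m))) hcop (by linear_combination h)
  -- every prime factor of `k (k + 16 m)` is `2`
  have hm2 : m ^ 2 = 1 := by rcases Int.isUnit_iff.mp hm with rfl | rfl <;> norm_num
  have key : ∀ p : ℕ, p.Prime → (p : ℤ) ∣ k * (k + 16 * m) → p = 2 := by
    intro p hp hd
    have hp' := Nat.prime_iff_prime_int.mp hp
    have h1 : (p : ℤ) ∣ (16 * m ^ 2 + 16 * m * k + k ^ 2) ^ 3 := by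
      rw [h]
      exact (hd.mul_left (n * m ^ 4)).trans (by exact ⟨1, by ring⟩)
    have h2 := hp'.dvd_of_dvd_pow h1
    have h3 : (p : ℤ) ∣ 16 := by
      have h4 := dvd_sub h2 hd
      have h5 : 16 * m ^ 2 + 16 * m * k + k ^ 2 - k * (k + 16 * m) = 16 := by
        linear_combination 16 * hm2
      rwa [h5] at h4
    have h4 : p ∣ 2 ^ 4 := by exact_mod_cast h3
    exact (Nat.prime_dvd_prime_iff_eq hp Nat.prime_two).mp (hp.dvd_of_dvd_pow h4)
  obtain ⟨a, ha⟩ := two_pow_of_dvd (k := k.natAbs) (fun p hp hd => key p hp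
    ((Int.natCast_dvd.mpr hd).mul_right _)) (by omega)
  obtain ⟨b, hb⟩ := two_pow_of_dvd (k := (k + 16 * m).natAbs) (fun p hp hd => key p hp
    ((Int.natCast_dvd.mpr hd).mul_left _)) (by omega)
  have hpos : 0 < k + 16 * m := by
    have h1 : 0 ≤ k * (k + 16 * m) := by rw [hw]; positivity
    rcases lt_or_gt_of_ne h0 with h2 | h2
    · nlinarith
    · exact h2
  have ka : k = 2 ^ a := by
    have : (k.natAbs : ℤ) = k := Int.natAbs_of_nonneg hk0.le
    rw [← this, ha]; push_cast; rfl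
  have kb : k + 16 * m = 2 ^ b := by
    have : ((k + 16 * m).natAbs : ℤ) = k + 16 * m := Int.natAbs_of_nonneg hpos.le
    rw [← this, hb]; push_cast; rfl
  have hab : (2 : ℤ) ^ b - 2 ^ a = 16 ∨ (2 : ℤ) ^ b - 2 ^ a = -16 := by
    rcases Int.isUnit_iff.mp hm with rfl | rfl
    · left; linarith
    · right; linarith
  -- `{a, b} = {4, 5}`
  have hfin : (a = 4 ∧ b = 5) ∨ (a = 5 ∧ b = 4) := by
    rcases hab with h1 | h1
    · left
      exact pow_two_add (by
        have : (2 : ℤ) ^ b = 2 ^ a + 16 := by linarith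
        exact_mod_cast this)
    · right
      exact (pow_two_add (by
        have : (2 : ℤ) ^ a = 2 ^ b + 16 := by linarith
        exact_mod_cast this)).symm
  have hw2 : w ^ 2 = 512 := by
    rw [← hw, ka, ← ka, kb, ka]
    rcases hfin with ⟨rfl, rfl⟩ | ⟨rfl, rfl⟩ <;> norm_num
  have h1 : w ≤ 22 ∨ 23 ≤ w := by omega
  have h2 : -22 ≤ w ∨ w ≤ -23 := by omega
  rcases h1 with h1 | h1
  · rcases h2 with h2 | h2
    · nlinarith
    · nlinarith
  · nlinarith

/-- **No rational point of order four together with four points killed by two** if the `j`-invariant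
is an integer. -/
theorem not_four_of_integral_j (E : WeierstrassCurve ℚ) [E.IsElliptic] {n : ℤ} (hj : E.j = n)
    {P T U : E.toAffine.Point} (hP : addOrderOf P = 4) (hT0 : T ≠ 0) (hU0 : U ≠ 0) (hTU : T ≠ U)
    (hT : T + T = 0) (hU : U + U = 0) : False := by
  obtain ⟨x, y, s, g, b, hD⟩ := Twist.exists_tate_four hP
  obtain ⟨r, hr⟩ := exists_sq_disc hT0 hU0 hTU hT hU
  have h1 := c₄_pow_rat hj
  have hΔ0 : E.Δ ≠ 0 := E.isUnit_Δ.ne_zero
  rw [hD.c₄_eq, hD.Δ_eq] at h1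
  rw [hD.Δ_eq] at hr hΔ0
  have hg := hD.hg
  have hb := hD.hb
  have e1 : (Twist.tate b 0).c₄ = 16 * b ^ 2 + 16 * b + 1 := by
    simp only [Twist.tate, WeierstrassCurve.c₄, WeierstrassCurve.b₂, WeierstrassCurve.b₄]
    ring
  have e2 : (Twist.tate b 0).Δ = b ^ 4 * (1 + 16 * b) := by
    simp only [Twist.tate, WeierstrassCurve.Δ, WeierstrassCurve.b₂, WeierstrassCurve.b₄,
      WeierstrassCurve.b₆, WeierstrassCurve.b₈]
    ring
  rw [e1, e2] at h1
  rw [e2] at hr hΔ0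
  have h2 : (16 * b ^ 2 + 16 * b + 1) ^ 3 = n * (b ^ 4 * (1 + 16 * b)) := by
    have hg12 : g ^ 12 ≠ 0 := pow_ne_zero _ hg
    apply mul_left_cancel₀ hg12
    linear_combination h1
  have h16 : 1 + 16 * b ≠ 0 := fun h => hΔ0 (by rw [h]; ring)
  -- `1 + 16 b` is a square
  have h3 : 1 + 16 * b = (r / (g ^ 6 * b ^ 2)) ^ 2 := by
    field_simp
    linear_combination hr
  set v : ℚ := r / (g ^ 6 * b ^ 2) with hv
  have hd : (b.den : ℚ) ≠ 0 := by exact_mod_cast b.den_ne_zero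
  have e : (b.num : ℚ) = b * b.den := (Rat.mul_den_eq_num b).symm
  have h4 : (16 * (b.num : ℚ) ^ 2 + 16 * b.num * b.den + b.den ^ 2) ^ 3 =
      n * (b.num ^ 4 * b.den * (b.den + 16 * b.num)) := by
    rw [e]
    linear_combination (b.den : ℚ) ^ 6 * h2
  have h5 : ((b.den : ℤ) * (b.den + 16 * b.num) : ℚ) = (v * b.den) ^ 2 := by
    push_cast
    rw [e, mul_pow, ← h3]
    ring
  -- the square root is an integer
  have h6 : IsSquare ((b.den : ℤ) * (b.den + 16 * b.num)) := by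
    rw [← Rat.isSquare_intCast_iff]
    refine ⟨v * b.den, ?_⟩
    push_cast at h5 ⊢
    rw [h5]
    ring
  obtain ⟨w, hw⟩ := h6
  refine four_false (m := b.num) (k := b.den) (n := n) (w := w) ?_ (by exact_mod_cast b.den_pos)
    (by exact_mod_cast h4) (by rw [hw]; ring) ?_
  · exact Int.isCoprime_iff_gcd_eq_one.mpr (by rw [Int.gcd_eq_natAbs, Int.natAbs_natCast]; exact b.reduced)
  · intro h0
    have h7 : (b.den : ℚ) + 16 * b.num = 0 := by exact_mod_cast h0
    rw [e] at h7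
    apply h16
    apply mul_left_cancel₀ hd
    linear_combination h7

/-- **Rational torsion for an integral `j`-invariant** (the exact list): cyclic of order
`1, 2, 3, 4, 6`, or `ℤ/2 × ℤ/2`. -/
theorem torsion_of_integral_j_sharp (E : WeierstrassCurve ℚ) [E.IsElliptic] {n : ℤ} (hj : E.j = n) :
    (∃ m ∈ ({1, 2, 3, 4, 6} : Set ℕ),
      Nonempty (AddCommGroup.torsion E.toAffine.Point ≃+ ZMod m)) ∨
    Nonempty (AddCommGroup.torsion E.toAffine.Point ≃+ ZMod 2 × ZMod 2) := by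
  rcases torsion_of_integral_j E hj with ⟨m, hm, h⟩ | ⟨m, hm, h⟩
  · rcases hm with rfl | rfl | rfl | rfl | rfl | rfl
    · exact Or.inl ⟨1, by simp, h⟩
    · exact Or.inl ⟨2, by simp, h⟩
    · exact Or.inl ⟨3, by simp, h⟩
    · exact Or.inl ⟨4, by simp, h⟩
    · exfalso
      obtain ⟨e⟩ := h
      obtain ⟨P, hP⟩ := exists_of_equiv E e (1 : ZMod 5)
      rw [ZMod.addOrderOf_one] at hP
      exact ne_five_of_integral_j E hj P hP
    · exact Or.inl ⟨6, by simp, h⟩
  · rcases hm with rfl | rfl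
    · exact Or.inr h
    · exfalso
      obtain ⟨e⟩ := h
      let f : ZMod 2 × ZMod (2 * 2) →+ E.toAffine.Point :=
        (AddSubgroup.subtype _).comp e.symm.toAddMonoidHom
      have hf : Function.Injective f := Subtype.val_injective.comp e.symm.injective
      have ho : addOrderOf ((0, 1) : ZMod 2 × ZMod (2 * 2)) = 4 := by
        rw [Prod.addOrderOf, addOrderOf_zero]
        change Nat.lcm 1 (addOrderOf (1 : ZMod 4)) = 4
        rw [ZMod.addOrderOf_one]
        rfl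
      refine not_four_of_integral_j E hj (P := f (0, 1)) (T := f (1, 0)) (U := f (0, 2)) ?_ ?_ ?_ ?_ ?_ ?_
      · rw [addOrderOf_injective f hf, ho]
      · rw [← map_zero f]; exact fun h => absurd (hf h) (by decide)
      · rw [← map_zero f]; exact fun h => absurd (hf h) (by decide)
      · exact fun h => absurd (hf h) (by decide)
      · rw [← map_add, ← map_zero f]; congr 1
      · rw [← map_add, ← map_zero f]; congr 1

end Fermat.Agent.Cor.MT
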