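import Fermat.Agent.Corollaries.MT.Full

/-!
# Lines, and the function of a point of order three

* `exists_line_eta` : the line through two points in the coordinates `(x, η)`;
* `exists_cube_of_nine` : if `Q = 3 P`, `P` of order nine, then `2 η(Q)` is a cube.
-/

set_option autoImplicit false

open WeierstrassCurve WeierstrassCurve.Affine
open Fermat.Agent.Cor.MordellWeil

namespace Fermat.Agent.Cor.MT

variable {F : Type*} [Field F] {W : WeierstrassCurve F} {e₁ e₂ e₃ : F} [DecidableEq F]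

/-- the line through `P` and `Q` (the tangent if `P = Q`) -/
theorem exists_line_eta (h2 : (2 : F) ≠ 0) (hs : Splits2 W e₁ e₂ e₃) {P Q : W.toAffine.Point}
    {x₁ η₁ x₂ η₂ : F} (h₁ : Co W P x₁ η₁) (h₂ : Co W Q x₂ η₂) (h : P + Q ≠ 0) :
    ∃ l x₃ : F, Co W (P + Q) x₃ (-(l * (x₃ - x₁) + η₁)) ∧ η₂ = l * (x₂ - x₁) + η₁ ∧
      ∀ t : F, (l * (t - x₁) + η₁) ^ 2 - (t - e₁) * (t - e₂) * (t - e₃) =
        -((t - x₁) * (t - x₂) * (t - x₃)) := by
  obtain ⟨y₁, k₁, rfl, g₁⟩ := h₁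
  obtain ⟨y₂, k₂, rfl, g₂⟩ := h₂
  have hxy : ¬(x₁ = x₂ ∧ y₁ = W.toAffine.negY x₂ y₂) := fun hh =>
    h (Point.add_of_Y_eq hh.1 hh.2)
  obtain ⟨α, γ, ha1, ha3, ha2, ha4, ha6⟩ := exists_coeffs h2 hs
  have g₁' : η₁ = y₁ + α * x₁ + γ := by
    refine mul_left_cancel₀ h2 ?_
    rw [← g₁, two_eta h2, ha1, ha3]
    ring
  have g₂' : η₂ = y₂ + α * x₂ + γ := by
    refine mul_left_cancel₀ h2 ?_
    rw [← g₂, two_eta h2, ha1, ha3]
    ring
  have hpoly := fun t => congrArg (Polynomial.eval t) (addPolynomial_slope k₁.1 k₂.1 hxy)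
  have hy₂ : y₂ = W.toAffine.slope x₁ x₂ y₁ y₂ * (x₂ - x₁) + y₁ := by
    by_cases hx : x₁ = x₂
    · subst hx
      have : y₁ = y₂ := Y_eq_of_Y_ne k₁.1 k₂.1 rfl fun h0 => hxy ⟨rfl, h0⟩
      rw [this]
      ring
    · rw [slope_of_X_ne hx]
      have : x₁ - x₂ ≠ 0 := sub_ne_zero.2 hx
      field_simp
      ring
  have hadd := Point.add_some hxy (h₁ := k₁) (h₂ := k₂)
  set ℓ := W.toAffine.slope x₁ x₂ y₁ y₂ with hℓ
  set x₃ := W.toAffine.addX x₁ x₂ ℓ with hx₃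
  refine ⟨ℓ + α, x₃, ⟨_, _, hadd, ?_⟩, ?_, fun t => ?_⟩
  · refine mul_left_cancel₀ h2 ?_
    rw [two_eta h2]
    unfold addY negAddY negY
    rw [ha1, ha3, g₁']
    ring
  · rw [g₁', g₂']
    linear_combination hy₂
  · have hp := hpoly t
    rw [addPolynomial_eq] at hp
    simp only [Cubic.toPoly, Polynomial.eval_neg, Polynomial.eval_add, Polynomial.eval_mul,
      Polynomial.eval_sub, Polynomial.eval_C, Polynomial.eval_X, Polynomial.eval_pow] at hp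
    change _ = -((t - x₁) * (t - x₂) * (t - x₃)) at hp
    rw [ha1, ha2, ha3, ha4, ha6] at hp
    rw [g₁']
    linear_combination hp

omit [DecidableEq F] in
/-- the product of `f = η - (c (x - X) - k)` over the three points of a line is a cube -/
theorem prod_eq_cube {X c k l x₁ η₁ x₂ x₃ : F} (h2 : (2 : F) ≠ 0)
    (hcub : ∀ t : F, (t - e₁) * (t - e₂) * (t - e₃) = (t - X) ^ 3 + (c * (t - X) - k) ^ 2)
    (h : ∀ t : F, (l * (t - x₁) + η₁) ^ 2 - (t - e₁) * (t - e₂) * (t - e₃) =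
        -((t - x₁) * (t - x₂) * (t - x₃))) :
    ((l * (x₁ - x₁) + η₁) - (c * (x₁ - X) - k)) * ((l * (x₂ - x₁) + η₁) - (c * (x₂ - X) - k)) *
      ((l * (x₃ - x₁) + η₁) - (c * (x₃ - X) - k)) = (l * (X - x₁) + η₁ + k) ^ 3 := by
  have h' : ∀ t : F, (l * (t - x₁) + η₁) ^ 2 - ((t - X) ^ 3 + (c * (t - X) - k) ^ 2) =
        -((t - x₁) * (t - x₂) * (t - x₃)) := fun t => by rw [← hcub]; exact h t
  have a0 := h' X
  have a1 := h' (X + 1)
  have a2 := h' (X - 1)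
  set τ := l * (X - x₁) + η₁ with hτ
  have hη : η₁ = τ - l * (X - x₁) := by rw [hτ]; ring
  have c0 : τ ^ 2 - k ^ 2 - (x₁ - X) * (x₂ - X) * (x₃ - X) = 0 := by
    linear_combination a0
  have c1 : 2 * l * τ + 2 * c * k + ((x₁ - X) * (x₂ - X) + (x₁ - X) * (x₃ - X) +
      (x₂ - X) * (x₃ - X)) = 0 := by
    rw [hη] at a1 a2
    refine mul_left_cancel₀ h2 ?_
    linear_combination a1 - a2
  have c2 : l ^ 2 - c ^ 2 - ((x₁ - X) + (x₂ - X) + (x₃ - X)) = 0 := by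
    rw [hη] at a1 a2
    refine mul_left_cancel₀ h2 ?_
    linear_combination a1 + a2 - 2 * c0
  rw [hη]
  linear_combination (-(l - c) ^ 3) * c0 + ((l - c) ^ 2 * (τ + k)) * c1 -
    (l - c) * (τ + k) ^ 2 * c2

end Fermat.Agent.Cor.MT
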