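import Fermat.Agent.Corollaries.MT.Cyc
import Fermat.Agent.Corollaries.MT.Grp
import Fermat.Agent.Corollaries.MT.ThreeCyc
import Fermat.Agent.Corollaries.MordellWeil.Main

/-!
# Mazur's torsion theorem for the elliptic curves over `ℚ` with `4 ∣ #E(ℚ)_tors`

`mazur_four` : if `4` divides the order of the torsion subgroup of `E(ℚ)`, this subgroup is
isomorphic to `ℤ/4`, `ℤ/8`, `ℤ/12`, or `ℤ/2 × ℤ/2m`, `m = 1, 2, 3, 4`.
-/

set_option autoImplicit false

open WeierstrassCurve WeierstrassCurve.Affine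
open Fermat.Agent.Cor.MordellWeil

namespace Fermat.Agent.Cor.MT

theorem finite_torsion_of_fg {G : Type*} [AddCommGroup G] (h : AddGroup.FG G) :
    Finite (AddCommGroup.torsion G) := by
  have : Module.Finite ℤ G := Module.Finite.iff_addGroup_fg.2 h
  have h1 : Finite (Submodule.torsion ℤ G) :=
    Module.finite_of_fg_torsion _ Submodule.torsion_isTorsion
  rw [← Submodule.torsion_int]
  exact h1

instance finite_torsion_rat (E : WeierstrassCurve ℚ) [E.IsElliptic] :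
    Finite (AddCommGroup.torsion E.toAffine.Point) :=
  finite_torsion_of_fg (mordell_weil ℚ E)

/-- one element of order two and `4 ∣ #G`: an element of order four -/
theorem cyc_case {G : Type*} [AddCommGroup G] [Finite G] (h4 : 4 ∣ Nat.card G)
    (hu : ∀ T₁ T₂ : G, T₁ ≠ 0 → T₂ ≠ 0 → 2 • T₁ = 0 → 2 • T₂ = 0 → T₁ = T₂) :
    Nat.card {g : G // 2 • g = 0} = 2 ∧ ∃ g : G, addOrderOf g = 4 := by
  have h2 : 2 ∣ Nat.card G := (by norm_num : 2 ∣ 4).trans h4
  obtain ⟨T, hT⟩ := exists_prime_addOrderOf_dvd_card' 2 h2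
  have hT0 : T ≠ 0 := by
    rintro rfl
    rw [addOrderOf_zero] at hT
    norm_num at hT
  have hT2 : 2 • T = 0 := by
    rw [← hT]
    exact addOrderOf_nsmul_eq_zero T
  have hc : Nat.card {g : G // 2 • g = 0} = 2 := by
    rw [Nat.card_eq_two_iff]
    refine ⟨⟨0, nsmul_zero 2⟩, ⟨T, hT2⟩, fun h => hT0 (congrArg Subtype.val h).symm, ?_⟩
    ext ⟨g, hg⟩
    simp only [Set.mem_insert_iff, Set.mem_singleton_iff, Set.mem_univ, iff_true,
      Subtype.mk.injEq]
    by_cases h0 : g = 0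
    · exact Or.inl h0
    · exact Or.inr (hu g T h0 hT0 hg hT2)
  refine ⟨hc, ?_⟩
  let f : G →+ G := nsmulAddMonoidHom 2
  have hker : Nat.card f.ker = 2 := by
    rw [← hc]
    rfl
  have h5 : Nat.card G = Nat.card f.range * 2 := by
    rw [AddSubgroup.card_eq_card_quotient_mul_card_addSubgroup f.ker, hker,
      Nat.card_congr (QuotientAddGroup.quotientKerEquivRange f).toEquiv]
  have h6 : 2 ∣ Nat.card f.range := by
    rw [h5] at h4
    omega
  obtain ⟨S, hS⟩ := exists_prime_addOrderOf_dvd_card' 2 h6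
  obtain ⟨g, hg⟩ := S.2
  refine ⟨g, ?_⟩
  have h7 : addOrderOf (2 • g) = 2 := by
    have e : (S : G) = 2 • g := hg.symm
    rw [← e, AddSubgroup.addOrderOf_coe]
    exact hS
  refine addOrderOf_eq_prime_pow (p := 2) (n := 1) ?_ ?_
  · intro h0
    rw [pow_one] at h0
    rw [h0, addOrderOf_zero] at h7
    norm_num at h7
  · have h8 : 2 • (2 • g) = 0 := by
      have := addOrderOf_nsmul_eq_zero (2 • g)
      rwa [h7] at this
    rw [← mul_nsmul] at h8
    exact h8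

/-- two rational points of order two: the 2-torsion polynomial splits -/
theorem exists_splits {F : Type*} [Field F] [DecidableEq F] (h2 : (2 : F) ≠ 0)
    {W : WeierstrassCurve F} {T₁ T₂ : W.toAffine.Point} (h₁ : T₁ ≠ 0) (h₂ : T₂ ≠ 0)
    (h : T₁ ≠ T₂) (k₁ : T₁ + T₁ = 0) (k₂ : T₂ + T₂ = 0) :
    ∃ e₁ e₂ e₃ : F, Splits2 W e₁ e₂ e₃ := by
  have h₃ : T₁ + T₂ ≠ 0 := by
    intro h0
    apply h
    have e1 : T₁ = -T₂ := eq_neg_of_add_eq_zero_left h0
    have e2 : T₂ = -T₂ := eq_neg_of_add_eq_zero_left k₂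
    rw [e1, ← e2]
  have k₃ : (T₁ + T₂) + (T₁ + T₂) = 0 := by
    rw [add_add_add_comm, k₁, k₂, add_zero]
  have root : ∀ T : W.toAffine.Point, T ≠ 0 → T + T = 0 → ∃ e, Co W T e 0 ∧
      4 * e ^ 3 + W.b₂ * e ^ 2 + 2 * W.b₄ * e + W.b₆ = 0 := by
    intro T hT hTT
    obtain ⟨x, η, hc⟩ := exists_co hT
    have hη : η = 0 := (hc.add_self_eq_zero_iff h2).1 hTT
    subst hη
    refine ⟨x, hc, ?_⟩
    obtain ⟨y, hxy, -, hy⟩ := hc
    rw [← four_eta_sq h2 W hxy.1, hy]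
    ring
  obtain ⟨e₁, c₁, r₁⟩ := root T₁ h₁ k₁
  obtain ⟨e₂, c₂, r₂⟩ := root T₂ h₂ k₂
  obtain ⟨e₃, c₃, r₃⟩ := root (T₁ + T₂) h₃ k₃
  have n12 : e₁ - e₂ ≠ 0 := by
    intro h0
    have : e₁ = e₂ := sub_eq_zero.1 h0
    subst this
    exact h (c₁.ext h2 c₂)
  have n13 : e₁ - e₃ ≠ 0 := by
    intro h0
    have : e₁ = e₃ := sub_eq_zero.1 h0
    subst this
    have := c₁.ext h2 c₃
    exact h₂ (by simpa using this.symm)
  have n23 : e₂ - e₃ ≠ 0 := by
    intro h0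
    have : e₂ = e₃ := sub_eq_zero.1 h0
    subst this
    have := c₂.ext h2 c₃
    exact h₁ (by simpa using this.symm)
  have q12 : 4 * (e₁ ^ 2 + e₁ * e₂ + e₂ ^ 2) + W.b₂ * (e₁ + e₂) + 2 * W.b₄ = 0 := by
    refine mul_left_cancel₀ n12 ?_
    linear_combination r₁ - r₂
  have q13 : 4 * (e₁ ^ 2 + e₁ * e₃ + e₃ ^ 2) + W.b₂ * (e₁ + e₃) + 2 * W.b₄ = 0 := by
    refine mul_left_cancel₀ n13 ?_
    linear_combination r₁ - r₃
  have q : 4 * (e₁ + e₂ + e₃) + W.b₂ = 0 := by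
    refine mul_left_cancel₀ n23 ?_
    linear_combination q12 - q13
  have b2 : W.b₂ = -4 * (e₁ + e₂ + e₃) := by linear_combination q
  have b4 : W.b₄ = 2 * (e₁ * e₂ + e₁ * e₃ + e₂ * e₃) := by
    refine mul_left_cancel₀ h2 ?_
    rw [b2] at q12
    linear_combination q12
  refine ⟨e₁, e₂, e₃, b2, b4, ?_⟩
  rw [b2, b4] at r₁
  linear_combination r₁

section transfer

variable {A : Type*} [AddCommGroup A]

theorem card_two_torsion_subgroup :
    Nat.card {g : AddCommGroup.torsion A // 2 • g = 0} = Nat.card {P : A // 2 • P = 0} := by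
  refine Nat.card_congr ⟨fun g => ⟨g.1.1, ?_⟩, fun P => ⟨⟨P.1, ?_⟩, ?_⟩, fun g => rfl,
    fun P => rfl⟩
  · have := congrArg Subtype.val g.2
    exact this
  · exact isOfFinAddOrder_iff_nsmul_eq_zero.2 ⟨2, by norm_num, P.2⟩
  · exact Subtype.ext P.2

theorem addOrderOf_torsion_sub (g : AddCommGroup.torsion A) : addOrderOf g = addOrderOf (g : A) :=
  (AddSubgroup.addOrderOf_coe g).symm

end transfer

variable (E : WeierstrassCurve ℚ) [E.IsElliptic]

theorem three_torsion_sub (g g' : AddCommGroup.torsion E.toAffine.Point) (hg : 3 • g = 0)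
    (hg' : 3 • g' = 0) (h0 : g ≠ 0) : ∃ k : ℤ, g' = k • g := by
  obtain ⟨k, hk⟩ := exists_zsmul_of_prime E Nat.prime_three (by norm_num) g.1 g'.1
    (congrArg Subtype.val hg) (congrArg Subtype.val hg') (fun h => h0 (Subtype.ext h))
  exact ⟨k, Subtype.ext hk⟩

/-- **Complete rational 2-torsion**: `E(ℚ)_tors` is `ℤ/2 × ℤ/2m`, `m = 1, 2, 3, 4`. -/
theorem mazur_full (h : Nat.card {P : E.toAffine.Point // 2 • P = 0} = 4) {e₁ e₂ e₃ : ℚ}
    (hs : Splits2 E e₁ e₂ e₃) :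
    ∃ m ∈ ({1, 2, 3, 4} : Set ℕ),
      Nonempty (AddCommGroup.torsion E.toAffine.Point ≃+ ZMod 2 × ZMod (2 * m)) := by
  have hΔ : E.Δ ≠ 0 := E.isUnit_Δ.ne_zero
  refine grp_full (by rw [card_two_torsion_subgroup, h]) ?_ (fun g => ?_) (fun g => ?_)
    (fun g => ?_) (fun p hp h5 g => ?_) (three_torsion_sub E)
  · obtain ⟨T, hT, hT'⟩ := exists_not_double hΔ hs
    refine ⟨⟨T, isOfFinAddOrder_iff_nsmul_eq_zero.2 ⟨2, by norm_num, by rw [two_nsmul, hT]⟩⟩,
      Subtype.ext (by change 2 • T = 0; rw [two_nsmul, hT]), fun S hS => hT' S.1 ?_⟩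
    rw [← two_nsmul]
    exact congrArg Subtype.val hS
  · rw [addOrderOf_torsion_sub]; exact addOrderOf_ne_nine hΔ hs g
  · rw [addOrderOf_torsion_sub]; exact addOrderOf_ne_twelve hs g
  · rw [addOrderOf_torsion_sub]; exact addOrderOf_ne_sixteen hs g
  · rw [addOrderOf_torsion_sub]; exact no_point_of_full_two E h hp h5 g

/-- **Mazur's torsion theorem for `4 ∣ #E(ℚ)_tors`**: the torsion subgroup of `E(ℚ)` is isomorphic
to `ℤ/4`, `ℤ/8`, `ℤ/12` or `ℤ/2 × ℤ/2m`, `m = 1, 2, 3, 4`. -/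
theorem mazur_four (h : 4 ∣ Nat.card (AddCommGroup.torsion E.toAffine.Point)) :
    (∃ n ∈ ({4, 8, 12} : Set ℕ),
      Nonempty (AddCommGroup.torsion E.toAffine.Point ≃+ ZMod n)) ∨
    ∃ m ∈ ({1, 2, 3, 4} : Set ℕ),
      Nonempty (AddCommGroup.torsion E.toAffine.Point ≃+ ZMod 2 × ZMod (2 * m)) := by
  have hΔ : E.Δ ≠ 0 := E.isUnit_Δ.ne_zero
  by_cases hu : ∀ T₁ T₂ : AddCommGroup.torsion E.toAffine.Point, T₁ ≠ 0 → T₂ ≠ 0 →
      2 • T₁ = 0 → 2 • T₂ = 0 → T₁ = T₂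
  · left
    obtain ⟨h2, g, hg⟩ := cyc_case h hu
    have hP : (g : E.toAffine.Point) + g ≠ 0 := by
      intro h0
      have : 2 • g = 0 := by
        rw [two_nsmul]
        exact Subtype.ext h0
      have := addOrderOf_dvd_of_nsmul_eq_zero this
      rw [hg] at this
      norm_num at this
    have hPP : ((g : E.toAffine.Point) + g) + (g + g) = 0 := by
      have : 4 • g = 0 := by
        rw [← hg]
        exact addOrderOf_nsmul_eq_zero g
      have h1 : (g + g) + (g + g) = 0 := by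
        rw [← two_nsmul, ← two_nsmul, ← mul_nsmul]
        exact this
      exact congrArg Subtype.val h1
    refine grp_cyclic h2 ⟨g, hg⟩ (fun a => ?_) (fun a => ?_) (fun a => ?_)
      (fun p hp h5 a => ?_) (three_torsion_sub E)
    · rw [addOrderOf_torsion_sub]; exact addOrderOf_ne_nine_of_four hΔ hP hPP a
    · rw [addOrderOf_torsion_sub]; exact addOrderOf_ne_sixteen_any hΔ a
    · rw [addOrderOf_torsion_sub]; exact addOrderOf_ne_twentyfour_any hΔ a
    · rw [addOrderOf_torsion_sub]; exact addOrderOf_ne_of_four hΔ hP hPP hp h5 a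
  · right
    push Not at hu
    obtain ⟨T₁, T₂, h₁, h₂, k₁, k₂, hne⟩ := hu
    obtain ⟨e₁, e₂, e₃, hs⟩ := exists_splits (two_ne_zero : (2 : ℚ) ≠ 0) (T₁ := T₁.1)
      (T₂ := T₂.1) (fun h0 => h₁ (Subtype.ext h0)) (fun h0 => h₂ (Subtype.ext h0))
      (fun h0 => hne (Subtype.ext h0))
      (by rw [← two_nsmul]; exact congrArg Subtype.val k₁)
      (by rw [← two_nsmul]; exact congrArg Subtype.val k₂)
    exact mazur_full E (card_two_torsion two_ne_zero hΔ hs) hs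

/-- **At most 16 torsion points** if `4 ∣ #E(ℚ)_tors`. -/
theorem card_torsion_of_four_dvd (h : 4 ∣ Nat.card (AddCommGroup.torsion E.toAffine.Point)) :
    Nat.card (AddCommGroup.torsion E.toAffine.Point) ∈ ({4, 8, 12, 16} : Set ℕ) := by
  rcases mazur_four E h with ⟨n, hn, ⟨e⟩⟩ | ⟨m, hm, ⟨e⟩⟩
  · rw [Nat.card_congr e.toEquiv, Nat.card_zmod]
    rcases hn with rfl | rfl | rfl <;> simp
  · rw [Nat.card_congr e.toEquiv, Nat.card_prod, Nat.card_zmod, Nat.card_zmod]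
    rcases hm with rfl | rfl | rfl | rfl <;> norm_num

end Fermat.Agent.Cor.MT
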