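import Fermat.Agent.Corollaries.MT.Line
import Fermat.Agent.Corollaries.MT.Euler

/-!
# Complete rational 2-torsion: no points of order 9

For `Q` of order three the function `f = η - (c (x - x(Q)) - k)` has divisor `3 (-Q) - 3 (0)`;
if `Q = 3 P` then `f(Q) = 2 k` is a cube, which gives a rational point on `v² = δ³ + 1`
(Euler 1738).
-/

set_option autoImplicit false

open WeierstrassCurve WeierstrassCurve.Affine
open Fermat.Agent.Cor.MordellWeil

namespace Fermat.Agent.Cor.MT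

theorem exists_cube_of_nine {F : Type*} [Field F] {W : WeierstrassCurve F} {e₁ e₂ e₃ : F}
    [DecidableEq F] (h2 : (2 : F) ≠ 0) (hs : Splits2 W e₁ e₂ e₃)
    {P : W.toAffine.Point} {X c k : F}
    (hcub : ∀ t : F, (t - e₁) * (t - e₂) * (t - e₃) = (t - X) ^ 3 + (c * (t - X) - k) ^ 2)
    (h9 : Co W (P + P + P) X k) (hP : P + P ≠ 0) (h1 : P ≠ P + P + P) (h1' : P ≠ -(P + P + P))
    (h2' : P + P ≠ P + P + P) (h2'' : P + P ≠ -(P + P + P)) : ∃ d : F, 2 * k = d ^ 3 := by
  have hP0 : P ≠ 0 := by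
    rintro rfl
    exact hP (add_zero 0)
  obtain ⟨x₁, η₁, c₁⟩ := exists_co hP0
  obtain ⟨x₂, η₂, c₂⟩ := exists_co hP
  -- the tangent at `P`
  obtain ⟨l, x, C, -, hl⟩ := exists_line_eta h2 hs c₁ c₁ hP
  obtain ⟨rfl, hη₂⟩ := C.unique c₂
  have hA := prod_eq_cube (X := X) (c := c) (k := k) h2 hcub hl
  -- the line through `-P` and `-2P`
  have hneg : -P + -(P + P) ≠ 0 := by
    intro h0
    apply h9.ne_zero
    have : P + P + P = -(-P + -(P + P)) := by abel
    rw [this, h0, neg_zero]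
  obtain ⟨l', x', C', hη', hl'⟩ := exists_line_eta h2 hs (c₁.neg h2) (c₂.neg h2) hneg
  have h9' : Co W (-P + -(P + P)) X (-k) := by
    have : -P + -(P + P) = -(P + P + P) := by abel
    rw [this]
    exact h9.neg h2
  obtain ⟨rfl, hk⟩ := C'.unique h9'
  have hB := prod_eq_cube (c := c) (k := k) h2 hcub hl'
  set f₁ := η₁ - (c * (x₁ - x') - k) with hf₁
  set g₁ := -η₁ - (c * (x₁ - x') - k) with hg₁
  set g₂ := -η₂ - (c * (x - x') - k) with hg₂
  have hx₁ : x₁ - x' ≠ 0 := by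
    intro h0
    have : x₁ = x' := by linear_combination h0
    subst this
    rcases c₁.eq_or_eq_neg h2 hs h9 with h | h
    · exact h1 h
    · exact h1' h
  have hx₂ : x - x' ≠ 0 := by
    intro h0
    have : x = x' := by linear_combination h0
    subst this
    rcases c₂.eq_or_eq_neg h2 hs h9 with h | h
    · exact h2' h
    · exact h2'' h
  have hfg₁ : f₁ * g₁ = -(x₁ - x') ^ 3 := by
    have := c₁.sq h2 hs
    rw [hcub] at this
    rw [hf₁, hg₁]
    linear_combination -this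
  have hfg₂ : (η₂ - (c * (x - x') - k)) * g₂ = -(x - x') ^ 3 := by
    have := c₂.sq h2 hs
    rw [hcub] at this
    rw [hg₂]
    linear_combination -this
  have hf₁0 : f₁ ≠ 0 := by
    intro h0
    rw [h0, zero_mul] at hfg₁
    exact hx₁ (pow_eq_zero_iff three_ne_zero |>.1 (neg_eq_zero.1 hfg₁.symm))
  have hg₂0 : g₂ ≠ 0 := by
    intro h0
    rw [h0, mul_zero] at hfg₂
    exact hx₂ (pow_eq_zero_iff three_ne_zero |>.1 (neg_eq_zero.1 hfg₂.symm))
  obtain ⟨A, hA'⟩ : ∃ A, f₁ * f₁ * g₂ = A ^ 3 := by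
    refine ⟨_, Eq.trans ?_ hA⟩
    rw [hf₁, hg₂, ← hη₂]
    ring
  obtain ⟨B, hB'⟩ : ∃ B, g₁ * g₂ * (2 * k) = B ^ 3 := by
    refine ⟨_, Eq.trans ?_ hB⟩
    rw [← hη', hg₁, hg₂]
    have : l' * (x' - x₁) + -η₁ = k := by linear_combination -hk
    rw [this]
    ring
  have hA0 : A ≠ 0 := by
    rintro rfl
    exact mul_ne_zero (mul_ne_zero hf₁0 hf₁0) hg₂0 (by rw [hA']; ring)
  refine ⟨-(B * f₁ / ((x₁ - x') * A)), ?_⟩
  have hd : ((x₁ - x') * A) ^ 3 ≠ 0 := pow_ne_zero 3 (mul_ne_zero hx₁ hA0)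
  have : (-(B * f₁ / ((x₁ - x') * A))) ^ 3 = -((B * f₁) ^ 3 / ((x₁ - x') * A) ^ 3) := by
    rw [Odd.neg_pow (by norm_num : Odd 3), div_pow]
  have e : 2 * k * ((x₁ - x') * A) ^ 3 = -(B * f₁) ^ 3 := by
    rw [mul_pow, mul_pow, ← hB', ← hA']
    linear_combination (2 * k * g₂ * f₁ ^ 2) * hfg₁
  rw [this, ← neg_div, eq_div_iff hd, e]

variable {W : WeierstrassCurve ℚ} {e₁ e₂ e₃ : ℚ}

theorem no_nine_algebra {r₁ r₂ r₃ d : ℚ} (h : r₁ * r₂ + r₁ * r₃ + r₂ * r₃ = 0)
    (h12 : r₁ ^ 2 ≠ r₂ ^ 2) (h13 : r₁ ^ 2 ≠ r₃ ^ 2) (h23 : r₂ ^ 2 ≠ r₃ ^ 2)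
    (hr₂ : r₂ ≠ 0) (hr₃ : r₃ ≠ 0) (hd : 2 * (r₁ * r₂ * r₃) = d ^ 3) : False := by
  have hs : r₂ + r₃ ≠ 0 := by
    intro h0
    apply h23
    have : r₂ = -r₃ := by linear_combination h0
    rw [this]
    ring
  have hr₁ : r₁ * (r₂ + r₃) = -(r₂ * r₃) := by linear_combination h
  have hr₁0 : r₁ ≠ 0 := by
    rintro rfl
    have : r₂ * r₃ = 0 := by linear_combination h
    exact mul_ne_zero hr₂ hr₃ this
  have hd0 : d ≠ 0 := by
    rintro rfl
    have : r₁ * r₂ * r₃ = 0 := by linear_combination hd / 2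
    exact mul_ne_zero (mul_ne_zero hr₁0 hr₂) hr₃ this
  set u := r₂ / r₃ with hu
  have hr₂' : r₂ = u * r₃ := by rw [hu]; field_simp
  -- `4 u (u + 1) = δ³`
  have hδ : (2 * u + 1) ^ 2 = (-(2 * r₂ / d)) ^ 3 + 1 := by
    have e1 : (-(2 * r₂ / d)) ^ 3 = -(8 * r₂ ^ 3 / d ^ 3) := by
      rw [Odd.neg_pow (by decide), div_pow]
      ring
    rw [e1, ← hd]
    have e2 : 8 * r₂ ^ 3 / (2 * (r₁ * r₂ * r₃)) = -(4 * u * (u + 1)) := by
      rw [div_eq_iff (mul_ne_zero two_ne_zero (mul_ne_zero (mul_ne_zero hr₁0 hr₂) hr₃))]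
      have e3 : r₁ * (u + 1) = -(u * r₃) := by
        refine mul_left_cancel₀ hr₃ ?_
        rw [hr₂'] at hr₁
        linear_combination hr₁
      rw [hr₂']
      linear_combination (8 * u ^ 2 * r₃ ^ 2) * e3
    rw [e2]
    ring
  have key : u = 1 ∨ u = -1 ∨ 2 * u + 1 = 0 ∨ u = -2 := by
    rcases sq_eq_cube_add_one hδ with h0 | h0 | h0
    · right; right; left
      rw [h0] at hδ
      have : (2 * u + 1) ^ 2 = 0 := by rw [hδ]; norm_num
      exact pow_eq_zero_iff two_ne_zero |>.1 this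
    · exfalso
      have : 2 * r₂ / d = 0 := by linear_combination -h0
      exact div_ne_zero (mul_ne_zero two_ne_zero hr₂) hd0 this
    · rw [h0] at hδ
      have : (u - 1) * (u + 2) = 0 := by linear_combination hδ / 4
      rcases mul_eq_zero.1 this with h1 | h1
      · left; linear_combination h1
      · right; right; right; linear_combination h1
  rcases key with h0 | h0 | h0 | h0
  · apply h23
    rw [hr₂', h0, one_mul]
  · apply h23
    rw [hr₂', h0]
    ring
  · apply h13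
    have e : r₃ = -2 * r₂ := by
      rw [hr₂']
      linear_combination r₃ * h0
    rw [e] at hr₁ ⊢
    have : r₁ = -(2 * r₂) := by
      refine mul_left_cancel₀ hr₂ ?_
      linear_combination -hr₁
    rw [this]
    ring
  · apply h12
    rw [h0] at hr₂'
    have e : r₁ = -(2 * r₃) := by
      refine mul_left_cancel₀ hr₃ ?_
      rw [hr₂'] at hr₁
      linear_combination -hr₁
    rw [hr₂', e]
    ring

/-- **No point of order 9.** -/
theorem addOrderOf_ne_nine (hΔ : W.Δ ≠ 0) (hs : Splits2 W e₁ e₂ e₃) (P : W.toAffine.Point) :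
    addOrderOf P ≠ 9 := by
  intro hP
  obtain ⟨n12, n13, n23⟩ := ne_of_splits two_ne_zero hΔ hs
  have key : ∀ k : ℕ, k • P = 0 → 9 ∣ k := fun k hk => by
    rw [← hP]
    exact addOrderOf_dvd_of_nsmul_eq_zero hk
  have h3 : 3 • P = P + P + P := by rw [succ_nsmul, two_nsmul]
  have h30 : 3 • P ≠ 0 := fun h0 => absurd (key 3 h0) (by norm_num)
  have h33 : 3 • (3 • P) = 0 := by
    rw [← mul_nsmul]
    exact addOrderOf_dvd_iff_nsmul_eq_zero.1 (by rw [hP])
  obtain ⟨X, r₁, r₂, r₃, C, l1, l2, l3, hr, -, -, h23, hr₁, hr₂, hr₃⟩ :=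
    exists_three_coords two_ne_zero hs h30 h33
  rw [h3] at C
  have e1 : e₁ = X - r₁ ^ 2 := by rw [← l1]; ring
  have e2 : e₂ = X - r₂ ^ 2 := by rw [← l2]; ring
  have e3 : e₃ = X - r₃ ^ 2 := by rw [← l3]; ring
  have hcub : ∀ t : ℚ, (t - e₁) * (t - e₂) * (t - e₃) =
      (t - X) ^ 3 + ((r₁ + r₂ + r₃) * (t - X) - r₁ * r₂ * r₃) ^ 2 := fun t => by
    rw [e1, e2, e3]
    linear_combination (-2 * (t - X) ^ 2 + (r₁ * r₂ + r₁ * r₃ + r₂ * r₃) * (t - X)) * hr
  obtain ⟨d, hd⟩ := exists_cube_of_nine two_ne_zero hs hcub C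
    (fun h0 => absurd (key 2 (by rw [two_nsmul]; exact h0)) (by norm_num))
    (fun h0 => by
      have : 2 • P = 0 := by
        rw [two_nsmul]
        have : P + (P + P) = P + 0 := by rw [add_zero]; nth_rewrite 4 [h0]; abel
        exact add_left_cancel this
      exact absurd (key 2 this) (by norm_num))
    (fun h0 => by
      have : 4 • P = 0 := by
        have h5 : 4 • P = P + (P + P + P) := by
          simp only [succ_nsmul, zero_nsmul]
          abel
        rw [h5]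
        nth_rewrite 1 [h0]
        abel
      exact absurd (key 4 this) (by norm_num))
    (fun h0 => by
      have : 1 • P = 0 := by
        rw [one_nsmul]
        have : P + P + P = P + P + 0 := by rw [add_zero]; exact h0.symm
        exact add_left_cancel this
      exact absurd (key 1 this) (by norm_num))
    (fun h0 => by
      have : 5 • P = 0 := by
        have h5 : 5 • P = (P + P) + (P + P + P) := by
          simp only [succ_nsmul, zero_nsmul]
          abel
        rw [h5]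
        nth_rewrite 1 [h0]
        abel
      exact absurd (key 5 this) (by norm_num))
  refine no_nine_algebra hr ?_ ?_ ?_ hr₂ hr₃ hd
  · intro h0
    exact n12 (by rw [e1, e2, h0])
  · intro h0
    exact n13 (by rw [e1, e3, h0])
  · intro h0
    exact n23 (by rw [e2, e3, h0])

end Fermat.Agent.Cor.MT
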