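import Fermat.Agent.S41.VarChange

/-!
# No elliptic curve over `ℚ` has a rational point of order 27

`V : y² + α x y + β y = x³`, `Q = (0, 0)` of order three.  The function `y` has divisor
`3 (Q) - 3 (0)`, so that `y(3 P)` is a cube (`exists_cube`).  If `Q = 9 P`, then `β = b³`,
`y(3 P) = v³`, `x(3 P) = v w`, and `9 P = Q` becomes `b² v + w² b = v² w`
(`algebra_nine`), hence `T (T + 1) = X³` with `T = - v w / b²`: Fermat's last theorem for the
exponent three.
-/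

set_option autoImplicit false

open WeierstrassCurve WeierstrassCurve.Affine

namespace Fermat.Agent.Cor.MT

/-- the curve `y² + α x y + β y = x³` -/
abbrev C3 {F : Type*} [Field F] (α β : F) : WeierstrassCurve F := ⟨α, 0, β, 0, 0⟩

section general

variable {F : Type*} [Field F] {α β : F}

theorem equation_C3 {x y : F} : (C3 α β).toAffine.Equation x y ↔
    y ^ 2 + α * x * y + β * y = x ^ 3 := by
  rw [Affine.equation_iff]
  constructor <;> intro h <;> linear_combination h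

theorem negY_C3 (x y : F) : (C3 α β).toAffine.negY x y = -y - α * x - β := rfl

theorem Δ_C3 : (C3 α β).Δ = β ^ 3 * (α ^ 3 - 27 * β) := by
  simp only [WeierstrassCurve.Δ, WeierstrassCurve.b₂, WeierstrassCurve.b₄, WeierstrassCurve.b₆,
    WeierstrassCurve.b₈]
  ring

theorem y_mul_negY {x y : F} (h : (C3 α β).toAffine.Equation x y) :
    y * (C3 α β).toAffine.negY x y = -x ^ 3 := by
  rw [negY_C3, ← equation_C3.1 h]
  ring

variable [DecidableEq F]

/-- the normal form at a point of order three -/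
theorem exists_C3 {W : WeierstrassCurve F} (hΔ : W.Δ ≠ 0) {Q : W.toAffine.Point} (hQ : Q ≠ 0)
    (h3 : Q + Q + Q = 0) : ∃ α β : F, (C3 α β).Δ ≠ 0 ∧
      ∃ e : (C3 α β).toAffine.Point ≃+ W.toAffine.Point, ∀ h, e (.some 0 0 h) = Q := by
  rcases Q with _ | ⟨x, y, h⟩
  · exact absurd rfl hQ
  have hne : y ≠ W.toAffine.negY x y := by
    intro h0
    rw [Point.add_self_of_Y_eq h0, zero_add] at h3
    exact Point.some_ne_zero h h3
  have heq : y ^ 2 + W.a₁ * x * y + W.a₃ * y = x ^ 3 + W.a₂ * x ^ 2 + W.a₄ * x + W.a₆ :=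
    (equation_iff ..).1 h.1
  have hD : 2 * y + W.a₁ * x + W.a₃ ≠ 0 := by
    intro h0
    apply hne
    unfold negY
    linear_combination h0
  set l := W.toAffine.slope x x y y with hl
  have hl' : l * (2 * y + W.a₁ * x + W.a₃) = 3 * x ^ 2 + 2 * W.a₂ * x + W.a₄ - W.a₁ * y := by
    rw [hl, slope_of_Y_ne rfl hne]
    have : y - W.toAffine.negY x y = 2 * y + W.a₁ * x + W.a₃ := by
      unfold negY
      ring
    rw [this, div_mul_cancel₀ _ hD]
  have hX : l ^ 2 + W.a₁ * l - W.a₂ - x - x = x := by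
    have h1 : Point.some x y h + Point.some x y h = -Point.some x y h :=
      eq_neg_of_add_eq_zero_left h3
    rw [Point.add_self_of_Y_ne hne, Point.neg_some] at h1
    simp only [Point.some.injEq] at h1
    exact h1.1
  set C : VariableChange F := ⟨1, x, l, y⟩ with hC
  have hu : (((1 : Fˣ)⁻¹ : Fˣ) : F) = 1 := by simp
  have hV : C • W = C3 (C • W).a₁ (C • W).a₃ := by
    ext
    · rfl
    · rw [variableChange_a₂]
      change (((1 : Fˣ)⁻¹ : Fˣ) : F) ^ 2 * (W.a₂ - l * W.a₁ + 3 * x - l ^ 2) = 0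
      rw [hu]
      linear_combination -hX
    · rfl
    · rw [variableChange_a₄]
      change (((1 : Fˣ)⁻¹ : Fˣ) : F) ^ 4 *
        (W.a₄ - l * W.a₃ + 2 * x * W.a₂ - (y + x * l) * W.a₁ + 3 * x ^ 2 - 2 * l * y) = 0
      rw [hu]
      linear_combination -hl'
    · rw [variableChange_a₆]
      change (((1 : Fˣ)⁻¹ : Fˣ) : F) ^ 6 *
        (W.a₆ + x * W.a₄ + x ^ 2 * W.a₂ + x ^ 3 - y * W.a₃ - y ^ 2 - x * y * W.a₁) = 0
      rw [hu]
      linear_combination -heq
  have hΔ' : (C3 (C • W).a₁ (C • W).a₃).Δ ≠ 0 := by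
    rw [← hV, variableChange_Δ]
    exact mul_ne_zero (pow_ne_zero _ (Units.ne_zero _)) hΔ
  obtain ⟨e, he⟩ := Fermat.Agent.S41vc.exists_equiv W C hΔ hV
  refine ⟨_, _, hΔ', e, fun h0 => ?_⟩
  obtain ⟨h', h1⟩ := he 0 0 h0
  rw [h1]
  simp only [Point.some.injEq]
  constructor
  · change ((1 : Fˣ) : F) ^ 2 * 0 + x = x
    ring
  · change ((1 : Fˣ) : F) ^ 3 * 0 + ((1 : Fˣ) : F) ^ 2 * l * 0 + y = y
    ring

/-- **The product of the ordinates of three collinear points is a cube.** -/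
theorem prod_y_eq_cube (h2 : (2 : F) ≠ 0) {P Q : (C3 α β).toAffine.Point} {x₁ y₁ x₂ y₂ : F}
    {h₁ : (C3 α β).toAffine.Nonsingular x₁ y₁} {h₂ : (C3 α β).toAffine.Nonsingular x₂ y₂}
    (hP : P = .some x₁ y₁ h₁) (hQ : Q = .some x₂ y₂ h₂) {x₃ y₃ : F}
    {h₃ : (C3 α β).toAffine.Nonsingular x₃ y₃} (hS : P + Q = .some x₃ y₃ h₃) :
    ∃ ν : F, y₁ * y₂ * (C3 α β).toAffine.negY x₃ y₃ = ν ^ 3 := by
  subst hP hQ
  have hxy : ¬(x₁ = x₂ ∧ y₁ = (C3 α β).toAffine.negY x₂ y₂) := fun hh => by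
    rw [Point.add_of_Y_eq hh.1 hh.2] at hS
    exact Point.some_ne_zero h₃ hS.symm
  have hpoly := fun t => congrArg (Polynomial.eval t) (addPolynomial_slope h₁.1 h₂.1 hxy)
  have hy₂ : y₂ = (C3 α β).toAffine.slope x₁ x₂ y₁ y₂ * (x₂ - x₁) + y₁ := by
    by_cases hx : x₁ = x₂
    · subst hx
      have : y₁ = y₂ := Y_eq_of_Y_ne h₁.1 h₂.1 rfl fun h0 => hxy ⟨rfl, h0⟩
      rw [this]
      ring
    · rw [slope_of_X_ne hx]
      have : x₁ - x₂ ≠ 0 := sub_ne_zero.2 hx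
      field_simp
      ring
  rw [Point.add_some hxy] at hS
  simp only [Point.some.injEq] at hS
  obtain ⟨hx₃, hy₃⟩ := hS
  set l := (C3 α β).toAffine.slope x₁ x₂ y₁ y₂ with hl
  have hn : (C3 α β).toAffine.negY x₃ y₃ = l * (x₃ - x₁) + y₁ := by
    rw [← hy₃]
    unfold addY negAddY
    rw [hx₃, negY_C3, negY_C3]
    ring
  rw [hx₃] at hpoly
  have key : ∀ t : F, (l * (t - x₁) + y₁) ^ 2 + α * t * (l * (t - x₁) + y₁) +
      β * (l * (t - x₁) + y₁) - t ^ 3 = -((t - x₁) * (t - x₂) * (t - x₃)) := fun t => by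
    have hp := hpoly t
    rw [addPolynomial_eq] at hp
    simp only [Cubic.toPoly, Polynomial.eval_neg, Polynomial.eval_add, Polynomial.eval_mul,
      Polynomial.eval_sub, Polynomial.eval_C, Polynomial.eval_X, Polynomial.eval_pow] at hp
    linear_combination hp
  have a0 := key 0
  have a1 := key 1
  have a2 := key (-1)
  set ν := y₁ - l * x₁ with hν
  have hy₁ : y₁ = ν + l * x₁ := by rw [hν]; ring
  have c0 : ν ^ 2 + β * ν - x₁ * x₂ * x₃ = 0 := by
    rw [hy₁] at a0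
    linear_combination a0
  have c1 : 2 * l * ν + α * ν + β * l + (x₁ * x₂ + x₁ * x₃ + x₂ * x₃) = 0 := by
    rw [hy₁] at a1 a2
    refine mul_left_cancel₀ h2 ?_
    linear_combination a1 - a2
  have c2 : l ^ 2 + α * l - (x₁ + x₂ + x₃) = 0 := by
    rw [hy₁] at a1 a2
    refine mul_left_cancel₀ h2 ?_
    linear_combination a1 + a2 - 2 * c0
  refine ⟨ν, ?_⟩
  rw [hn, hy₂, hy₁]
  linear_combination (-l ^ 3) * c0 + (l ^ 2 * ν) * c1 - (l * ν ^ 2) * c2

/-- **`y(3 P)` is a cube.** -/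
theorem exists_cube (h2 : (2 : F) ≠ 0) {P : (C3 α β).toAffine.Point} {x y x₂ y₂ x₃ y₃ : F}
    {h : (C3 α β).toAffine.Nonsingular x y} {h₂ : (C3 α β).toAffine.Nonsingular x₂ y₂}
    {h₃ : (C3 α β).toAffine.Nonsingular x₃ y₃} (hP : P = .some x y h)
    (hP2 : P + P = .some x₂ y₂ h₂) (hP3 : P + P + P = .some x₃ y₃ h₃) (hx : x ≠ 0)
    (hx₂ : x₂ ≠ 0) : ∃ c : F, y₃ = c ^ 3 := by
  obtain ⟨A, hA⟩ := prod_y_eq_cube h2 hP hP hP2
  have n1 : -P = .some x ((C3 α β).toAffine.negY x y) ((nonsingular_neg ..).2 h) := by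
    rw [hP, Point.neg_some]
  have n2 : -(P + P) = .some x₂ ((C3 α β).toAffine.negY x₂ y₂) ((nonsingular_neg ..).2 h₂) := by
    rw [hP2, Point.neg_some]
  have n3 : -P + -(P + P) = .some x₃ ((C3 α β).toAffine.negY x₃ y₃) ((nonsingular_neg ..).2 h₃) := by
    have : -P + -(P + P) = -(P + P + P) := by abel
    rw [this, hP3, Point.neg_some]
  obtain ⟨B, hB⟩ := prod_y_eq_cube h2 n1 n2 n3
  rw [negY_negY] at hB
  have e1 := y_mul_negY h.1
  have e2 := y_mul_negY h₂.1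
  set g := (C3 α β).toAffine.negY x y with hg
  set g₂ := (C3 α β).toAffine.negY x₂ y₂ with hg₂
  have hy : y ≠ 0 := by
    rintro rfl
    rw [zero_mul] at e1
    exact hx (pow_eq_zero_iff three_ne_zero |>.1 (neg_eq_zero.1 e1.symm))
  have hg₂0 : g₂ ≠ 0 := by
    intro h0
    rw [h0, mul_zero] at e2
    exact hx₂ (pow_eq_zero_iff three_ne_zero |>.1 (neg_eq_zero.1 e2.symm))
  have hA0 : A ≠ 0 := by
    rintro rfl
    exact mul_ne_zero (mul_ne_zero hy hy) hg₂0 (by rw [hA]; ring)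
  refine ⟨-(B * y / (x * A)), ?_⟩
  have hd : (x * A) ^ 3 ≠ 0 := pow_ne_zero 3 (mul_ne_zero hx hA0)
  have : (-(B * y / (x * A))) ^ 3 = -(B * y) ^ 3 / (x * A) ^ 3 := by
    rw [Odd.neg_pow (by decide), div_pow, neg_div]
  rw [this, eq_div_iff hd, mul_pow, mul_pow, ← hA, ← hB]
  linear_combination (y₃ * y ^ 2 * g₂) * e1

/-- the condition `3 S = Q` -/
theorem cond_nine {x y : F} {h : (C3 α β).toAffine.Nonsingular x y}
    {h0 : (C3 α β).toAffine.Nonsingular 0 0} (hx : x ≠ 0)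
    (h3 : Point.some x y h + .some x y h + .some x y h = .some 0 0 h0) :
    2 * y + α * x + β ≠ 0 ∧
    ((3 * x ^ 2 - α * y) / (2 * y + α * x + β)) ^ 2 +
      α * ((3 * x ^ 2 - α * y) / (2 * y + α * x + β)) - x - x =
      ((y + β) / x) ^ 2 + α * ((y + β) / x) - x := by
  have hne : y ≠ (C3 α β).toAffine.negY x y := by
    intro h1
    rw [Point.add_self_of_Y_eq h1, zero_add] at h3
    simp only [Point.some.injEq] at h3
    exact hx h3.1
  have hD : 2 * y + α * x + β ≠ 0 := by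
    intro h1
    apply hne
    rw [negY_C3]
    linear_combination h1
  refine ⟨hD, ?_⟩
  have hneg : -Point.some 0 0 h0 =
      Point.some 0 ((C3 α β).toAffine.negY 0 0) ((nonsingular_neg ..).2 h0) := Point.neg_some h0
  have h4 : Point.some x y h + .some x y h = -(Point.some x y h + -Point.some 0 0 h0) := by
    rw [← h3]
    abel
  have hxy : ¬(x = 0 ∧ y = (C3 α β).toAffine.negY 0 ((C3 α β).toAffine.negY 0 0)) :=
    fun hh => hx hh.1
  rw [hneg, Point.add_some hxy, Point.add_self_of_Y_ne hne, Point.neg_some] at h4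
  simp only [Point.some.injEq] at h4
  have h5 := h4.1
  rw [slope_of_Y_ne rfl hne, slope_of_X_ne hx] at h5
  have e1 : y - (C3 α β).toAffine.negY x y = 2 * y + α * x + β := by rw [negY_C3]; ring
  have e2 : y - (C3 α β).toAffine.negY 0 0 = y + β := by rw [negY_C3]; ring
  rw [e1, e2, sub_zero] at h5
  unfold addX at h5
  change ((3 * x ^ 2 + 2 * 0 * x + 0 - α * y) / (2 * y + α * x + β)) ^ 2 +
    α * ((3 * x ^ 2 + 2 * 0 * x + 0 - α * y) / (2 * y + α * x + β)) - 0 - x - x =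
    ((y + β) / x) ^ 2 + α * ((y + β) / x) - 0 - x - 0 at h5
  have e3 : (3 * x ^ 2 + 2 * 0 * x + 0 - α * y) = 3 * x ^ 2 - α * y := by ring
  rw [e3, sub_zero, sub_zero, sub_zero] at h5
  exact h5

end general

/-- Fermat's last theorem for the exponent three: `T (T + 1)` is not a cube `≠ 0` -/
theorem mul_add_one_ne_cube {T X : ℚ} (h : T * (T + 1) = X ^ 3) : X = 0 := by
  by_contra hX
  set m := T.num with hm
  set n := (T.den : ℤ) with hn
  have hn0 : n ≠ 0 := by rw [hn]; exact_mod_cast T.den_nz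
  have hn0' : (n : ℚ) ≠ 0 := by exact_mod_cast hn0
  have hTn : T * n = m := by
    rw [hn, hm]
    exact_mod_cast Rat.mul_den_eq_num T
  have hc : IsCoprime m n := by
    rw [Int.isCoprime_iff_gcd_eq_one]
    have := T.reduced
    rw [hm, hn, Int.gcd, Int.natAbs_natCast]
    exact this
  have h1 : ((m * (m + n) * n : ℤ) : ℚ) = (n * X) ^ 3 := by
    push_cast
    rw [mul_pow, ← h, ← hTn]
    ring
  obtain ⟨k, hk⟩ : ∃ k : ℤ, (n : ℚ) * X = k := by
    have hint : IsIntegral ℤ ((n : ℚ) * X) := by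
      refine IsIntegral.of_pow (n := 3) (by norm_num) ?_
      rw [← h1]
      exact isIntegral_algebraMap
    obtain ⟨k, hk⟩ := IsIntegrallyClosed.isIntegral_iff.1 hint
    exact ⟨k, by rw [← hk]; simp⟩
  have h2 : m * (m + n) * n = k ^ 3 := by
    rw [hk] at h1
    exact_mod_cast h1
  have hk0 : k ≠ 0 := by
    rintro rfl
    rw [Int.cast_zero] at hk
    exact mul_ne_zero hn0' hX hk
  have c1 : IsCoprime m (m + n) := by
    have := hc.add_mul_left_right 1
    rw [mul_one, add_comm] at this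
    exact this
  have c2 : IsCoprime (m + n) n := by
    have := hc.symm.add_mul_left_right 1
    rw [mul_one] at this
    exact this.symm
  obtain ⟨⟨c, hc'⟩, -⟩ := Int.eq_pow_of_mul_eq_pow_odd (a := n) (b := m * (m + n)) (c := k)
    (k := 3) (IsCoprime.mul_right hc.symm c2.symm) (by decide) (by rw [← h2]; ring)
  obtain ⟨⟨a, ha⟩, -⟩ := Int.eq_pow_of_mul_eq_pow_odd (a := m) (b := (m + n) * n) (c := k)
    (k := 3) (IsCoprime.mul_right c1 hc) (by decide) (by rw [← h2]; ring)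
  obtain ⟨⟨b, hb⟩, -⟩ := Int.eq_pow_of_mul_eq_pow_odd (a := m + n) (b := m * n) (c := k)
    (k := 3) (IsCoprime.mul_right c1.symm c2) (by decide) (by rw [← h2]; ring)
  have hm0 : m ≠ 0 := by
    intro h0
    rw [h0, zero_mul, zero_mul] at h2
    exact pow_ne_zero 3 hk0 h2.symm
  have hmn0 : m + n ≠ 0 := by
    intro h0
    rw [h0, mul_zero, zero_mul] at h2
    exact pow_ne_zero 3 hk0 h2.symm
  have hflt := (fermatLastTheoremFor_iff_int.1 fermatLastTheoremThree) a c b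
    (by rintro rfl; exact hm0 (by rw [ha]; ring))
    (by rintro rfl; exact hn0 (by rw [hc']; ring))
    (by rintro rfl; exact hmn0 (by rw [hb]; ring))
  exact hflt (by rw [← ha, ← hc', ← hb])

/-- the algebra of a point of order 27 -/
theorem algebra_nine {α v w b : ℚ} (hv : v ≠ 0) (hw : w ≠ 0) (hb : b ≠ 0)
    (hcurve : v ^ 3 + α * (v * w) + b ^ 3 = w ^ 3)
    (hD : v ^ 3 + w ^ 3 ≠ 0)
    (h : ((3 * (v * w) ^ 2 - α * v ^ 3) / (v ^ 3 + w ^ 3)) ^ 2 +
      α * ((3 * (v * w) ^ 2 - α * v ^ 3) / (v ^ 3 + w ^ 3)) - v * w - v * w =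
      ((v ^ 3 + b ^ 3) / (v * w)) ^ 2 + α * ((v ^ 3 + b ^ 3) / (v * w)) - v * w) : False := by
  have hN : -(v ^ 6 * w ^ 3) + w ^ 6 * b ^ 3 + b ^ 6 * v ^ 3 + 3 * v ^ 3 * w ^ 3 * b ^ 3 = 0 := by
    have hL : (3 * (v * w) ^ 2 - α * v ^ 3) / (v ^ 3 + w ^ 3) * (v ^ 3 + w ^ 3) =
        3 * (v * w) ^ 2 - α * v ^ 3 := div_mul_cancel₀ _ hD
    have hM : (v ^ 3 + b ^ 3) / (v * w) * (v * w) = v ^ 3 + b ^ 3 :=
      div_mul_cancel₀ _ (mul_ne_zero hv hw)
    generalize (3 * (v * w) ^ 2 - α * v ^ 3) / (v ^ 3 + w ^ 3) = L at h hL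
    generalize (v ^ 3 + b ^ 3) / (v * w) = M at h hM
    obtain ⟨A, hA⟩ : ∃ A, α * (v * w) = A := ⟨_, rfl⟩
    have hA' : A = w ^ 3 - v ^ 3 - b ^ 3 := by rw [← hA]; linear_combination hcurve
    have k1 : (v * w) * (L * (v ^ 3 + w ^ 3)) = v ^ 3 * (3 * w ^ 3 - A) := by
      rw [hL]
      linear_combination (-v ^ 3) * hA
    have k3 : (v ^ 3 * (3 * w ^ 3 - A)) ^ 2 + A * (v ^ 3 * (3 * w ^ 3 - A)) * (v ^ 3 + w ^ 3) -
        2 * (v * w) ^ 3 * (v ^ 3 + w ^ 3) ^ 2 =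
        ((v ^ 3 + b ^ 3) ^ 2 + A * (v ^ 3 + b ^ 3) - (v * w) ^ 3) * (v ^ 3 + w ^ 3) ^ 2 := by
      rw [← k1, ← hM, ← hA]
      linear_combination ((v * w) ^ 2 * (v ^ 3 + w ^ 3) ^ 2) * h
    refine mul_left_cancel₀ (pow_ne_zero 3 hw) ?_
    rw [hA'] at k3
    linear_combination (-1 : ℚ) * k3
  set p := -(v ^ 2 * w) with hp
  set q := w ^ 2 * b with hq
  set r := b ^ 2 * v with hr
  have hprod : (p + q + r) * (p ^ 2 + q ^ 2 + r ^ 2 - p * q - q * r - r * p) = 0 := by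
    rw [hp, hq, hr]
    linear_combination hN
  rcases mul_eq_zero.1 hprod with h1 | h1
  · have hT : (-(v * w) / b ^ 2) * (-(v * w) / b ^ 2 + 1) = (w / b) ^ 3 := by
      rw [hp, hq, hr] at h1
      field_simp
      linear_combination (-1 : ℚ) * h1
    exact div_ne_zero hw hb (mul_add_one_ne_cube hT)
  · have h2 : (p - q) ^ 2 + (q - r) ^ 2 + (r - p) ^ 2 = 0 := by linear_combination 2 * h1
    have h3 : p = q := by nlinarith [sq_nonneg (p - q), sq_nonneg (q - r), sq_nonneg (r - p)]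
    have h4 : q = r := by nlinarith [sq_nonneg (p - q), sq_nonneg (q - r), sq_nonneg (r - p)]
    rw [hp, hq] at h3
    rw [hq, hr] at h4
    have h5 : -v ^ 2 = w * b := by
      refine mul_left_cancel₀ hw ?_
      linear_combination h3
    have h6 : w ^ 2 = b * v := by
      refine mul_left_cancel₀ hb ?_
      linear_combination h4
    exact hD (by linear_combination (-v) * h5 + w * h6)

theorem exists_some_C3 {α β : ℚ} {A : (C3 α β).toAffine.Point}
    {h00 : (C3 α β).toAffine.Nonsingular 0 0} (h0 : A ≠ 0) (h1 : A ≠ .some 0 0 h00)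
    (h2 : A ≠ -.some 0 0 h00) : ∃ x y h, A = .some x y h ∧ x ≠ 0 := by
  rcases A with _ | ⟨x, y, h⟩
  · exact absurd rfl h0
  refine ⟨x, y, h, rfl, ?_⟩
  rintro rfl
  have h3 := equation_C3.1 h.1
  have h4 : y * (y + β) = 0 := by linear_combination h3
  rcases mul_eq_zero.1 h4 with h5 | h5
  · subst h5
    exact h1 rfl
  · apply h2
    rw [Point.neg_some]
    simp only [Point.some.injEq, true_and]
    rw [negY_C3]
    linear_combination h5

/-- **No elliptic curve over `ℚ` has a rational point of order 27.** -/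
theorem addOrderOf_ne_twentyseven {W : WeierstrassCurve ℚ} (hΔ : W.Δ ≠ 0)
    (P : W.toAffine.Point) : addOrderOf P ≠ 27 := by
  intro hP
  have key0 : ∀ k : ℕ, k • P = 0 ↔ 27 ∣ k := fun k => by
    rw [← hP]
    exact addOrderOf_dvd_iff_nsmul_eq_zero.symm
  obtain ⟨α, β, hΔ', e, he⟩ := exists_C3 hΔ (Q := 9 • P) (by rw [Ne, key0]; norm_num)
    (by rw [← add_nsmul, ← add_nsmul, key0])
  have h00 : (C3 α β).toAffine.Nonsingular 0 0 :=
    (equation_iff_nonsingular_of_Δ_ne_zero hΔ').1 (equation_C3.2 (by ring))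
  obtain ⟨g, hg⟩ : ∃ g, g = e.symm P := ⟨_, rfl⟩
  have hQ : (9 : ℤ) • g = .some 0 0 h00 := by
    rw [hg, ← map_zsmul e.symm]
    have : (9 : ℤ) • P = 9 • P := by norm_cast
    rw [this, ← he h00, e.symm_apply_apply]
  have key : ∀ m n : ℤ, m • g = n • g ↔ (27 : ℤ) ∣ m - n := fun m n => by
    rw [← sub_eq_zero, sub_eq_add_neg, ← sub_zsmul, hg, ← map_zsmul e.symm, map_eq_zero_iff _ e.symm.injective,
      ← addOrderOf_dvd_iff_zsmul_eq_zero, hP]
    rfl
  have hpt : ∀ m : ℤ, ¬ (27 : ℤ) ∣ m → ¬ (27 : ℤ) ∣ m - 9 → ¬ (27 : ℤ) ∣ m + 9 →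
      ∃ x y h, m • g = .some x y h ∧ x ≠ 0 := fun m a1 a2 a3 => by
    refine exists_some_C3 (h00 := h00) ?_ ?_ ?_
    · intro h
      apply a1
      have := (key m 0).1 (by rw [h, zero_zsmul])
      simpa using this
    · rw [← hQ, Ne, key]
      exact a2
    · rw [← hQ, ← neg_zsmul, Ne, key]
      simpa using a3
  obtain ⟨x₁, y₁, n₁, s₁, hx₁⟩ := hpt 1 (by decide) (by decide) (by decide)
  obtain ⟨x₂, y₂, n₂, s₂, hx₂⟩ := hpt 2 (by decide) (by decide) (by decide)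
  obtain ⟨x, y, n, s, hx⟩ := hpt 3 (by decide) (by decide) (by decide)
  obtain ⟨x₆, y₆, n₆, s₆, hx₆⟩ := hpt (-6) (by decide) (by decide) (by decide)
  rw [one_zsmul] at s₁
  -- `y(3 g)` is a cube
  obtain ⟨v, hv⟩ := exists_cube two_ne_zero s₁ (x₂ := x₂) (y₂ := y₂) (h₂ := n₂)
    (by rw [← s₂, two_zsmul]) (x₃ := x) (y₃ := y) (h₃ := n)
    (by rw [← s, ← two_zsmul, ← add_one_zsmul]; rfl) hx₁ hx₂
  -- `- β` is a cube
  have s' : (-3 : ℤ) • g = .some x ((C3 α β).toAffine.negY x y) ((nonsingular_neg ..).2 n) := by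
    rw [neg_zsmul, s, Point.neg_some]
  have s9 : (-9 : ℤ) • g =
      .some 0 ((C3 α β).toAffine.negY 0 0) ((nonsingular_neg ..).2 h00) := by
    rw [neg_zsmul, hQ, Point.neg_some]
  obtain ⟨c, hc⟩ := exists_cube two_ne_zero s' (x₂ := x₆) (y₂ := y₆) (h₂ := n₆)
    (by rw [← s₆, ← add_zsmul]; rfl) (x₃ := 0) (y₃ := (C3 α β).toAffine.negY 0 0)
    (h₃ := (nonsingular_neg ..).2 h00)
    (by rw [← s9, ← add_zsmul, ← add_zsmul]; rfl) hx hx₆
  have hβ : β = (-c) ^ 3 := by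
    rw [negY_C3] at hc
    linear_combination -hc
  have hβ0 : β ≠ 0 := by
    intro h0
    apply hΔ'
    rw [Δ_C3, h0]
    ring
  have hb : -c ≠ 0 := by
    intro h0
    rw [h0] at hβ
    exact hβ0 (by rw [hβ]; ring)
  have hcurve := equation_C3.1 n.1
  have hv0 : v ≠ 0 := by
    rintro rfl
    have hy : y = 0 := by rw [hv]; ring
    rw [hy] at hcurve
    exact hx (pow_eq_zero_iff three_ne_zero |>.1 (by linear_combination -hcurve))
  obtain ⟨w, hw⟩ : ∃ w, x = v * w := ⟨x / v, by field_simp⟩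
  have hw0 : w ≠ 0 := by
    rintro rfl
    exact hx (by rw [hw]; ring)
  have h3 : Point.some x y n + .some x y n + .some x y n = .some 0 0 h00 := by
    rw [← s, ← hQ, ← add_zsmul, ← add_zsmul]
    rfl
  obtain ⟨hD, hE⟩ := cond_nine hx h3
  have hcurve' : v ^ 3 + α * (v * w) + (-c) ^ 3 = w ^ 3 := by
    rw [← hβ]
    refine mul_left_cancel₀ (pow_ne_zero 3 hv0) ?_
    rw [hv, hw] at hcurve
    linear_combination hcurve
  have hD' : 2 * y + α * x + β = v ^ 3 + w ^ 3 := by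
    rw [hv, hw, hβ]
    linear_combination hcurve'
  rw [hD'] at hD hE
  refine algebra_nine hv0 hw0 hb hcurve' hD ?_
  rw [hw, hv] at hE
  rw [← hβ]
  linear_combination hE

end Fermat.Agent.Cor.MT
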