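import Fermat.Agent.Corollaries.MT.Main
import Fermat.Agent.Corollaries.MT.Order27
import Fermat.Agent.Corollaries.K4.Small.Fifteen
import Fermat.Agent.Corollaries.K4.Small.Seven
import Fermat.Agent.Corollaries.Mazur.Main
import Fermat.Agent.Corollaries.Mazur.FortyNine

/-!
# Rational torsion of elliptic curves over `ℚ`: Mazur's theorem up to five orders

* `addOrderOf_mem` : the order of a rational torsion point is `1, ..., 10, 12` or divisible by
  `13`, `18`, `21`, `25` or `35`;
* `mazur_up_to` : `E(ℚ)_tors` is one of Mazur's fifteen groups, or `E(ℚ)` has a point of order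
  `13`, `18`, `21`, `25` or `35`.
-/

set_option autoImplicit false

open WeierstrassCurve WeierstrassCurve.Affine
open Fermat.Agent.Cor.MordellWeil

namespace Fermat.Agent.Cor.MT

/-- the arithmetic of the possible orders -/
theorem mem_of_not_dvd {n : ℕ} (hn : n ≠ 0)
    (hp : ∀ q : ℕ, q.Prime → q ∣ n → q ∈ ({2, 3, 5, 7, 13} : Finset ℕ))
    (h14 : ¬ 14 ∣ n) (h15 : ¬ 15 ∣ n) (h16 : ¬ 16 ∣ n) (h20 : ¬ 20 ∣ n) (h24 : ¬ 24 ∣ n)
    (h27 : ¬ 27 ∣ n) (h13 : ¬ 13 ∣ n) (h18 : ¬ 18 ∣ n) (h21 : ¬ 21 ∣ n) (h25 : ¬ 25 ∣ n)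
    (h35 : ¬ 35 ∣ n) (h49 : ¬ 49 ∣ n) : n ∈ ({1, 2, 3, 4, 5, 6, 7, 8, 9, 10, 12} : Set ℕ) := by
  have h36 : ¬ 36 ∣ n := fun h => h18 ((by norm_num : 18 ∣ 36).trans h)
  by_cases h7 : 7 ∣ n
  · obtain ⟨m, rfl⟩ := h7
    have hm : m = 1 := by
      by_contra hm
      obtain ⟨q, hq, hqm⟩ := Nat.exists_prime_and_dvd hm
      have := hp q hq (hqm.mul_left 7)
      simp only [Finset.mem_insert, Finset.mem_singleton] at this
      rcases this with rfl | rfl | rfl | rfl | rfl
      · exact h14 (Nat.mul_dvd_mul_left 7 hqm)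
      · exact h21 (Nat.mul_dvd_mul_left 7 hqm)
      · exact h35 (Nat.mul_dvd_mul_left 7 hqm)
      · exact h49 (Nat.mul_dvd_mul_left 7 hqm)
      · exact h13 (hqm.mul_left 7)
    subst hm
    simp
  obtain ⟨a, m, hm2, rfl⟩ := Nat.exists_eq_pow_mul_and_not_dvd hn 2 (by norm_num)
  have hm0 : m ≠ 0 := right_ne_zero_of_mul hn
  obtain ⟨b, k, hk3, rfl⟩ := Nat.exists_eq_pow_mul_and_not_dvd hm0 3 (by norm_num)
  have hk0 : k ≠ 0 := right_ne_zero_of_mul hm0
  have hk2 : ¬ 2 ∣ k := fun h => hm2 (h.mul_left _)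
  have ha : a < 4 := by
    by_contra h
    exact h16 ((pow_dvd_pow 2 (not_lt.1 h)).trans (dvd_mul_right _ _))
  have hb : b < 3 := by
    by_contra h
    exact h27 (((pow_dvd_pow 3 (not_lt.1 h)).trans (dvd_mul_right _ _)).trans
      (dvd_mul_left _ _))
  have hk : k = 5 ^ k.primeFactorsList.length := by
    refine Nat.eq_prime_pow_of_unique_prime_dvd hk0 fun {q} hq hqk => ?_
    have := hp q hq ((hqk.mul_left _).mul_left _)
    simp only [Finset.mem_insert, Finset.mem_singleton] at this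
    rcases this with rfl | rfl | rfl | rfl | rfl
    · exact absurd hqk hk2
    · exact absurd hqk hk3
    · rfl
    · exact absurd ((hqk.mul_left _).mul_left _) h7
    · exact absurd ((hqk.mul_left _).mul_left _) h13
  generalize k.primeFactorsList.length = c at hk
  subst hk
  have hc : c < 2 := by
    by_contra h
    exact h25 (((pow_dvd_pow 5 (not_lt.1 h)).mul_left _).mul_left _)
  interval_cases a <;> interval_cases b <;> interval_cases c <;> norm_num at *

variable (E : WeierstrassCurve ℚ) [E.IsElliptic]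

theorem exists_order_of_dvd {A : Type*} [AddCommGroup A] {P : A} (hP : addOrderOf P ≠ 0) {d : ℕ}
    (hd : d ∣ addOrderOf P) : ∃ Q : A, addOrderOf Q = d := by
  obtain ⟨m, hm⟩ := hd
  have hm0 : m ≠ 0 := fun h0 => hP (by rw [hm, h0, mul_zero])
  refine ⟨m • P, ?_⟩
  rw [addOrderOf_nsmul_of_dvd hm0 ⟨d, by rw [hm, mul_comm]⟩, hm,
    Nat.mul_div_cancel _ (Nat.pos_of_ne_zero hm0)]

/-- **No elliptic curve over `ℚ` has a rational point of order 20.** -/
theorem addOrderOf_ne_twenty (P : E.toAffine.Point) : addOrderOf P ≠ 20 := by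
  intro hP
  have key : ∀ k : ℕ, k • P = 0 ↔ 20 ∣ k := fun k => by
    rw [← hP]
    exact addOrderOf_dvd_iff_nsmul_eq_zero.symm
  refine addOrderOf_ne_of_four E.isUnit_Δ.ne_zero (P := 5 • P)
    (by rw [← add_nsmul, Ne, key]; norm_num)
    (by rw [← add_nsmul, ← add_nsmul, key]) Nat.prime_five le_rfl (4 • P) ?_
  rw [addOrderOf_nsmul_of_dvd (by norm_num) (by rw [hP]; norm_num), hP]

/-- **The possible orders of the rational torsion points.** -/
theorem addOrderOf_mem {P : E.toAffine.Point} (hP : addOrderOf P ≠ 0) :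
    addOrderOf P ∈ ({1, 2, 3, 4, 5, 6, 7, 8, 9, 10, 12} : Set ℕ) ∨
      ∃ d ∈ ({13, 18, 21, 25, 35} : Set ℕ), d ∣ addOrderOf P := by
  by_contra hcon
  push Not at hcon
  obtain ⟨h1, h2⟩ := hcon
  have hΔ : E.Δ ≠ 0 := E.isUnit_Δ.ne_zero
  refine h1 (mem_of_not_dvd hP (fun q hq hd => prime_dvd_addOrderOf E hP hq hd) ?_ ?_ ?_ ?_ ?_ ?_
    (h2 13 (by simp)) (h2 18 (by simp)) (h2 21 (by simp)) (h2 25 (by simp)) (h2 35 (by simp))
    (not_fortynine_dvd_addOrderOf E hP))
  · intro h
    obtain ⟨Q, hQ⟩ := exists_order_of_dvd hP h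
    exact no_point_fourteen E Q hQ
  · intro h
    obtain ⟨Q, hQ⟩ := exists_order_of_dvd hP h
    exact no_point_fifteen E Q hQ
  · intro h
    obtain ⟨Q, hQ⟩ := exists_order_of_dvd hP h
    exact addOrderOf_ne_sixteen_any hΔ Q hQ
  · intro h
    obtain ⟨Q, hQ⟩ := exists_order_of_dvd hP h
    exact addOrderOf_ne_twenty E Q hQ
  · intro h
    obtain ⟨Q, hQ⟩ := exists_order_of_dvd hP h
    exact addOrderOf_ne_twentyfour_any hΔ Q hQ
  · intro h
    obtain ⟨Q, hQ⟩ := exists_order_of_dvd hP h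
    exact addOrderOf_ne_twentyseven hΔ Q hQ

/-- the rational points killed by an odd prime: at most `p` -/
theorem card_torsion_le_prime {p : ℕ} (hp : p.Prime) (hp2 : p ≠ 2) :
    Nat.card {g : AddCommGroup.torsion E.toAffine.Point // p • g = 0} ≤ p := by
  classical
  by_cases h : ∃ g : AddCommGroup.torsion E.toAffine.Point, p • g = 0 ∧ g ≠ 0
  · obtain ⟨g, hg, hg0⟩ := h
    have ho : addOrderOf g = p :=
      haveI : Fact p.Prime := ⟨hp⟩
      addOrderOf_eq_prime hg hg0
    have e : Nat.card (AddSubgroup.zmultiples g) = p := by rw [Nat.card_zmultiples, ho]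
    refine le_of_le_of_eq (Nat.card_le_card_of_injective
      (fun x => (⟨x.1, ?_⟩ : AddSubgroup.zmultiples g)) fun x y hxy => ?_) e
    · obtain ⟨k, hk⟩ := exists_zsmul_of_prime E hp hp2 g.1 x.1.1 (congrArg Subtype.val hg)
        (congrArg Subtype.val x.2) (fun h => hg0 (Subtype.ext h))
      exact AddSubgroup.mem_zmultiples_iff.2 ⟨k, (Subtype.ext hk).symm⟩
    · simp only [Subtype.mk.injEq] at hxy
      exact Subtype.ext hxy
  · push Not at h
    have : Subsingleton {g : AddCommGroup.torsion E.toAffine.Point // p • g = 0} :=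
      ⟨fun a b => Subtype.ext ((h a.1 a.2).trans (h b.1 b.2).symm)⟩
    exact (Finite.card_le_one_iff_subsingleton.2 this).trans hp.one_lt.le

/-- **The torsion subgroup is cyclic if `4` does not divide its order.** -/
theorem isAddCyclic_of_not_dvd
    (h : ¬ 4 ∣ Nat.card (AddCommGroup.torsion E.toAffine.Point)) :
    IsAddCyclic (AddCommGroup.torsion E.toAffine.Point) := by
  classical
  refine isAddCyclic_of_card_torsion_le fun p hp => ?_
  by_cases hp2 : p = 2
  · subst hp2
    by_contra hlt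
    push Not at hlt
    have hex : ∃ T₁ T₂ : AddCommGroup.torsion E.toAffine.Point, T₁ ≠ 0 ∧ T₂ ≠ 0 ∧ T₁ ≠ T₂ ∧
        2 • T₁ = 0 ∧ 2 • T₂ = 0 := by
      by_contra hno
      push Not at hno
      by_cases h1 : ∃ T : AddCommGroup.torsion E.toAffine.Point, T ≠ 0 ∧ 2 • T = 0
      · obtain ⟨T, hT0, hT⟩ := h1
        have hcard : Nat.card {g : AddCommGroup.torsion E.toAffine.Point // 2 • g = 0} ≤ 2 := by
          have e : Nat.card ({0, T} : Finset (AddCommGroup.torsion E.toAffine.Point)) ≤ 2 := by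
            rw [Nat.card_eq_fintype_card, Fintype.card_coe]
            exact Finset.card_le_two
          refine (Nat.card_le_card_of_injective
            (fun x => (⟨x.1, ?_⟩ :
              ({0, T} : Finset (AddCommGroup.torsion E.toAffine.Point)))) fun x y hxy => ?_).trans e
          · rw [Finset.mem_insert, Finset.mem_singleton]
            by_cases h0 : x.1 = 0
            · exact Or.inl h0
            · right
              by_contra hne
              exact hno x.1 T h0 hT0 hne x.2 hT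
          · simp only [Subtype.mk.injEq] at hxy
            exact Subtype.ext hxy
        omega
      · push Not at h1
        have : Subsingleton {g : AddCommGroup.torsion E.toAffine.Point // 2 • g = 0} := by
          refine ⟨fun a b => Subtype.ext ?_⟩
          have e : ∀ x : {g : AddCommGroup.torsion E.toAffine.Point // 2 • g = 0},
              x.1 = 0 := fun x => by
            by_contra h0
            exact h1 x.1 h0 x.2
          rw [e a, e b]
        have := Finite.card_le_one_iff_subsingleton.2 this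
        omega
    obtain ⟨T₁, T₂, h₁, h₂, hne, k₁, k₂⟩ := hex
    have hΔ : E.Δ ≠ 0 := E.isUnit_Δ.ne_zero
    obtain ⟨e₁, e₂, e₃, hs⟩ := exists_splits (two_ne_zero : (2 : ℚ) ≠ 0) (T₁ := T₁.1)
      (T₂ := T₂.1) (fun h0 => h₁ (Subtype.ext h0)) (fun h0 => h₂ (Subtype.ext h0))
      (fun h0 => hne (Subtype.ext h0))
      (by rw [← two_nsmul]; exact congrArg Subtype.val k₁)
      (by rw [← two_nsmul]; exact congrArg Subtype.val k₂)
    obtain ⟨m, -, ⟨e⟩⟩ := mazur_full E (card_two_torsion two_ne_zero hΔ hs) hs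
    apply h
    rw [Nat.card_congr e.toEquiv, Nat.card_prod, Nat.card_zmod, Nat.card_zmod]
    exact ⟨m, by ring⟩
  · exact card_torsion_le_prime E hp hp2

/-- **Mazur's theorem up to the orders 13, 18, 21, 25, 35**: the torsion subgroup of `E(ℚ)` is
one of the fifteen groups `ℤ/n`, `n = 1, ..., 10, 12`, `ℤ/2 × ℤ/2m`, `m = 1, ..., 4`, unless
`E(ℚ)` has a point of order `13`, `18`, `21`, `25` or `35`. -/
theorem mazur_up_to :
    (∃ n ∈ ({1, 2, 3, 4, 5, 6, 7, 8, 9, 10, 12} : Set ℕ),
      Nonempty (AddCommGroup.torsion E.toAffine.Point ≃+ ZMod n)) ∨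
    (∃ m ∈ ({1, 2, 3, 4} : Set ℕ),
      Nonempty (AddCommGroup.torsion E.toAffine.Point ≃+ ZMod 2 × ZMod (2 * m))) ∨
    ∃ d ∈ ({13, 18, 21, 25, 35} : Set ℕ), ∃ P : E.toAffine.Point, addOrderOf P = d := by
  by_cases h4 : 4 ∣ Nat.card (AddCommGroup.torsion E.toAffine.Point)
  · rcases mazur_four E h4 with ⟨n, hn, he⟩ | ⟨m, hm, he⟩
    · left
      refine ⟨n, ?_, he⟩
      rcases hn with rfl | rfl | rfl <;> simp
    · exact Or.inr (Or.inl ⟨m, hm, he⟩)
  · have hc := isAddCyclic_of_not_dvd E h4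
    obtain ⟨g, hg⟩ := IsAddCyclic.exists_ofOrder_eq_natCard
      (α := AddCommGroup.torsion E.toAffine.Point)
    have hg' := hg
    rw [addOrderOf_torsion_sub] at hg'
    have h0 : addOrderOf (g : E.toAffine.Point) ≠ 0 := by
      rw [hg']
      exact Nat.card_pos.ne'
    rcases addOrderOf_mem E h0 with h | ⟨d, hd, hdvd⟩
    · left
      refine ⟨_, h, ?_⟩
      rw [hg']
      exact ⟨(zmodAddCyclicAddEquiv hc).symm⟩
    · right; right
      obtain ⟨Q, hQ⟩ := exists_order_of_dvd h0 hdvd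
      exact ⟨d, hd, Q, hQ⟩

end Fermat.Agent.Cor.MT
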