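import Fermat.Agent.Corollaries.MordellWeil.Halve

/-!
# Points of an elliptic curve with complete rational 2-torsion

`W` is a Weierstrass curve over a field `F` with `2 ≠ 0` and 2-torsion polynomial
`4 (x - e₁) (x - e₂) (x - e₃)` (`Splits2`), `η = y + (a₁ x + a₃) / 2`, so that
`η² = (x - e₁) (x - e₂) (x - e₃)`.  `Co W P x η` : `P` is the point with abscissa `x` and `η`.
-/

set_option autoImplicit false

open WeierstrassCurve WeierstrassCurve.Affine
open Fermat.Agent.Cor.MordellWeil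

namespace Fermat.Agent.Cor.MT

variable {F : Type*} [Field F] {W : WeierstrassCurve F} {e₁ e₂ e₃ : F}

/-- `P` is the affine point with abscissa `x` and `y + (a₁ x + a₃) / 2 = η`. -/
def Co (W : WeierstrassCurve F) (P : W.toAffine.Point) (x η : F) : Prop :=
  ∃ y, ∃ h : W.toAffine.Nonsingular x y, P = Point.some x y h ∧ eta W x y = η

theorem exists_co {P : W.toAffine.Point} (hP : P ≠ 0) : ∃ x η, Co W P x η := by
  rcases P with _ | ⟨x, y, h⟩
  · exact absurd rfl hP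
  · exact ⟨x, eta W x y, y, h, rfl, rfl⟩

theorem Co.ne_zero {P : W.toAffine.Point} {x η : F} (h : Co W P x η) : P ≠ 0 := by
  obtain ⟨y, h, rfl, -⟩ := h
  exact Point.some_ne_zero h

theorem Co.unique {P : W.toAffine.Point} {x η x' η' : F} (h : Co W P x η) (h' : Co W P x' η') :
    x = x' ∧ η = η' := by
  obtain ⟨y, h, rfl, rfl⟩ := h
  obtain ⟨y', h', he, rfl⟩ := h'
  simp only [Point.some.injEq] at he
  obtain ⟨rfl, rfl⟩ := he
  exact ⟨rfl, rfl⟩

theorem eta_inj {x y y' : F} (h : eta W x y = eta W x y') : y = y' := by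
  unfold eta at h
  exact add_right_cancel h

theorem eta_negY (h2 : (2 : F) ≠ 0) (x y : F) : eta W x (W.toAffine.negY x y) = -eta W x y := by
  refine mul_left_cancel₀ h2 ?_
  have h3 := two_eta h2 W x y
  have h4 := two_eta h2 W x (W.toAffine.negY x y)
  rw [h4, mul_neg, h3]
  unfold negY
  ring

theorem Co.ext (h2 : (2 : F) ≠ 0) {P Q : W.toAffine.Point} {x η : F} (h : Co W P x η)
    (h' : Co W Q x η) : P = Q := by
  obtain ⟨y, h, rfl, rfl⟩ := h
  obtain ⟨y', h', rfl, he⟩ := h'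
  obtain rfl := eta_inj he
  rfl

theorem Co.neg (h2 : (2 : F) ≠ 0) {P : W.toAffine.Point} {x η : F} (h : Co W P x η) :
    Co W (-P) x (-η) := by
  obtain ⟨y, h, rfl, rfl⟩ := h
  exact ⟨_, _, rfl, eta_negY h2 x y⟩

theorem Co.sq (h2 : (2 : F) ≠ 0) (hs : Splits2 W e₁ e₂ e₃) {P : W.toAffine.Point} {x η : F}
    (h : Co W P x η) : η ^ 2 = (x - e₁) * (x - e₂) * (x - e₃) := by
  obtain ⟨y, h, rfl, rfl⟩ := h
  exact eta_sq h2 hs h.1

/-- two points with the same abscissa are equal or opposite -/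
theorem Co.eq_or_eq_neg (h2 : (2 : F) ≠ 0) (hs : Splits2 W e₁ e₂ e₃) {P Q : W.toAffine.Point}
    {x η η' : F} (h : Co W P x η) (h' : Co W Q x η') : P = Q ∨ P = -Q := by
  have h1 : η ^ 2 = η' ^ 2 := by rw [h.sq h2 hs, h'.sq h2 hs]
  rcases sq_eq_sq_iff_eq_or_eq_neg.1 h1 with rfl | rfl
  · exact Or.inl (h.ext h2 h')
  · exact Or.inr (h.ext h2 (h'.neg h2))

variable [DecidableEq F]

theorem Co.add_self_eq_zero_iff (h2 : (2 : F) ≠ 0) {P : W.toAffine.Point} {x η : F}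
    (h : Co W P x η) : P + P = 0 ↔ η = 0 := by
  obtain ⟨y, h, rfl, rfl⟩ := h
  have h3 : y - W.toAffine.negY x y = 2 * eta W x y := by
    rw [two_eta h2]
    unfold negY
    ring
  constructor
  · intro h0
    by_contra hne
    have hY : y ≠ W.toAffine.negY x y := by
      intro h4
      rw [← sub_eq_zero, h3] at h4
      exact mul_ne_zero h2 hne h4
    rw [Point.add_self_of_Y_ne hY] at h0
    exact Point.some_ne_zero _ h0
  · intro h0
    have hY : y = W.toAffine.negY x y := by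
      rw [← sub_eq_zero, h3, h0, mul_zero]
    exact Point.add_self_of_Y_eq hY

/-- **Doubling**: the differences of the abscissa of `2 P` with the roots are squares
`r₁², r₂², r₃²`, and `P` is a rational function of `r₁, r₂, r₃`. -/
theorem Co.double (h2 : (2 : F) ≠ 0) (hs : Splits2 W e₁ e₂ e₃) {P : W.toAffine.Point} {x η : F}
    (h : Co W P x η) (hη : η ≠ 0) : ∃ X r₁ r₂ r₃ : F, Co W (P + P) X (r₁ * r₂ * r₃) ∧
      X - e₁ = r₁ ^ 2 ∧ X - e₂ = r₂ ^ 2 ∧ X - e₃ = r₃ ^ 2 ∧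
      x - e₁ = (r₁ + r₂) * (r₁ + r₃) ∧ x - e₂ = (r₂ + r₁) * (r₂ + r₃) ∧
      x - e₃ = (r₃ + r₁) * (r₃ + r₂) ∧ η = (r₁ + r₂) * (r₁ + r₃) * (r₂ + r₃) := by
  have hsq := h.sq h2 hs
  obtain ⟨y, h, rfl, hy⟩ := h
  obtain ⟨α, γ, ha1, ha3, ha2, ha4, ha6⟩ := exists_coeffs h2 hs
  have hy' : y = η - α * x - γ := by
    have h3 := two_eta h2 W x y
    rw [hy, ha1, ha3] at h3
    refine mul_left_cancel₀ h2 ?_
    linear_combination -h3
  have hneg : y - W.toAffine.negY x y = 2 * η := by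
    rw [← hy, two_eta h2]
    unfold negY
    ring
  have hne : y ≠ W.toAffine.negY x y := by
    intro h0
    rw [← sub_eq_zero, hneg] at h0
    exact mul_ne_zero h2 hη h0
  have h2η : 2 * η ≠ 0 := mul_ne_zero h2 hη
  set u₁ := x - e₁ with hu₁
  set u₂ := x - e₂ with hu₂
  set u₃ := x - e₃ with hu₃
  set r₁ := (u₁ * u₂ + u₁ * u₃ - u₂ * u₃) / (2 * η) with hr₁
  set r₂ := (u₂ * u₁ + u₂ * u₃ - u₁ * u₃) / (2 * η) with hr₂
  set r₃ := (u₃ * u₁ + u₃ * u₂ - u₁ * u₂) / (2 * η) with hr₃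
  have hsl : W.toAffine.slope x x y y = (r₁ + r₂ + r₃) - α := by
    rw [slope_of_Y_ne rfl hne, hneg, div_eq_iff h2η]
    have : (r₁ + r₂ + r₃ - α) * (2 * η) =
        (u₁ * u₂ + u₁ * u₃ + u₂ * u₃) - α * (2 * η) := by
      rw [hr₁, hr₂, hr₃]
      field_simp
      ring
    rw [this]
    change 3 * x ^ 2 + 2 * W.a₂ * x + W.a₄ - W.a₁ * y = _
    rw [ha1, ha2, ha4, hy', hu₁, hu₂, hu₃]
    ring
  have s12 : r₁ + r₂ = u₁ * u₂ / η := by
    rw [hr₁, hr₂]
    field_simp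
    ring
  have s13 : r₁ + r₃ = u₁ * u₃ / η := by
    rw [hr₁, hr₃]
    field_simp
    ring
  have s23 : r₂ + r₃ = u₂ * u₃ / η := by
    rw [hr₂, hr₃]
    field_simp
    ring
  have k1 : u₁ = (r₁ + r₂) * (r₁ + r₃) := by
    rw [s12, s13]
    field_simp
    rw [hsq]
    ring
  have k2 : u₂ = (r₂ + r₁) * (r₂ + r₃) := by
    rw [add_comm r₂ r₁, s12, s23]
    field_simp
    rw [hsq]
    ring
  have k3 : u₃ = (r₃ + r₁) * (r₃ + r₂) := by
    rw [add_comm r₃ r₁, add_comm r₃ r₂, s13, s23]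
    field_simp
    rw [hsq]
    ring
  have kη : η = (r₁ + r₂) * (r₁ + r₃) * (r₂ + r₃) := by
    rw [← k1, s23]
    field_simp
    rw [hsq]
  set X := x - (r₁ * r₂ + r₁ * r₃ + r₂ * r₃) with hX
  have e1 : e₁ = x - u₁ := by rw [hu₁]; ring
  have e2 : e₂ = x - u₂ := by rw [hu₂]; ring
  have e3 : e₃ = x - u₃ := by rw [hu₃]; ring
  have hX' : W.toAffine.addX x x (W.toAffine.slope x x y y) = X := by
    rw [hsl]
    change (r₁ + r₂ + r₃ - α) ^ 2 + W.a₁ * (r₁ + r₂ + r₃ - α) - W.a₂ - x - x = X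
    rw [ha1, ha2, e1, e2, e3, k1, k2, k3, hX]
    ring
  refine ⟨X, r₁, r₂, r₃, ⟨W.toAffine.addY x x y (W.toAffine.slope x x y y), ?_⟩, ?_, ?_, ?_,
    k1, k2, k3, kη⟩
  · have hns := nonsingular_add h h fun hxy => hne hxy.2
    rw [hX'] at hns
    refine ⟨hns, ?_, ?_⟩
    · rw [Point.add_self_of_Y_ne hne]
      simp only [Point.some.injEq, and_true]
      exact hX'
    · unfold addY negAddY
      rw [hX', hsl]
      refine mul_left_cancel₀ h2 ?_
      rw [two_eta h2]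
      unfold negY
      rw [ha1, ha3, hy', hX, kη]
      ring
  · rw [e1, k1, hX]; ring
  · rw [e2, k2, hX]; ring
  · rw [e3, k3, hX]; ring

end Fermat.Agent.Cor.MT
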